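import Mathlib

/-!
# S20, function-field layer: the tame different exponent

For an extension of Dedekind domains `B / A`, a maximal ideal `p` of `A` with residue field of
characteristic zero and a factorisation `p B = I * Q` with `I`, `Q` coprime, `I ≠ ⊤`, the different
ideal is not divisible by `I`.  With `I = P ^ e` this is the upper bound `v_P(𝔇) ≤ e - 1`; the lower
bound `P ^ (e - 1) ∣ 𝔇` is `pow_sub_one_dvd_differentIdeal` of Mathlib.
-/

set_option autoImplicit false

namespace Fermat.Agent.S20

open Module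

attribute [local instance] FractionRing.liftAlgebra FractionRing.isScalarTower_liftAlgebra
  Ideal.Quotient.field

section Tame

variable (A : Type*) {B : Type*} [CommRing A] [CommRing B] [Algebra A B]
  [IsDedekindDomain A] [IsDedekindDomain B] [IsTorsionFree A B] [Module.Finite A B]

/-- tame ramification: if `p B = I * Q` with `I`, `Q` coprime, `I` proper, and the residue field
`A ⧸ p` has characteristic zero, then `I` does not divide the different. -/
theorem not_dvd_differentIdeal_of_isCoprime_of_charZero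
    [Algebra.IsSeparable (FractionRing A) (FractionRing B)]
    {p : Ideal A} [p.IsMaximal] [CharZero (A ⧸ p)] (I Q : Ideal B) (hI : I ≠ ⊤)
    (hIQ : IsCoprime I Q) (hP : I * Q = Ideal.map (algebraMap A B) p) :
    ¬ I ∣ differentIdeal A B := by
  let : Algebra (A ⧸ p) (B ⧸ Q) := Ideal.Quotient.algebraQuotientOfLEComap (by
      rw [← Ideal.map_le_iff_le_comap, ← hP]
      exact Ideal.mul_le_right)
  let : Algebra (A ⧸ p) (B ⧸ I) := Ideal.Quotient.algebraQuotientOfLEComap (by
      rw [← Ideal.map_le_iff_le_comap, ← hP]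
      exact Ideal.mul_le_left)
  have : IsScalarTower A (A ⧸ p) (B ⧸ Q) := .of_algebraMap_eq' rfl
  have : IsScalarTower A (A ⧸ p) (B ⧸ I) := .of_algebraMap_eq' rfl
  have : Module.Finite (A ⧸ p) (B ⧸ Q) :=
    Module.Finite.of_restrictScalars_finite A (A ⧸ p) (B ⧸ Q)
  have : Module.Finite (A ⧸ p) (B ⧸ I) :=
    Module.Finite.of_restrictScalars_finite A (A ⧸ p) (B ⧸ I)
  let e : (B ⧸ p.map (algebraMap A B)) ≃ₐ[A ⧸ p] ((B ⧸ I) × B ⧸ Q) :=
    { __ := (Ideal.quotEquivOfEq hP.symm).trans (Ideal.quotientMulEquivQuotientProd I Q hIQ),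
      commutes' := Quotient.ind fun _ ↦ rfl }
  obtain ⟨y, hy⟩ := Ideal.Quotient.mk_surjective (e.symm (1, 0))
  refine not_dvd_differentIdeal_of_intTrace_not_mem A I Q hP y ?_ ?_
  · have := congr((e $hy).2)
    simp at this
    simpa [e, Ideal.Quotient.eq_zero_iff_mem] using this
  · rw [← Ideal.Quotient.eq_zero_iff_mem, ← Algebra.trace_quotient_eq_of_isDedekindDomain,
      hy, Algebra.trace_eq_of_algEquiv, Algebra.trace_prod_apply]
    have hnt : Nontrivial (B ⧸ I) := Ideal.Quotient.nontrivial_iff.2 hI
    have h1 : Algebra.trace (A ⧸ p) (B ⧸ I) 1 = (finrank (A ⧸ p) (B ⧸ I) : A ⧸ p) := by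
      have := Algebra.trace_algebraMap (R := A ⧸ p) (S := B ⧸ I) 1
      rw [map_one] at this
      rw [this]; simp
    have hpos : 0 < finrank (A ⧸ p) (B ⧸ I) := Module.finrank_pos
    simp only [map_zero, add_zero, h1]
    exact_mod_cast hpos.ne'

end Tame

end Fermat.Agent.S20
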