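import Mathlib
import Fermat.Agent.S20.FFTame

/-!
# S20, function-field layer: the different of a tame extension of Dedekind domains

General setting `A ⊆ B` Dedekind, `B` the integral closure of `A` in a finite separable extension
`L / 𝕜`, all residue fields of characteristic zero (and, for the dimension count, equal to a base
field `K`).

* `ffdim_quotient_eq_card_normalizedFactors`: `dim_K (B ⧸ J)` is the number of prime factors of `J`.
* `ffval_mem_inv_iff`: membership in `J⁻¹` in terms of the adic valuations.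
* `ffdiff_emultiplicity_differentIdeal`: the different exponent is `e - 1`.
* `ffdiff_mem_traceDual_one_iff`: the trace dual of `B` is `{g | ∀ P, v_P(g) ≤ exp (e_P - 1)}`.
* `ffdiff_finrank_traceDual_quot`: `dim_K (B^# / B) = ∑ (e_P - 1)`.
-/

set_option autoImplicit false
set_option linter.unusedSectionVars false

namespace Fermat.Agent.S20

open Module UniqueFactorizationMonoid IsDedekindDomain HeightOneSpectrum WithZero nonZeroDivisors

section Dedekind

variable {B : Type*} [CommRing B] [IsDedekindDomain B]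

/-- in a Dedekind domain there is no ideal strictly between `P * J` and `J`. -/
theorem ffdim_span_sup_mul_eq {P J : Ideal B} (hP : Prime P) (hJ : J ≠ 0) {a : B} (ha : a ∈ J)
    (ha' : a ∉ P * J) : Ideal.span {a} ⊔ P * J = J := by
  have h1 : Ideal.span {a} ⊔ P * J ≤ J :=
    sup_le ((Ideal.span_singleton_le_iff_mem _).2 ha) Ideal.mul_le_right
  obtain ⟨Q, hQ⟩ := Ideal.dvd_iff_le.2 h1
  have h2 : J * Q ∣ J * P := by
    rw [← hQ, mul_comm J P]
    exact Ideal.dvd_iff_le.2 le_sup_right
  have h3 : Q ∣ P := (mul_dvd_mul_iff_left hJ).1 h2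
  rcases (hP.irreducible.dvd_iff).1 h3 with hu | hassoc
  · rw [hQ, Ideal.isUnit_iff.1 hu, Ideal.mul_top]
  · exfalso
    apply ha'
    have : Q = P := (associated_iff_eq.1 hassoc).symm
    rw [mul_comm P J, ← this, ← hQ]
    exact Ideal.mem_sup_left (Ideal.mem_span_singleton_self a)

variable (K : Type*) [Field K] [Algebra K B]

/-- one step of the filtration: `B ⧸ P * J` is an extension of `B ⧸ J` by a line. -/
theorem ffdim_quotient_mul_step
    (hres : ∀ P : Ideal B, P.IsMaximal → Function.Surjective (algebraMap K (B ⧸ P)))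
    {P J : Ideal B} (hP : Prime P) (hJ : J ≠ 0) [Module.Finite K (B ⧸ J)] :
    Module.Finite K (B ⧸ P * J) ∧ finrank K (B ⧸ P * J) = finrank K (B ⧸ J) + 1 := by
  have hPprime : P.IsPrime := Ideal.isPrime_of_prime hP
  have hPmax : P.IsMaximal := hPprime.isMaximal hP.ne_zero
  have hle : P * J ≤ J := Ideal.mul_le_right
  -- an element of `J` not in `P * J`
  have hlt : P * J < J := by
    refine lt_of_le_of_ne hle fun h => ?_
    have h1 : P * J = 1 * J := by rw [one_mul]; exact h
    have := mul_right_cancel₀ hJ h1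
    exact hPprime.ne_top (by simpa using this)
  obtain ⟨a, haJ, haPJ⟩ := SetLike.exists_of_lt hlt
  have hsup := ffdim_span_sup_mul_eq hP hJ haJ haPJ
  let f : (B ⧸ P * J) →ₗ[K] (B ⧸ J) := (Ideal.Quotient.factorₐ K hle).toLinearMap
  have hf : ∀ c : B, f (Ideal.Quotient.mk _ c) = Ideal.Quotient.mk _ c := fun c => rfl
  have hsurj : Function.Surjective f := by
    intro y
    obtain ⟨c, rfl⟩ := Ideal.Quotient.mk_surjective y
    exact ⟨Ideal.Quotient.mk _ c, hf c⟩
  have hker : LinearMap.ker f = K ∙ (Ideal.Quotient.mk (P * J) a) := by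
    apply le_antisymm
    · intro r hr
      obtain ⟨c, rfl⟩ := Ideal.Quotient.mk_surjective r
      rw [LinearMap.mem_ker, hf, Ideal.Quotient.eq_zero_iff_mem, ← hsup] at hr
      obtain ⟨d, e, he, hc⟩ := Ideal.mem_span_singleton_sup.1 hr
      obtain ⟨l, hl⟩ := hres P hPmax (Ideal.Quotient.mk P d)
      rw [Submodule.mem_span_singleton]
      refine ⟨l, ?_⟩
      rw [Algebra.smul_def, ← hc]
      have hl' : d - algebraMap K B l ∈ P := by
        rw [← Ideal.Quotient.eq, ← hl]; rfl
      rw [show algebraMap K (B ⧸ P * J) l = Ideal.Quotient.mk (P * J) (algebraMap K B l) from rfl,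
        ← map_mul, Ideal.Quotient.eq]
      have : algebraMap K B l * a - (d * a + e) = -((d - algebraMap K B l) * a) - e := by ring
      rw [this]
      exact sub_mem (neg_mem (Ideal.mul_mem_mul hl' haJ)) he
    · rw [Submodule.span_singleton_le_iff_mem, LinearMap.mem_ker, hf,
        Ideal.Quotient.eq_zero_iff_mem]
      exact haJ
  have hne : Ideal.Quotient.mk (P * J) a ≠ 0 := by
    rwa [ne_eq, Ideal.Quotient.eq_zero_iff_mem]
  have hfinker : Module.Finite K (LinearMap.ker f) := by
    rw [hker]; infer_instance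
  have hfinquot : Module.Finite K ((B ⧸ P * J) ⧸ LinearMap.ker f) :=
    Module.Finite.equiv (f.quotKerEquivOfSurjective hsurj).symm
  have hfin : Module.Finite K (B ⧸ P * J) := Module.Finite.of_submodule_quotient (LinearMap.ker f)
  refine ⟨hfin, ?_⟩
  have h1 := LinearMap.finrank_range_add_finrank_ker f
  rw [LinearMap.range_eq_top.2 hsurj, finrank_top, hker, finrank_span_singleton hne] at h1
  exact h1.symm

/-- the `K`-dimension of `B ⧸ J` is the number of prime factors of `J`, when all residue fields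
are `K`. -/
theorem ffdim_quotient_eq_card_normalizedFactors
    (hres : ∀ P : Ideal B, P.IsMaximal → Function.Surjective (algebraMap K (B ⧸ P)))
    (J : Ideal B) (hJ : J ≠ 0) :
    Module.Finite K (B ⧸ J) ∧ finrank K (B ⧸ J) = Multiset.card (normalizedFactors J) := by
  induction J using UniqueFactorizationMonoid.induction_on_prime with
  | h₁ => exact absurd rfl hJ
  | h₂ x hx =>
    have : x = ⊤ := Ideal.isUnit_iff.1 hx
    subst this
    have : Subsingleton (B ⧸ (⊤ : Ideal B)) := Ideal.Quotient.subsingleton_iff.2 rfl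
    refine ⟨inferInstance, ?_⟩
    rw [finrank_zero_of_subsingleton]
    have : normalizedFactors (⊤ : Ideal B) = 0 := by
      rw [← Ideal.one_eq_top]; exact normalizedFactors_one
    rw [this]; rfl
  | h₃ J P hJ0 hP ih =>
    obtain ⟨hfin, hrank⟩ := ih hJ0
    obtain ⟨h1, h2⟩ := ffdim_quotient_mul_step K hres hP hJ0
    refine ⟨h1, ?_⟩
    rw [h2, hrank, normalizedFactors_mul hP.ne_zero hJ0, Multiset.card_add,
      normalizedFactors_irreducible hP.irreducible, normalize_eq]
    simp [add_comm]

/-- the number of prime factors as a finite sum of multiplicities over the height one spectrum. -/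
theorem ffdim_card_normalizedFactors_eq_finsum (J : Ideal B) (hJ : J ≠ 0)
    (n : HeightOneSpectrum B → ℕ)
    (hn : ∀ P : HeightOneSpectrum B, emultiplicity P.asIdeal J = n P) :
    (Function.support n).Finite ∧ Multiset.card (normalizedFactors J) = ∑ᶠ P, n P := by
  classical
  have hcount : ∀ P : HeightOneSpectrum B, (normalizedFactors J).count P.asIdeal = n P := by
    intro P
    have h1 := emultiplicity_eq_count_normalizedFactors P.irreducible hJ
    rw [normalize_eq, hn P] at h1
    exact_mod_cast h1.symm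
  have hfin : {P : HeightOneSpectrum B | P.asIdeal ∣ J}.Finite := Ideal.finite_factors hJ
  have hsupp : Function.support n ⊆ {P : HeightOneSpectrum B | P.asIdeal ∣ J} := by
    intro P hP
    rw [Function.mem_support, ← hcount P, Multiset.count_ne_zero] at hP
    exact dvd_of_mem_normalizedFactors hP
  refine ⟨hfin.subset hsupp, ?_⟩
  rw [finsum_eq_sum_of_support_subset n (s := hfin.toFinset) (by simpa using hsupp)]
  rw [← Multiset.toFinset_sum_count_eq (normalizedFactors J)]
  symm
  refine Finset.sum_bij (fun P _ => P.asIdeal) ?_ ?_ ?_ ?_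
  · intro P hP
    rw [Set.Finite.mem_toFinset, Set.mem_ofPred_eq] at hP
    rw [Multiset.mem_toFinset]
    have := (mem_normalizedFactors_iff' hJ).2 ⟨P.irreducible, normalize_eq _, hP⟩
    exact this
  · intro P _ Q _ h
    exact HeightOneSpectrum.ext h
  · intro I hI
    rw [Multiset.mem_toFinset] at hI
    have hprime : Prime I := prime_of_normalized_factor I hI
    refine ⟨⟨I, Ideal.isPrime_of_prime hprime, hprime.ne_zero⟩, ?_, rfl⟩
    rw [Set.Finite.mem_toFinset, Set.mem_ofPred_eq]
    exact dvd_of_mem_normalizedFactors hI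
  · intro P _
    exact (hcount P).symm

end Dedekind

section Valuation

variable {B L : Type*} [CommRing B] [IsDedekindDomain B] [Field L] [Algebra B L]
  [IsFractionRing B L]

/-- membership in the inverse of an integral ideal, in terms of the adic valuations. -/
theorem ffval_mem_inv_iff (J : Ideal B) (hJ : J ≠ 0) (n : HeightOneSpectrum B → ℕ)
    (hn : ∀ P : HeightOneSpectrum B, emultiplicity P.asIdeal J = n P) (g : L) :
    g ∈ (J : FractionalIdeal B⁰ L)⁻¹ ↔
      ∀ P : HeightOneSpectrum B, P.valuation L g ≤ exp (n P : ℤ) := by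
  have hJ' : (J : FractionalIdeal B⁰ L) ≠ 0 := by
    rwa [ne_eq, FractionalIdeal.coeIdeal_eq_zero]
  rw [FractionalIdeal.mem_inv_iff hJ']
  constructor
  · intro h P
    obtain ⟨h1, h2⟩ := emultiplicity_eq_coe.1 (hn P)
    rw [Ideal.dvd_iff_le] at h1 h2
    obtain ⟨d, hdJ, hd⟩ := SetLike.not_le_iff_exists.1 h2
    have hd0 : d ≠ 0 := by
      rintro rfl; exact hd (zero_mem _)
    have hvd : ¬ P.valuation L (algebraMap B L d) ≤ exp (-((n P + 1 : ℕ) : ℤ)) := by
      rw [valuation_of_algebraMap, intValuation_le_pow_iff_mem]; exact hd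
    have hvd0 : P.valuation L (algebraMap B L d) ≠ 0 := by
      rw [ne_eq, Valuation.zero_iff]
      exact (map_ne_zero_iff _ (IsFractionRing.injective B L)).2 hd0
    obtain ⟨b, hb⟩ := (FractionalIdeal.mem_one_iff _).1
      (h (algebraMap B L d) ((FractionalIdeal.mem_coeIdeal _).2 ⟨d, hdJ, rfl⟩))
    have h3 : P.valuation L (g * algebraMap B L d) ≤ 1 := by
      rw [← hb]; exact P.valuation_le_one b
    rw [map_mul] at h3
    rcases eq_or_ne (P.valuation L g) 0 with h0 | h0
    · rw [h0]; exact zero_le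
    rw [← exp_log hvd0, exp_le_exp] at hvd
    rw [← exp_log hvd0, ← exp_log h0, ← exp_add, ← exp_zero, exp_le_exp] at h3
    rw [← exp_log h0, exp_le_exp]
    push_cast at hvd
    omega
  · intro h y hy
    obtain ⟨d, hdJ, rfl⟩ := (FractionalIdeal.mem_coeIdeal _).1 hy
    have := mem_integers_of_valuation_le_one L (g * algebraMap B L d) (fun P => by
      obtain ⟨h1, -⟩ := emultiplicity_eq_coe.1 (hn P)
      rw [Ideal.dvd_iff_le] at h1
      have hd : P.valuation L (algebraMap B L d) ≤ exp (-(n P : ℤ)) := by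
        rw [valuation_of_algebraMap, intValuation_le_pow_iff_mem]; exact h1 hdJ
      rw [map_mul]
      calc P.valuation L g * P.valuation L (algebraMap B L d)
          ≤ exp (n P : ℤ) * exp (-(n P : ℤ)) := mul_le_mul' (h P) hd
        _ = 1 := by rw [← exp_add, add_neg_cancel, exp_zero])
    obtain ⟨b, hb⟩ := this
    exact (FractionalIdeal.mem_one_iff _).2 ⟨b, hb⟩

end Valuation

section Quot

variable {B L : Type*} [CommRing B] [IsDedekindDomain B] [Field L] [Algebra B L]
  [IsFractionRing B L] (K : Type*) [Field K] [Algebra K B] [Algebra K L] [IsScalarTower K B L]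

/-- `B ≃ (1 : Submodule B L)`. -/
noncomputable def ffdimOneEquiv : B ≃ₗ[B] ↥(FractionalIdeal.coeToSubmodule (1 : FractionalIdeal B⁰ L)) :=
  (LinearEquiv.ofInjective (Algebra.linearMap B L) (IsFractionRing.injective B L)).trans
    (LinearEquiv.ofEq _ _ (by rw [FractionalIdeal.coe_one, Submodule.one_eq_range]))

theorem ffdimOneEquiv_apply (b : B) :
    ((ffdimOneEquiv (B := B) (L := L) b : ↥(FractionalIdeal.coeToSubmodule (1 : FractionalIdeal B⁰ L))) : L)
      = algebraMap B L b := rfl

/-- `J⁻¹ / B ≃ B / J` as `B`-modules. -/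
noncomputable def ffdimInvQuotEquiv (J : Ideal B) (hJ : J ≠ 0) :
    (↥(FractionalIdeal.coeToSubmodule ((J : FractionalIdeal B⁰ L)⁻¹)) ⧸
      (FractionalIdeal.coeToSubmodule (1 : FractionalIdeal B⁰ L)).submoduleOf
        (FractionalIdeal.coeToSubmodule ((J : FractionalIdeal B⁰ L)⁻¹)))
      ≃ₗ[B] (B ⧸ J) := by
  have hJ' : (J : FractionalIdeal B⁰ L) ≠ 0 := by
    rwa [ne_eq, FractionalIdeal.coeIdeal_eq_zero]
  have e1 := FractionalIdeal.quotientEquiv ((J : FractionalIdeal B⁰ L)⁻¹) 1 1
    (J : FractionalIdeal B⁰ L) (by rw [inv_mul_cancel₀ hJ', one_mul])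
    (by rw [FractionalIdeal.le_inv_comm (by simp) hJ', inv_one]; exact FractionalIdeal.coeIdeal_le_one)
    FractionalIdeal.coeIdeal_le_one hJ' (inv_ne_zero hJ')
  refine e1.trans (Submodule.Quotient.equiv _ _ (ffdimOneEquiv (B := B) (L := L)).symm ?_)
  ext b
  simp only [Submodule.mem_map, Submodule.mem_comap, Submodule.subtype_apply]
  constructor
  · rintro ⟨x, hx, rfl⟩
    obtain ⟨d, hd, hdx⟩ := (FractionalIdeal.mem_coeIdeal _).1 hx
    have : x = ffdimOneEquiv (B := B) (L := L) d := Subtype.ext hdx.symm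
    rw [this, LinearEquiv.coe_coe, LinearEquiv.symm_apply_apply]
    exact hd
  · intro hb
    refine ⟨ffdimOneEquiv (B := B) (L := L) b, ?_, by
      rw [LinearEquiv.coe_coe, LinearEquiv.symm_apply_apply]⟩
    exact (FractionalIdeal.mem_coeIdeal _).2 ⟨b, hb, rfl⟩

theorem ffdiff_finrank_quot_aux
    (hres : ∀ P : Ideal B, P.IsMaximal → Function.Surjective (algebraMap K (B ⧸ P)))
    (J : Ideal B) (hJ : J ≠ 0) (M N : Submodule B L)
    (hM : M = FractionalIdeal.coeToSubmodule ((J : FractionalIdeal B⁰ L)⁻¹))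
    (hN : N = FractionalIdeal.coeToSubmodule (1 : FractionalIdeal B⁰ L)) :
    Module.Finite K (↥M ⧸ N.submoduleOf M) ∧
      finrank K (↥M ⧸ N.submoduleOf M) = Multiset.card (normalizedFactors J) := by
  subst hM hN
  obtain ⟨h1, h2⟩ := ffdim_quotient_eq_card_normalizedFactors K hres J hJ
  let e := (ffdimInvQuotEquiv (L := L) J hJ).restrictScalars K
  exact ⟨Module.Finite.equiv e.symm, by rw [e.finrank_eq, h2]⟩

end Quot

section Different

variable (A 𝕜 L B : Type*) [CommRing A] [Field 𝕜] [CommRing B] [Field L]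
  [Algebra A 𝕜] [Algebra B L] [Algebra A B] [Algebra 𝕜 L] [Algebra A L]
  [IsScalarTower A 𝕜 L] [IsScalarTower A B L]
  [IsDedekindDomain A] [IsFractionRing A 𝕜] [FiniteDimensional 𝕜 L] [Algebra.IsSeparable 𝕜 L]
  [IsIntegralClosure B A L] [IsFractionRing B L] [IsDedekindDomain B]

include 𝕜 L in
theorem ffdiff_aux_instances :
    Module.IsTorsionFree A B ∧ Module.Finite A B := by
  have : Module.IsTorsionFree A L := .trans_faithfulSMul A 𝕜 L
  have h1 : Module.IsTorsionFree A B := IsIntegralClosure.isTorsionFree A L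
  exact ⟨h1, IsIntegralClosure.finite A 𝕜 L B⟩

attribute [local instance] FractionRing.liftAlgebra FractionRing.isScalarTower_liftAlgebra

include 𝕜 L in
theorem ffdiff_isSeparable_fractionRing [Module.IsTorsionFree A B] :
    Algebra.IsSeparable (FractionRing A) (FractionRing B) := by
  have H : RingHom.comp (algebraMap (FractionRing A) (FractionRing B))
      ↑(FractionRing.algEquiv A 𝕜).symm.toRingEquiv =
        RingHom.comp ↑(FractionRing.algEquiv B L).symm.toRingEquiv (algebraMap 𝕜 L) := by
    apply IsLocalization.ringHom_ext A⁰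
    ext
    simp only [RingHom.coe_comp, RingHom.coe_coe,
      AlgEquiv.coe_ringEquiv, Function.comp_apply, AlgEquiv.commutes,
      ← IsScalarTower.algebraMap_apply]
    rw [IsScalarTower.algebraMap_apply A B L, AlgEquiv.commutes, ← IsScalarTower.algebraMap_apply]
  exact Algebra.IsSeparable.of_equiv_equiv _ _ H

variable [Module.IsTorsionFree A B]

include 𝕜 L in
/-- tame ramification: the exponent of the different at `P` is `e - 1`. -/
theorem ffdiff_emultiplicity_differentIdeal (P : HeightOneSpectrum B)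
    [CharZero (A ⧸ P.asIdeal.under A)] (e : ℕ)
    (he : emultiplicity P.asIdeal ((P.asIdeal.under A).map (algebraMap A B)) = e) :
    emultiplicity P.asIdeal (differentIdeal A B) = (e - 1 : ℕ) := by
  have hfin : Module.Finite A B := (ffdiff_aux_instances A 𝕜 L B).2
  have hsep := ffdiff_isSeparable_fractionRing A 𝕜 L B
  set p := P.asIdeal.under A with hp
  have hpbot : p ≠ ⊥ := mt Ideal.eq_bot_of_comap_eq_bot P.ne_bot
  have hpmax : p.IsMaximal := Ideal.IsPrime.isMaximal inferInstance hpbot
  have hPmax : P.asIdeal.IsMaximal := P.isPrime.isMaximal P.ne_bot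
  obtain ⟨h1, h2⟩ := emultiplicity_eq_coe.1 he
  have hle : p.map (algebraMap A B) ≤ P.asIdeal := Ideal.map_comap_le
  have he1 : 1 ≤ e := by
    by_contra h
    have h0 : e = 0 := by omega
    apply h2
    rw [h0, zero_add, pow_one]
    exact Ideal.dvd_iff_le.2 hle
  rw [emultiplicity_eq_coe]
  refine ⟨pow_sub_one_dvd_differentIdeal A P.asIdeal e hpbot h1, ?_⟩
  rw [Nat.sub_add_cancel he1]
  obtain ⟨Q, hQ⟩ := h1
  have hQP : ¬ Q ≤ P.asIdeal := by
    intro hQP
    apply h2
    obtain ⟨Q', rfl⟩ := Ideal.dvd_iff_le.2 hQP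
    exact ⟨Q', by rw [hQ, pow_succ, mul_assoc]⟩
  have hcop : IsCoprime (P.asIdeal ^ e) Q := by
    apply IsCoprime.pow_left
    rw [Ideal.isCoprime_iff_sup_eq]
    by_contra hne
    have := hPmax.eq_of_le hne le_sup_left
    exact hQP (this ▸ le_sup_right)
  refine not_dvd_differentIdeal_of_isCoprime_of_charZero A (P.asIdeal ^ e) Q ?_ hcop hQ.symm
  intro htop
  have : P.asIdeal ^ e ≤ P.asIdeal := Ideal.pow_le_self (by omega)
  rw [htop] at this
  exact P.isPrime.ne_top (top_le_iff.1 this)

include 𝕜 L in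
theorem ffdiff_one_le_of_emultiplicity (P : HeightOneSpectrum B) (e : ℕ)
    (he : emultiplicity P.asIdeal ((P.asIdeal.under A).map (algebraMap A B)) = e) : 1 ≤ e := by
  obtain ⟨-, h2⟩ := emultiplicity_eq_coe.1 he
  by_contra h
  have h0 : e = 0 := by omega
  apply h2
  rw [h0, zero_add, pow_one]
  exact Ideal.dvd_iff_le.2 Ideal.map_comap_le

include 𝕜 in
/-- the trace dual of `B` is the inverse different, as submodules of `L`. -/
theorem ffdiff_traceDual_one_eq :
    Submodule.traceDual A 𝕜 (1 : Submodule B L) =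
      FractionalIdeal.coeToSubmodule ((differentIdeal A B : FractionalIdeal B⁰ L)⁻¹) := by
  rw [coeIdeal_differentIdeal A 𝕜 L B, inv_inv, FractionalIdeal.coe_dual_one]

include 𝕜 in
/-- (G1) the trace dual of `B`, in terms of valuations and ramification indices. -/
theorem ffdiff_mem_traceDual_one_iff (e : HeightOneSpectrum B → ℕ)
    (hchar : ∀ P : HeightOneSpectrum B, CharZero (A ⧸ P.asIdeal.under A))
    (he : ∀ P : HeightOneSpectrum B,
      emultiplicity P.asIdeal ((P.asIdeal.under A).map (algebraMap A B)) = e P) (g : L) :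
    g ∈ Submodule.traceDual A 𝕜 (1 : Submodule B L) ↔
      ∀ P : HeightOneSpectrum B, P.valuation L g ≤ exp ((e P : ℤ) - 1) := by
  have hfin : Module.Finite A B := (ffdiff_aux_instances A 𝕜 L B).2
  have hsep := ffdiff_isSeparable_fractionRing A 𝕜 L B
  rw [ffdiff_traceDual_one_eq A 𝕜 L B, FractionalIdeal.mem_coe,
    ffval_mem_inv_iff (differentIdeal A B) differentIdeal_ne_bot (fun P => e P - 1)
      (fun P => by
        have := hchar P
        exact ffdiff_emultiplicity_differentIdeal A 𝕜 L B P (e P) (he P))]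
  refine forall_congr' fun P => ?_
  have := ffdiff_one_le_of_emultiplicity A 𝕜 L B P (e P) (he P)
  rw [Nat.cast_sub this, Nat.cast_one]

variable (K : Type*) [Field K] [Algebra K B] [Algebra K L] [IsScalarTower K B L]

include 𝕜 in
/-- (G2) `dim_K (B^# / B) = ∑ (e_P - 1)`. -/
theorem ffdiff_finrank_traceDual_quot
    (hres : ∀ P : Ideal B, P.IsMaximal → Function.Surjective (algebraMap K (B ⧸ P)))
    (e : HeightOneSpectrum B → ℕ)
    (hchar : ∀ P : HeightOneSpectrum B, CharZero (A ⧸ P.asIdeal.under A))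
    (he : ∀ P : HeightOneSpectrum B,
      emultiplicity P.asIdeal ((P.asIdeal.under A).map (algebraMap A B)) = e P) :
    Module.Finite K (↥(Submodule.traceDual A 𝕜 (1 : Submodule B L)) ⧸
        (1 : Submodule B L).submoduleOf (Submodule.traceDual A 𝕜 (1 : Submodule B L))) ∧
      (Function.support fun P => e P - 1).Finite ∧
      finrank K (↥(Submodule.traceDual A 𝕜 (1 : Submodule B L)) ⧸
        (1 : Submodule B L).submoduleOf (Submodule.traceDual A 𝕜 (1 : Submodule B L)))
        = ∑ᶠ P, (e P - 1) := by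
  have hfin : Module.Finite A B := (ffdiff_aux_instances A 𝕜 L B).2
  have hsep := ffdiff_isSeparable_fractionRing A 𝕜 L B
  have hJ : differentIdeal A B ≠ 0 := differentIdeal_ne_bot
  obtain ⟨h1, h2⟩ := ffdiff_finrank_quot_aux (L := L) K hres (differentIdeal A B) hJ
    (Submodule.traceDual A 𝕜 (1 : Submodule B L)) 1 (ffdiff_traceDual_one_eq A 𝕜 L B)
    (FractionalIdeal.coe_one).symm
  obtain ⟨h3, h4⟩ := ffdim_card_normalizedFactors_eq_finsum (differentIdeal A B) hJ
    (fun P => e P - 1) (fun P => by
        have := hchar P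
        exact ffdiff_emultiplicity_differentIdeal A 𝕜 L B P (e P) (he P))
  exact ⟨h1, h3, h2.trans h4⟩

end Different

end Fermat.Agent.S20
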