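import Fermat.Agent.S20.FFMain

/-!
# S20: Riemann–Roch for the canonical class, in the Prelude language

`exists_holoDiff`: for a function field `F / K` of one variable (`K` algebraically closed of
characteristic zero, `x : F` transcendental with `F / K(x)` finite) the space of everywhere regular
differentials has dimension `1 + deg(div dx) / 2`.
-/

set_option autoImplicit false
set_option linter.unusedSectionVars false
set_option linter.style.haveILetI false

noncomputable section

namespace Fermat.Agent.S20

open Polynomial Module AlgebraicCurve IntermediateField KaehlerDifferential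

/-- (RR) the space of holomorphic differentials has dimension `1 + deg(div dx) / 2`. -/
theorem exists_holoDiff {K F : Type*} [Field K] [Field F] [Algebra K F] [IsAlgClosed K]
    [CharZero K] (x : F) (hx : Transcendental K x) [FiniteDimensional K⟮x⟯ F] :
    ∃ W : Submodule K Ω[F⁄K],
      (∀ η : Ω[F⁄K], η ∈ W ↔ ∀ w : Place K F, 0 ≤ w.ordDifferential η) ∧
      ∀ D : Divisor K F, (∀ w : Place K F, D w = w.ordDifferential (KaehlerDifferential.D K F x)) →
        2 * (Module.finrank K W : ℤ) = Divisor.degree D + 2 := by
  let e : RatFunc K ≃ₐ[K] K⟮x⟯ := RatFunc.algEquivOfTranscendental x hx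
  letI algP : Algebra K[X] F := (aeval x : K[X] →ₐ[K] F).toRingHom.toAlgebra
  letI algR : Algebra (RatFunc K) F :=
    ((algebraMap K⟮x⟯ F).comp (e : RatFunc K →+* K⟮x⟯)).toAlgebra
  have hP : ∀ p : K[X], algebraMap K[X] F p = aeval x p := fun p => rfl
  have hR : ∀ r : RatFunc K, algebraMap (RatFunc K) F r = ((e r : K⟮x⟯) : F) := fun r => rfl
  haveI t1 : IsScalarTower K[X] (RatFunc K) F := IsScalarTower.of_algebraMap_eq fun p => by
    rw [hP, hR, RatFunc.algEquivOfTranscendental_algebraMap]
    simp
  haveI t2 : IsScalarTower K K[X] F := IsScalarTower.of_algebraMap_eq fun c => by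
    rw [hP, Polynomial.algebraMap_apply, Algebra.algebraMap_self_apply, aeval_C]
  haveI t3 : IsScalarTower K (RatFunc K) F := IsScalarTower.of_algebraMap_eq fun c => by
    rw [hR, e.commutes]
    rfl
  haveI fd : FiniteDimensional (RatFunc K) F :=
    Module.Finite.of_equiv_equiv (A₁ := K⟮x⟯) (B₁ := F) (A₂ := RatFunc K) (B₂ := F)
      e.symm.toRingEquiv (RingEquiv.refl F) (by
        ext r
        simp [hR])
  have hX : ffX K F = x := by
    rw [ffX, hP, aeval_X]
  have hx' : Transcendental K (ffX K F) := by rw [hX]; exact hx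
  haveI fd' : FiniteDimensional K⟮ffX K F⟯ F := by rw [hX]; infer_instance
  haveI sep : Algebra.IsSeparable K⟮ffX K F⟯ F := inferInstance
  obtain ⟨H, h1, h2⟩ := ffmain_two_mul_finrank (K := K) (F := F) hx'
  refine ⟨H, h1, fun D hD => h2 D fun w => ?_⟩
  rw [hX]
  exact hD w

end Fermat.Agent.S20
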