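import Mathlib
import Fermat.Prelude.Def_ModularCurve_GenusNumerics

/-!
# S20 : packaging of nice functions as weight two cusp forms of level `Γ₀(N)`

* `exists_cuspForm_of_nice` : a holomorphic function on `ℍ`, invariant of weight two under `Γ₀(N)`,
  all of whose `SL(2,ℤ)`-translates vanish at `i∞`, is (the coercion of) a cusp form.
* `le_finrank_cuspForm_of_linearIndependent` : a `ℂ`-linearly independent family of such functions
  bounds the dimension of `S₂(Γ₀(N))` from below.
-/

set_option autoImplicit false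

noncomputable section

namespace Fermat.Agent.S20

open UpperHalfPlane ModularForm CongruenceSubgroup
open scoped MatrixGroups Manifold ModularForm

variable (N : ℕ) [NeZero N]

/-- A holomorphic function, invariant of weight `k` under `Γ₀(N)`, all of whose
`SL(2,ℤ)`-translates vanish at `i∞`, is a cusp form. -/
theorem exists_cuspForm_of_nice_weight (k : ℤ) (f : ℍ → ℂ) (hol : MDiff f)
    (inv : ∀ g ∈ Gamma0 N, f ∣[k] g = f)
    (van : ∀ d : SL(2, ℤ), IsZeroAtImInfty (f ∣[k] d)) :
    ∃ F : CuspForm (Gamma0 N) k, (F : ℍ → ℂ) = f := by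
  refine ⟨{ toFun := f, slash_action_eq' := ?_, holo' := hol, zero_at_cusps' := ?_ }, rfl⟩
  · intro γ hγ
    obtain ⟨g, hg, rfl⟩ := hγ
    exact inv g hg
  · intro c hc
    rw [Subgroup.IsArithmetic.isCusp_iff_isCusp_SL2Z] at hc
    rw [OnePoint.isZeroAt_iff_forall_SL2Z hc]
    intro γ _
    exact van γ

theorem exists_cuspForm_of_nice (f : ℍ → ℂ) (hol : MDiff f)
    (inv : ∀ g ∈ Gamma0 N, f ∣[(2 : ℤ)] g = f)
    (van : ∀ d : SL(2, ℤ), IsZeroAtImInfty (f ∣[(2 : ℤ)] d)) :
    ∃ F : CuspForm (Gamma0 N) 2, (F : ℍ → ℂ) = f :=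
  exists_cuspForm_of_nice_weight N 2 f hol inv van

/-- A linearly independent family of nice functions bounds `dim S₂(Γ₀(N))` from below. -/
theorem le_finrank_cuspForm_of_linearIndependent [FiniteDimensional ℂ (CuspForm (Gamma0 N) 2)]
    {ι : Type*} [Fintype ι] (f : ι → ℍ → ℂ)
    (hol : ∀ i, MDiff (f i))
    (inv : ∀ i, ∀ g ∈ Gamma0 N, f i ∣[(2 : ℤ)] g = f i)
    (van : ∀ i, ∀ d : SL(2, ℤ), IsZeroAtImInfty (f i ∣[(2 : ℤ)] d))
    (hli : LinearIndependent ℂ f) :
    Fintype.card ι ≤ Module.finrank ℂ (CuspForm (Gamma0 N) 2) := by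
  choose F hF using fun i => exists_cuspForm_of_nice N (f i) (hol i) (inv i) (van i)
  let L : CuspForm (Gamma0 N) 2 →ₗ[ℂ] (ℍ → ℂ) :=
    { toFun := fun G => (G : ℍ → ℂ)
      map_add' := fun _ _ => rfl
      map_smul' := fun _ _ => rfl }
  have hFli : LinearIndependent ℂ F := by
    apply LinearIndependent.of_comp L
    have : (L ∘ F) = f := funext fun i => hF i
    rw [this]
    exact hli
  exact hFli.fintype_card_le_finrank

end Fermat.Agent.S20
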