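import Mathlib
import Fermat.Agent.S24.X0Places
import Fermat.Agent.S24.LocalDiffModel
import Fermat.Agent.S24.JDeriv

/-!
# S20, part (D) (helper18): holomorphic differentials give cusp forms -- shared definitions

* `jPrime = (2πi)⁻¹ dj/dτ = -E₄² E₆ / Δ`, `jPrimeHol : HolRing`;
* `IsHolDiff N g` : the differential `g · dj` of `F = modularFunctionFieldBar N` has no pole at any
  place of `F / Qbar`;
* `polyJ N c : RBar N` : the element `c(j)` for `c ∈ Qbar[X]`.
-/

set_option autoImplicit false
set_option linter.unusedSectionVars false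

noncomputable section

namespace Fermat.Agent.S20

open Fermat.Agent.S24
open UpperHalfPlane ModularCurve IntermediateField AlgebraicCurve ModularForm Derivative
open scoped MatrixGroups Manifold ModularForm Real

/-- `j' = (2πi)⁻¹ dj/dτ = -E₄² E₆ / Δ`, a weakly holomorphic modular form of weight `2`. -/
def jPrime (τ : ℍ) : ℂ := - E₄ τ ^ 2 * E₆ τ / ModularForm.discriminant τ

theorem mdifferentiable_jPrime : MDiff jPrime := by
  have h4 : MDiff (fun τ : ℍ => E₄ τ ^ 2) := (ModularFormClass.holo E₄).pow 2
  have h6 : MDiff (fun τ : ℍ => E₆ τ) := ModularFormClass.holo E₆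
  have hΔ : MDiff (fun τ : ℍ => ModularForm.discriminant τ) :=
    ModularFormClass.holo CuspForm.discriminant
  intro τ
  exact ((h4 τ).neg.mul (h6 τ)).mul ((hΔ τ).inv (ModularForm.discriminant_ne_zero τ))

/-- `jPrime` is the normalised derivative `D jFun = (2πi)⁻¹ dj/dτ` (Mathlib's `D`). -/
theorem jPrime_eq_D : jPrime = D jFun := funext fun τ => (D_jFun τ).symm

/-- `j'` as an element of `HolRing`. -/
def jPrimeHol : HolRing := ⟨jPrime, mdifferentiable_jPrime⟩

@[simp] theorem coe_jPrimeHol : (jPrimeHol : ℍ → ℂ) = jPrime := rfl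

variable (N : ℕ) [NeZero N]

/-- `g · dj` has no pole at any place of `F / Qbar`. -/
def IsHolDiff (g : modularFunctionFieldBar N) : Prop :=
  ∀ v : Place QBar (modularFunctionFieldBar N),
    0 ≤ v.ord g + v.ordDifferential (KaehlerDifferential.D QBar (modularFunctionFieldBar N) (jBar N))

theorem aeval_jBar_mem_RBar (c : Polynomial QBar) : Polynomial.aeval (jBar N) c ∈ RBar N := by
  rw [← Polynomial.aeval_subalgebra_coe c (RBar N) ⟨jBar N, jBar_mem_RBar N⟩]
  exact SetLike.coe_mem _

/-- `c(j)` as an element of `RBar N`. -/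
def polyJ (c : Polynomial QBar) : RBar N := ⟨Polynomial.aeval (jBar N) c, aeval_jBar_mem_RBar N c⟩

@[simp] theorem coe_polyJ (c : Polynomial QBar) :
    ((polyJ N c : RBar N) : modularFunctionFieldBar N) = Polynomial.aeval (jBar N) c := rfl

end Fermat.Agent.S20
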