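import Mathlib
import Fermat.Agent.S20.HolDiffDefs
import Fermat.Agent.S24.Degree

/-!
# S20, leaf (A) : pure algebra

* `toHol_polyJ` : `toHol (c(j)) = c^ι(jFun)`;
* `polyJ_ne_zero`;
* `exists_eq_div_poly` : every element of the function field is `a / c(j)` with `a ∈ RBar N`;
* `exists_eq_div_poly_family` : common denominator for a finite family.
-/

set_option autoImplicit false
set_option linter.unusedSectionVars false

noncomputable section

namespace Fermat.Agent.S20

open Fermat.Agent.S24
open UpperHalfPlane ModularCurve IntermediateField AlgebraicCurve ModularForm Polynomial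
open scoped MatrixGroups Manifold ModularForm Real

variable (N : ℕ) [NeZero N]

/-- `polyJ` as the evaluation inside the subalgebra. -/
theorem hdalg_polyJ_eq_aeval (c : Polynomial QBar) :
    polyJ N c = Polynomial.aeval (⟨jBar N, jBar_mem_RBar N⟩ : RBar N) c := by
  apply Subtype.ext
  rw [coe_polyJ, ← Polynomial.aeval_subalgebra_coe c (RBar N) ⟨jBar N, jBar_mem_RBar N⟩]

/-- `toHol` of `c(j)` is `c^ι(jFun)`. -/
theorem toHol_polyJ (c : Polynomial QBar) (τ : ℍ) :
    (toHol N (polyJ N c) : ℍ → ℂ) τ = (c.map iotaBar).eval (jFun τ) := by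
  rw [hdalg_polyJ_eq_aeval]
  induction c using Polynomial.induction_on' with
  | add p q hp hq =>
    rw [map_add, map_add, Polynomial.map_add, Polynomial.eval_add, ← hp, ← hq]
    rfl
  | monomial n a =>
    rw [Polynomial.aeval_monomial, map_mul, map_pow, toHol_algebraMap, toHol_jBar,
      Polynomial.map_monomial, Polynomial.eval_monomial]
    rfl

theorem polyJ_ne_zero {c : Polynomial QBar} (hc : c ≠ 0) : polyJ N c ≠ 0 := by
  intro h
  have h1 : Polynomial.aeval (jBar N) c = 0 := by
    have := congrArg (fun x : RBar N => (x : modularFunctionFieldBar N)) h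
    simpa using this
  exact hc ((transcendental_iff_injective.mp (transcendental_jBar N))
    (by rw [h1, map_zero]))

/-- Evaluation of a polynomial over `Qbar[X]` at `(j, b)` with `b ∈ RBar N` stays in `RBar N`. -/
theorem hdalg_eval₂_mem_RBar (b : RBar N) (Q : Polynomial (Polynomial QBar)) :
    Polynomial.eval₂ ((Polynomial.aeval (jBar N)).toRingHom : Polynomial QBar →+* _)
      (b : modularFunctionFieldBar N) Q ∈ RBar N := by
  rw [Polynomial.eval₂_eq_sum_range]
  refine Subalgebra.sum_mem _ fun i _ => ?_
  refine Subalgebra.mul_mem _ ?_ (Subalgebra.pow_mem _ b.2 i)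
  exact aeval_jBar_mem_RBar N (Q.coeff i)

/-- A nonzero element of `RBar N` divides (in `RBar N`) a nonzero polynomial in `j`. -/
theorem hdalg_exists_mul_eq_aeval (b : RBar N) (hb : b ≠ 0) :
    ∃ (b' : RBar N) (c : Polynomial QBar), c ≠ 0 ∧
      (b : modularFunctionFieldBar N) * (b' : modularFunctionFieldBar N) =
        Polynomial.aeval (jBar N) c := by
  classical
  obtain ⟨P, hmonic, -, hP⟩ := exists_monic_of_mem_RBar b
  have hP0 : P ≠ 0 := hmonic.ne_zero
  obtain ⟨P1, hP1, hndvd⟩ := Polynomial.exists_eq_pow_rootMultiplicity_mul_and_not_dvd P hP0 0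
  set k := P.rootMultiplicity 0
  set φ : Polynomial QBar →+* modularFunctionFieldBar N :=
    (Polynomial.aeval (jBar N)).toRingHom with hφ
  have hb' : (b : modularFunctionFieldBar N) ≠ 0 := fun h => hb (Subtype.ext h)
  have hev : Polynomial.eval₂ φ (b : modularFunctionFieldBar N) P1 = 0 := by
    have h := hP
    rw [hP1, Polynomial.eval₂_mul, Polynomial.eval₂_pow] at h
    simp only [map_zero, sub_zero, Polynomial.eval₂_X] at h
    rcases mul_eq_zero.mp h with h | h
    · exact absurd (eq_zero_of_pow_eq_zero h) hb'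
    · exact h
  have hc0 : P1.coeff 0 ≠ 0 := by
    intro h0
    apply hndvd
    simp only [map_zero, sub_zero]
    exact Polynomial.X_dvd_iff.mpr h0
  refine ⟨⟨-(Polynomial.eval₂ φ (b : modularFunctionFieldBar N) P1.divX), ?_⟩, P1.coeff 0, hc0, ?_⟩
  · exact Subalgebra.neg_mem _ (hdalg_eval₂_mem_RBar N b _)
  · have hdecomp := Polynomial.divX_mul_X_add P1
    have h2 : Polynomial.eval₂ φ (b : modularFunctionFieldBar N)
        (P1.divX * X + C (P1.coeff 0)) = 0 := by
      rw [hdecomp]; exact hev
    rw [Polynomial.eval₂_add, Polynomial.eval₂_mul, Polynomial.eval₂_X, Polynomial.eval₂_C] at h2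
    show (b : modularFunctionFieldBar N) *
      -(Polynomial.eval₂ φ (b : modularFunctionFieldBar N) P1.divX) = _
    have h3 : φ (P1.coeff 0) = Polynomial.aeval (jBar N) (P1.coeff 0) := rfl
    rw [← h3]
    linear_combination (-1 : modularFunctionFieldBar N) * h2

/-- every element of the function field is `a / c(j)` with `a ∈ RBar N`. -/
theorem exists_eq_div_poly (g : modularFunctionFieldBar N) :
    ∃ (a : RBar N) (c : Polynomial QBar), c ≠ 0 ∧
      g * Polynomial.aeval (jBar N) c = (a : modularFunctionFieldBar N) := by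
  have hfrac := isFractionRing_RBar N
  obtain ⟨a0, b0, hb0, hg⟩ := IsFractionRing.div_surjective (A := RBar N) g
  have hb0' : b0 ≠ 0 := nonZeroDivisors.ne_zero hb0
  obtain ⟨b', c, hc, hbc⟩ := hdalg_exists_mul_eq_aeval N b0 hb0'
  refine ⟨a0 * b', c, hc, ?_⟩
  have hne : (b0 : modularFunctionFieldBar N) ≠ 0 := by
    intro h
    exact hb0' (Subtype.ext h)
  rw [← hbc, ← hg]
  show (a0 : modularFunctionFieldBar N) / (b0 : modularFunctionFieldBar N) *
    ((b0 : modularFunctionFieldBar N) * (b' : modularFunctionFieldBar N)) =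
      ((a0 * b' : RBar N) : modularFunctionFieldBar N)
  push_cast
  field_simp

/-- common denominator for a finite family. -/
theorem exists_eq_div_poly_family {ι : Type*} [Finite ι] (g : ι → modularFunctionFieldBar N) :
    ∃ (c : Polynomial QBar), c ≠ 0 ∧ ∀ i, ∃ a : RBar N,
      g i * Polynomial.aeval (jBar N) c = (a : modularFunctionFieldBar N) := by
  classical
  have := Fintype.ofFinite ι
  choose a c hc hac using fun i => exists_eq_div_poly N (g i)
  refine ⟨∏ i, c i, Finset.prod_ne_zero_iff.mpr fun i _ => hc i, fun i => ?_⟩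
  refine ⟨a i * polyJ N (∏ j ∈ Finset.univ.erase i, c j), ?_⟩
  rw [← Finset.mul_prod_erase Finset.univ c (Finset.mem_univ i), map_mul, ← mul_assoc, hac i]
  push_cast
  rfl

end Fermat.Agent.S20
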