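import Mathlib
import Fermat.Agent.S24.CuspExp

set_option autoImplicit false
set_option linter.unusedSectionVars false

/-!
S20 (lower bound), leaf (D5-core): division of cusp expansions.

If `f` is holomorphic on `ℍ`, `f * b = a` and `a`, `b` have expansions `A`, `B ≠ 0` in the local
parameter `exp (2πiτ/h)`, then `f` has the expansion `A / B`.
-/

noncomputable section

namespace Fermat.Agent.S20

open UpperHalfPlane Filter Topology Fermat.Agent.S24 Function
open scoped Manifold Real MatrixGroups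

variable {h : ℕ} [NeZero h]

/-- The function `τ ↦ exp (2πiτ/h) ^ k` on the upper half plane. -/
def qPow (h : ℕ) (k : ℤ) (τ : ℍ) : ℂ := Function.Periodic.qParam (h : ℝ) (τ : ℂ) ^ k

theorem cuspdiv_qPow_ne_zero (h : ℕ) (k : ℤ) (τ : ℍ) : qPow h k τ ≠ 0 :=
  zpow_ne_zero _ (Function.Periodic.qParam_ne_zero _)

theorem cuspdiv_qPow_add (h : ℕ) (k l : ℤ) (τ : ℍ) :
    qPow h (k + l) τ = qPow h k τ * qPow h l τ :=
  zpow_add₀ (Function.Periodic.qParam_ne_zero _) k l

theorem cuspdiv_qPow_zero (h : ℕ) (τ : ℍ) : qPow h 0 τ = 1 := zpow_zero _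

theorem cuspdiv_hasCuspExp_qPow (k : ℤ) :
    HasCuspExp h (qPow h k) (HahnSeries.single k (1 : ℂ)) := by
  rw [cuspExp_iff]
  intro τ
  have h0 : ∀ m : ℤ, m ≠ k →
      (HahnSeries.single k (1 : ℂ)).coeff m *
        Function.Periodic.qParam (h : ℝ) (τ : ℂ) ^ m = 0 := by
    intro m hm
    rw [HahnSeries.coeff_single_of_ne hm, zero_mul]
  have := hasSum_single k (fun m hm => h0 m hm)
  simpa [qPow] using this

theorem cuspdiv_mdiff_qPow (h : ℕ) (k : ℤ) : MDiff (qPow h k) := by
  have hG : Differentiable ℂ (fun z : ℂ => Function.Periodic.qParam (h : ℝ) z ^ k) := by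
    intro z
    exact (Function.Periodic.differentiable_qParam z).zpow
      (Or.inl (Function.Periodic.qParam_ne_zero z))
  exact hG.mdifferentiable.comp mdifferentiable_coe

/-- A function with a cusp expansion of width `h` is invariant under `τ ↦ τ + h`. -/
theorem cuspdiv_periodic {f : ℍ → ℂ} {S : LaurentSeries ℂ} (hS : HasCuspExp h f S) (τ : ℍ) :
    f (ModularGroup.T ^ (h : ℤ) • τ) = f τ := by
  have h1 := hS (ModularGroup.T ^ (h : ℤ) • τ)
  have h2 := hS τ
  have hh : (h : ℂ) ≠ 0 := Nat.cast_ne_zero.2 (NeZero.ne h)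
  have e : (fun m : ℤ => S.coeff m *
      Complex.exp (2 * π * Complex.I * m * ((ModularGroup.T ^ (h : ℤ) • τ : ℍ) : ℂ) / h)) =
      fun m : ℤ => S.coeff m * Complex.exp (2 * π * Complex.I * m * (τ : ℂ) / h) := by
    funext m
    congr 1
    rw [ModularGroup.coe_T_zpow_smul_eq]
    have : 2 * π * Complex.I * m * ((τ : ℂ) + ((h : ℤ) : ℂ)) / h =
        2 * π * Complex.I * m * (τ : ℂ) / h + m * (2 * π * Complex.I) := by
      push_cast
      field_simp
    rw [this, Complex.exp_add, Complex.exp_int_mul_two_pi_mul_I, mul_one]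
  rw [e] at h1
  exact h1.unique h2

/-- Periodicity on `ℍ` gives periodicity of `f ∘ ofComplex`. -/
theorem cuspdiv_periodic_comp {f : ℍ → ℂ} (hper : ∀ τ : ℍ, f (ModularGroup.T ^ (h : ℤ) • τ) = f τ) :
    Function.Periodic (f ∘ ofComplex) ((h : ℝ) : ℂ) := by
  intro z
  show f (ofComplex (z + ((h : ℝ) : ℂ))) = f (ofComplex z)
  rcases lt_or_ge 0 z.im with hz | hz
  · have hz' : 0 < (z + ((h : ℝ) : ℂ)).im := by simpa using hz
    have e : ofComplex (z + ((h : ℝ) : ℂ)) = ModularGroup.T ^ (h : ℤ) • ofComplex z := by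
      apply UpperHalfPlane.ext
      rw [ModularGroup.coe_T_zpow_smul_eq, ofComplex_apply_of_im_pos hz',
        ofComplex_apply_of_im_pos hz]
      simp
    rw [e, hper]
  · have hz' : (z + ((h : ℝ) : ℂ)).im ≤ 0 := by simpa using hz
    rw [ofComplex_apply_of_im_nonpos hz', ofComplex_apply_of_im_nonpos hz]

/-- A holomorphic, periodic function which is bounded at `i∞` has a cusp expansion. -/
theorem cuspdiv_exists_of_bounded {g : ℍ → ℂ} (hg : MDiff g)
    (hper : ∀ τ : ℍ, g (ModularGroup.T ^ (h : ℤ) • τ) = g τ) (hbdd : IsBoundedAtImInfty g) :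
    HasCuspExp h g (HahnSeries.ofPowerSeries ℤ ℂ (qExpansion (h : ℝ) g)) := by
  rw [cuspExp_iff]
  intro τ
  have hh : (0 : ℝ) < (h : ℝ) := cuspExp_pos h
  have h1 := hasSum_qExpansion hh (cuspdiv_periodic_comp hper) hg hbdd τ
  have hinj : Function.Injective (fun n : ℕ => (n : ℤ)) := Nat.cast_injective
  refine (hinj.hasSum_iff ?_).1 ?_
  · intro m hm
    have hneg : m < 0 := by
      by_contra hge
      push Not at hge
      exact hm ⟨m.toNat, Int.toNat_of_nonneg hge⟩
    have : (HahnSeries.ofPowerSeries ℤ ℂ (qExpansion (h : ℝ) g)).coeff m = 0 := by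
      have := PowerSeries.coeff_coe (f := qExpansion (h : ℝ) g) m
      rw [if_pos hneg] at this
      exact this
    rw [this, zero_mul]
  · have e : ((fun m : ℤ => (HahnSeries.ofPowerSeries ℤ ℂ (qExpansion (h : ℝ) g)).coeff m *
        Function.Periodic.qParam (h : ℝ) (τ : ℂ) ^ m) ∘ fun n : ℕ => (n : ℤ)) =
        fun n : ℕ => (qExpansion (h : ℝ) g).coeff n • Function.Periodic.qParam (h : ℝ) (τ : ℂ) ^ n := by
      funext n
      simp only [Function.comp_apply, smul_eq_mul, zpow_natCast]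
      congr 1
      exact LaurentSeries.coeff_coe_powerSeries _ n
    rw [e]
    exact h1

/-- Shifting an expansion so that it starts in degree `0`: the shifted function tends to the
leading coefficient. -/
theorem cuspdiv_tendsto_leading {b : ℍ → ℂ} {B : LaurentSeries ℂ} (hB : HasCuspExp h b B) :
    Tendsto (fun τ => b τ * qPow h (-B.order) τ) atImInfty (𝓝 (B.coeff B.order)) := by
  have h1 : HasCuspExp h (b * qPow h (-B.order)) (B * HahnSeries.single (-B.order) (1 : ℂ)) :=
    hB.mul (cuspdiv_hasCuspExp_qPow _)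
  have h2 : HasCuspExp h ((b * qPow h (-B.order)) + -(fun _ => B.coeff B.order))
      (B * HahnSeries.single (-B.order) (1 : ℂ) + -(HahnSeries.C (B.coeff B.order))) :=
    h1.add (HasCuspExp.const (h := h) (B.coeff B.order)).neg
  have h3 : IsZeroAtImInfty ((b * qPow h (-B.order)) + -(fun _ => B.coeff B.order)) := by
    refine h2.isZeroAtImInfty ?_
    intro m hm
    rw [HahnSeries.coeff_add, HahnSeries.coeff_neg, HahnSeries.coeff_mul_single, mul_one,
      sub_neg_eq_add]
    rcases eq_or_lt_of_le hm with rfl | hlt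
    · rw [zero_add, HahnSeries.C_apply, HahnSeries.coeff_single_same, add_neg_cancel]
    · rw [HahnSeries.coeff_eq_zero_of_lt_order (by linarith), HahnSeries.C_apply,
        HahnSeries.coeff_single_of_ne hlt.ne, neg_zero, add_zero]
  have h4 : Tendsto ((b * qPow h (-B.order)) + -(fun _ => B.coeff B.order)) atImInfty (𝓝 0) := h3
  have h5 := h4.add_const (B.coeff B.order)
  rw [zero_add] at h5
  refine h5.congr (fun τ => ?_)
  simp

/-- The shifted function is bounded at `i∞`. -/
theorem cuspdiv_bounded_shift {a : ℍ → ℂ} {A : LaurentSeries ℂ} (hA : HasCuspExp h a A) :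
    IsBoundedAtImInfty (fun τ => a τ * qPow h (-A.order) τ) := by
  have h1 : HasCuspExp h (a * qPow h (-A.order)) (A * HahnSeries.single (-A.order) (1 : ℂ)) :=
    hA.mul (cuspdiv_hasCuspExp_qPow _)
  refine h1.isBoundedAtImInfty ?_
  intro m hm
  rw [HahnSeries.coeff_mul_single, mul_one, sub_neg_eq_add]
  exact HahnSeries.coeff_eq_zero_of_lt_order (by linarith)

/-- **Division of cusp expansions.** -/
theorem HasCuspExp.of_mul_eq {f a b : ℍ → ℂ} {A B : LaurentSeries ℂ} (hf : MDiff f)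
    (hb : MDiff b) (hfb : ∀ τ, f τ * b τ = a τ) (hA : HasCuspExp h a A) (hB : HasCuspExp h b B)
    (hB0 : B ≠ 0) : HasCuspExp h f (A / B) := by
  -- `b` is not the zero function
  have hb0 : (⟨b, hb⟩ : HolRing) ≠ 0 := by
    intro h0
    have hb' : b = 0 := congrArg Subtype.val h0
    rw [hb'] at hB
    exact hB0 (cuspExp_eq_zero_of_zero hB)
  -- periodicity of `f`
  have hfper : ∀ τ : ℍ, f (ModularGroup.T ^ (h : ℤ) • τ) = f τ := by
    have hdet : 0 < ((ModularGroup.T ^ (h : ℤ) : SL(2, ℤ)) : GL (Fin 2) ℝ).det.val := by simp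
    have hfT : MDiff (fun τ : ℍ => f (ModularGroup.T ^ (h : ℤ) • τ)) :=
      hf.comp (mdifferentiable_smul hdet)
    have hmul : ((⟨fun τ : ℍ => f (ModularGroup.T ^ (h : ℤ) • τ), hfT⟩ : HolRing) - ⟨f, hf⟩) *
        ⟨b, hb⟩ = 0 := by
      apply Subtype.ext
      funext τ
      show (f (ModularGroup.T ^ (h : ℤ) • τ) - f τ) * b τ = 0
      have e1 := hfb (ModularGroup.T ^ (h : ℤ) • τ)
      rw [cuspdiv_periodic hB, cuspdiv_periodic hA] at e1
      rw [sub_mul, e1, hfb, sub_self]
    rcases mul_eq_zero.mp hmul with h0 | h0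
    · intro τ
      have := congrFun (congrArg Subtype.val h0) τ
      exact sub_eq_zero.mp this
    · exact absurd h0 hb0
  -- the bounded auxiliary function
  set n : ℤ := B.order with hn
  set m : ℤ := A.order with hm
  set c : ℂ := B.coeff B.order with hc
  have hc0 : c ≠ 0 := fun h0 => hB0 (HahnSeries.coeff_order_eq_zero.mp h0)
  set g : ℍ → ℂ := fun τ => f τ * qPow h (n - m) τ with hg
  have hgmd : MDiff g := hf.mul (cuspdiv_mdiff_qPow h (n - m))
  have hgper : ∀ τ : ℍ, g (ModularGroup.T ^ (h : ℤ) • τ) = g τ := by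
    intro τ
    show f _ * qPow h (n - m) _ = f τ * qPow h (n - m) τ
    rw [hfper, cuspdiv_periodic (cuspdiv_hasCuspExp_qPow (h := h) (n - m))]
  have hgb : ∀ τ, g τ * (b τ * qPow h (-n) τ) = a τ * qPow h (-m) τ := by
    intro τ
    show f τ * qPow h (n - m) τ * (b τ * qPow h (-n) τ) = a τ * qPow h (-m) τ
    rw [← hfb τ]
    have : qPow h (-m) τ = qPow h (n - m) τ * qPow h (-n) τ := by
      rw [← cuspdiv_qPow_add]; congr 1; ring
    rw [this]; ring
  have hgbdd : IsBoundedAtImInfty g := by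
    have ht := cuspdiv_tendsto_leading hB
    have hbd := cuspdiv_bounded_shift hA
    have hev : ∀ᶠ τ in atImInfty, ‖c‖ / 2 ≤ ‖b τ * qPow h (-n) τ‖ := by
      have h1 : Tendsto (fun τ => ‖b τ * qPow h (-n) τ‖) atImInfty (𝓝 ‖c‖) := ht.norm
      have h2 : ‖c‖ / 2 < ‖c‖ := by
        have : 0 < ‖c‖ := norm_pos_iff.mpr hc0
        linarith
      exact (h1.eventually (lt_mem_nhds h2)).mono (fun τ hτ => hτ.le)
    rw [IsBoundedAtImInfty, BoundedAtFilter] at hbd ⊢
    obtain ⟨M, hM⟩ := hbd.bound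
    refine Asymptotics.IsBigO.of_bound (M / (‖c‖ / 2)) ?_
    filter_upwards [hM, hev] with τ h1 h2
    have hpos : 0 < ‖c‖ / 2 := by
      have : 0 < ‖c‖ := norm_pos_iff.mpr hc0
      linarith
    have hb1 : 0 < ‖b τ * qPow h (-n) τ‖ := lt_of_lt_of_le hpos h2
    have e := congrArg norm (hgb τ)
    rw [norm_mul] at e
    simp only [Pi.one_apply, norm_one, mul_one] at h1 ⊢
    have hM0 : 0 ≤ M := le_trans (norm_nonneg _) h1
    rw [div_eq_mul_inv]
    calc ‖g τ‖ = ‖a τ * qPow h (-m) τ‖ / ‖b τ * qPow h (-n) τ‖ := by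
          rw [← e, mul_div_cancel_right₀ _ hb1.ne']
      _ ≤ M / (‖c‖ / 2) := div_le_div₀ hM0 h1 hpos h2
      _ = M * (‖c‖ / 2)⁻¹ := div_eq_mul_inv _ _
  have hG := cuspdiv_exists_of_bounded hgmd hgper hgbdd
  -- back to `f`
  have hfS : HasCuspExp h f (HahnSeries.ofPowerSeries ℤ ℂ (qExpansion (h : ℝ) g) *
      HahnSeries.single (m - n) (1 : ℂ)) := by
    have h1 := hG.mul (cuspdiv_hasCuspExp_qPow (h := h) (m - n))
    have e : g * qPow h (m - n) = f := by
      funext τ
      show f τ * qPow h (n - m) τ * qPow h (m - n) τ = f τ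
      rw [mul_assoc, ← cuspdiv_qPow_add, show n - m + (m - n) = 0 by ring, cuspdiv_qPow_zero,
        mul_one]
    rwa [e] at h1
  have hSB := hfS.mul hB
  have e2 : f * b = a := funext hfb
  rw [e2] at hSB
  have e3 := hSB.unique hA
  have e4 : HahnSeries.ofPowerSeries ℤ ℂ (qExpansion (h : ℝ) g) *
      HahnSeries.single (m - n) (1 : ℂ) = A / B := by
    rw [eq_div_iff hB0]
    exact e3
  rw [← e4]
  exact hfS

/-- An expansion of positive order tends to zero at `i∞`. -/
theorem cuspdiv_isZeroAtImInfty {f : ℍ → ℂ} {S : LaurentSeries ℂ} (hS : HasCuspExp h f S)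
    (h1 : 0 < S.order) : IsZeroAtImInfty f :=
  hS.isZeroAtImInfty (fun _ hm => HahnSeries.coeff_eq_zero_of_lt_order (lt_of_le_of_lt hm h1))

end Fermat.Agent.S20
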