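import Mathlib
import Fermat.Agent.S24.EmbCount

/-!
# S20 (helper18): the place of a function field induced by an embedding into `ℂ((w))`

`exists_place_of_embedding` : a ring hom `ε : F → ℂ((w))` which is "constant" on `K` (order `0` on
`K^×`) and non-constant (`order (ε t) ≠ 0` for some `t`) induces a place `κ` of `F / K` with
`order (ε f) = m · ord_κ f` for a positive integer `m`.  (This is the easy first half of the proof
of `exists_places_of_embeddings`, without any counting.)
-/

set_option autoImplicit false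

namespace Fermat.Agent.S20

open Fermat.Agent.S24 AlgebraicCurve WithZero

theorem exists_place_of_embedding {K F : Type*} [Field K] [Field F] [Algebra K F]
    (ε : F →+* LaurentSeries ℂ)
    (hKord : ∀ c : K, c ≠ 0 → (ε (algebraMap K F c)).order = 0)
    {t : F} (ht : (ε t).order ≠ 0) :
    ∃ (κ : Place K F) (m : ℤ), 0 < m ∧ ∀ f : F, f ≠ 0 → (ε f).order = m * κ.ord f := by
  have hεne : ∀ {f : F}, f ≠ 0 → ε f ≠ 0 := fun {f} hf =>
    (map_ne_zero_iff ε ε.injective).2 hf
  have ht0 : t ≠ 0 := by
    rintro rfl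
    apply ht
    rw [map_zero, HahnSeries.order_zero]
  let w : Valuation F ℤᵐ⁰ := (Valued.v : Valuation (LaurentSeries ℂ) ℤᵐ⁰).comap ε
  have hw : ∀ f, f ≠ 0 → w f = exp (-(ε f).order) := fun f hf => by
    show Valued.v (ε f) = _
    rw [embCount_valuation_eq_exp_neg_order (hεne hf)]
  have hk : ∀ a : K, w (algebraMap K F a) ≤ 1 := by
    intro a
    rcases eq_or_ne a 0 with rfl | ha
    · simp
    · rw [hw _ (by simpa using ha), hKord a ha, neg_zero, exp_zero]
  have hnt : ∃ x : F, x ≠ 0 ∧ w x ≠ 1 := by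
    refine ⟨t, ht0, ?_⟩
    rw [hw t ht0, ← exp_zero, ne_eq, exp_inj]
    omega
  obtain ⟨m, hm0, hm⟩ := exists_ord_placeOfValuation (k := K) w hk hnt
  refine ⟨placeOfValuation (k := K) w hk hnt, m, hm0, fun f hf => ?_⟩
  rw [← hm f hf, hw f hf, log_exp, neg_neg]

end Fermat.Agent.S20
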