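import Mathlib
import Fermat.Agent.S24.JDeriv
import Fermat.Agent.S23.Division

/-!
# S20 : weight two invariance of `g · j'`

* `D_jFun_smul`, `D_jFun_slash` : the normalised derivative `D j = (2πi)⁻¹ j'` of the modular
  invariant is invariant of weight two under `SL(2,ℤ)`; `mdifferentiable_D_jFun`.
* `hdform_mul_slash_of_invariant` : (weight zero invariant) × (weight `k` invariant) is weight `k` invariant.
* `hdform_slash_eq_of_mul_eq` : if `f * b = a` with `b ≠ 0` holomorphic and invariant of weight zero under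
  `γ` and `a` invariant of weight `k` under `γ`, then the holomorphic `f` is invariant of weight `k`.
-/

set_option autoImplicit false

noncomputable section

namespace Fermat.Agent.S20

open UpperHalfPlane hiding I
open Real Complex Filter Topology Function
open scoped Manifold MatrixGroups ModularForm
open Derivative EisensteinSeries ModularForm ModularGroup
open Fermat.Agent.S24

local notation "Δ" => ModularForm.discriminant

theorem D_jFun_smul (γ : SL(2, ℤ)) (τ : ℍ) :
    D jFun (γ • τ) = denom γ τ ^ (2 : ℤ) * D jFun τ := by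
  have h4 := levelOne_apply_smul E₄ γ τ
  have h6 := levelOne_apply_smul E₆ γ τ
  have h12 : Δ (γ • τ) = denom γ τ ^ (12 : ℤ) * Δ τ := by
    have hγ : (γ : GL (Fin 2) ℝ) ∈ 𝒮ℒ := ⟨γ, rfl⟩
    have := SlashInvariantForm.slash_action_eqn'' CuspForm.discriminant hγ τ
    simpa using this
  have hd : denom γ τ ≠ 0 := denom_ne_zero γ τ
  have hΔ := discriminant_ne_zero τ
  rw [D_jFun, D_jFun, h4, h6, h12]
  generalize denom γ τ = d at *
  have e4 : d ^ (4 : ℤ) = d ^ 4 := zpow_ofNat d 4
  have e6 : d ^ (6 : ℤ) = d ^ 6 := zpow_ofNat d 6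
  have e12 : d ^ (12 : ℤ) = d ^ 12 := zpow_ofNat d 12
  have e2 : d ^ (2 : ℤ) = d ^ 2 := zpow_ofNat d 2
  rw [e4, e6, e12, e2]
  generalize E₄ τ = x at *
  generalize E₆ τ = y at *
  generalize Δ τ = z at *
  field_simp

theorem D_jFun_slash (γ : SL(2, ℤ)) : (D jFun) ∣[(2 : ℤ)] γ = D jFun := by
  funext τ
  rw [ModularForm.SL_slash_apply, D_jFun_smul]
  have hd : denom γ τ ≠ 0 := denom_ne_zero γ τ
  rw [mul_comm, ← mul_assoc, ← zpow_add₀ hd]
  simp

theorem mdifferentiable_D_jFun : MDiff (D jFun) := by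
  have h4 : MDiff (fun τ : ℍ => E₄ τ ^ 2) := (ModularFormClass.holo E₄).pow 2
  have h6 : MDiff (fun τ : ℍ => E₆ τ) := ModularFormClass.holo E₆
  have hΔ : MDiff (fun τ : ℍ => ModularForm.discriminant τ) :=
    ModularFormClass.holo CuspForm.discriminant
  have : D jFun = fun τ : ℍ => -(E₄ τ ^ 2 * E₆ τ * (ModularForm.discriminant τ)⁻¹) := by
    funext τ
    rw [D_jFun]
    ring
  rw [this]
  intro τ
  exact (((h4 τ).mul (h6 τ)).mul ((hΔ τ).inv (ModularForm.discriminant_ne_zero τ))).neg

/-- (weight zero invariant) × (weight `k` invariant) is weight `k` invariant. -/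
theorem hdform_mul_slash_of_invariant {k : ℤ} {g f : ℍ → ℂ} {γ : SL(2, ℤ)}
    (hg : ∀ τ, g (γ • τ) = g τ) (hf : f ∣[k] γ = f) : (g * f) ∣[k] γ = g * f := by
  funext τ
  have := congrFun hf τ
  rw [ModularForm.SL_slash_apply] at this ⊢
  simp only [Pi.mul_apply]
  rw [hg τ, mul_assoc, this]

/-- If `f * b = a` with `b ≠ 0` holomorphic and `γ`-invariant of weight zero and `a`
invariant of weight `k` under `γ`, then the holomorphic function `f` is invariant of weight `k`. -/
theorem hdform_slash_eq_of_mul_eq {k : ℤ} {f a b : ℍ → ℂ} (hf : MDiff f) (hb : MDiff b) (hb0 : b ≠ 0)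
    (γ : SL(2, ℤ)) (hfb : ∀ τ, f τ * b τ = a τ) (ha : a ∣[k] γ = a)
    (hbγ : ∀ τ, b (γ • τ) = b τ) : f ∣[k] γ = f := by
  have hcont : Continuous (f ∣[k] γ) := by
    rw [ModularForm.SL_slash]
    exact (hf.slash k _).continuous
  apply Fermat.Agent.S23.division_eq_of_eq_on_ne_zero hb hb0 hcont hf.continuous
  intro τ hτ
  have h1 := congrFun ha τ
  rw [ModularForm.SL_slash_apply] at h1 ⊢
  rw [← hfb, ← hfb, hbγ] at h1
  have h2 : (f (γ • τ) * denom γ τ ^ (-k)) * b τ = f τ * b τ := by
    rw [← h1]; ring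
  exact mul_right_cancel₀ hτ h2

end Fermat.Agent.S20
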