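import Mathlib
import Fermat.Agent.S20.HolDiffDefs
import Fermat.Agent.S20.EmbPlace
import Fermat.Agent.S20.CuspDiv
import Fermat.Agent.S20.Weight2

/-!
# S20, part (D), leaf (D) (helper18): vanishing at the cusps

If `g · dj` is a holomorphic differential of `F = modularFunctionFieldBar N`, `g = a / c(j)` with
`a ∈ RBar N`, and `f ∈ HolRing` satisfies `f · c(jFun) = toHol a · j'`, then `f ∣[2] γ` tends to `0`
at `i∞` for every `γ ∈ SL(2, ℤ)`.

Proof: `(f ∣[2] γ) · C' = A' · j'` with `C' = γ⁻¹ • toHol (c(j))`, `A' = γ⁻¹ • toHol a`, which have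
expansions `ε (c(j))`, `ε a` in `exp(2πiτ/N)`, `ε := cuspEmb N γ⁻¹`.  The place `κ` of `ε`
(`EmbPlace`) is a pole of `j` of order `r`, `N = m r`; `ordDifferential_κ (dj) = -r - 1` (helper14)
and holomorphy give `order (ε g) ≥ N + m ≥ N + 1`, while `j' · q → -1`.
-/

set_option autoImplicit false
set_option linter.unusedSectionVars false

noncomputable section

namespace Fermat.Agent.S20

open Fermat.Agent.S24
open UpperHalfPlane hiding I
open ModularCurve IntermediateField AlgebraicCurve ModularForm Derivative Filter Topology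
open scoped MatrixGroups Manifold ModularForm Real

variable (N : ℕ) [NeZero N]

/-- `j' · q → -1` at `i∞`. -/
theorem hdcusp_tendsto_jPrime_mul_q :
    Tendsto (fun τ : ℍ => jPrime τ * Function.Periodic.qParam 1 (τ : ℂ)) atImInfty (𝓝 (-1)) := by
  have hprod := ModularForm.tendsto_atImInfty_tprod_one_sub_eta_q_pow
  have h4 : Tendsto (fun τ : ℍ => E₄ τ ^ 2) atImInfty (𝓝 (1 ^ 2)) := tendsto_E₄_atImInfty.pow 2
  have h6 : Tendsto (fun τ : ℍ => E₆ τ) atImInfty (𝓝 1) := tendsto_E₆_atImInfty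
  have hq : Tendsto (fun τ : ℍ => -(E₄ τ ^ 2) * E₆ τ / ∏' (n : ℕ), (1 - eta_q n τ) ^ 24) atImInfty
      (𝓝 (-(1 ^ 2) * 1 / 1)) := ((h4.neg).mul h6).div hprod one_ne_zero
  have e : (-(1 ^ 2) * 1 / 1 : ℂ) = -1 := by norm_num
  rw [e] at hq
  refine hq.congr fun τ => ?_
  have hΔ := discriminant_ne_zero τ
  have hΔeq := discriminant_eq_q_prod τ
  have hqne : Function.Periodic.qParam 1 (τ : ℂ) ≠ 0 := Function.Periodic.qParam_ne_zero _
  have hprodne : (∏' (n : ℕ), (1 - eta_q n τ) ^ 24) ≠ 0 := by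
    intro h0
    rw [hΔeq, h0, mul_zero] at hΔ
    exact hΔ rfl
  unfold jPrime
  rw [hΔeq]
  field_simp

/-- the order of the expansion of `g` at any cusp is at least `N + 1` (in `exp(2πiτ/N)`). -/
theorem hdcusp_order_ge (g : modularFunctionFieldBar N) (hg : g ≠ 0) (hol : IsHolDiff N g)
    (γ : SL(2, ℤ)) : (N : ℤ) + 1 ≤ (cuspEmb N γ g).order := by
  have hKord : ∀ c : QBar, c ≠ 0 →
      (cuspEmb N γ (algebraMap QBar (modularFunctionFieldBar N) c)).order = 0 := by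
    intro c hc
    rw [cuspEmb_algebraMap]
    exact HahnSeries.order_C
  have hNpos : (0 : ℤ) < N := by exact_mod_cast NeZero.pos N
  have ht : (cuspEmb N γ (jBar N)⁻¹).order ≠ 0 := by
    rw [cuspEmb_jBar_inv_order]; exact hNpos.ne'
  obtain ⟨κ, m, hm0, hm⟩ := exists_place_of_embedding (K := QBar) (cuspEmb N γ) hKord ht
  have hsep := isSepGen_jBar N
  have hj0 : jBar N ≠ 0 := fun h => hsep.transcendental (h ▸ isAlgebraic_zero)
  have h1 : (N : ℤ) = m * κ.ord (jBar N)⁻¹ := by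
    rw [← hm _ (inv_ne_zero hj0), cuspEmb_jBar_inv_order]
  rw [κ.ord_inv] at h1
  have hneg : κ.ord (jBar N) < 0 := by
    by_contra hge
    push Not at hge
    nlinarith
  obtain ⟨r, hr, hr0⟩ : ∃ r : ℕ, κ.ord (jBar N) = -(r : ℤ) ∧ 0 < r :=
    ⟨(-κ.ord (jBar N)).toNat, by omega, by omega⟩
  have := hsep.finite
  have := hsep.separable
  have hdiff := place_ordDifferential_D_of_pole κ hsep.transcendental hr0 hr
  have hκ := hol κ
  rw [hdiff] at hκ
  rw [hm g hg]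
  rw [hr] at h1
  have hr0' : (0 : ℤ) < r := by exact_mod_cast hr0
  nlinarith

/-- the basic identity for the slashed quotient. -/
theorem hdcusp_slash_mul (a : RBar N) (c : Polynomial QBar) (f : HolRing)
    (hf : f * toHol N (polyJ N c) = toHol N a * jPrimeHol) (γ : SL(2, ℤ)) (τ : ℍ) :
    ((f : ℍ → ℂ) ∣[(2 : ℤ)] γ) τ * ((γ⁻¹ • toHol N (polyJ N c) : HolRing) : ℍ → ℂ) τ =
      ((γ⁻¹ • toHol N a : HolRing) : ℍ → ℂ) τ * jPrime τ := by
  have h1 := congrArg (fun F : HolRing => (F : ℍ → ℂ) (γ • τ)) hf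
  simp only [Subring.coe_mul, Pi.mul_apply, coe_jPrimeHol] at h1
  have hd : denom γ τ ≠ 0 := denom_ne_zero γ τ
  have h2 : jPrime (γ • τ) = denom γ τ ^ (2 : ℤ) * jPrime τ := by
    rw [jPrime_eq_D]; exact D_jFun_smul γ τ
  rw [ModularForm.SL_slash_apply, HolRing.inv_smul_apply, HolRing.inv_smul_apply]
  calc (f : ℍ → ℂ) (γ • τ) * denom γ τ ^ (-(2 : ℤ)) * (toHol N (polyJ N c) : ℍ → ℂ) (γ • τ)
      = ((f : ℍ → ℂ) (γ • τ) * (toHol N (polyJ N c) : ℍ → ℂ) (γ • τ)) *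
          denom γ τ ^ (-(2 : ℤ)) := by ring
    _ = (toHol N a : ℍ → ℂ) (γ • τ) * (denom γ τ ^ (2 : ℤ) * jPrime τ) *
          denom γ τ ^ (-(2 : ℤ)) := by rw [h1, h2]
    _ = (toHol N a : ℍ → ℂ) (γ • τ) * jPrime τ *
          (denom γ τ ^ (2 : ℤ) * denom γ τ ^ (-(2 : ℤ))) := by ring
    _ = (toHol N a : ℍ → ℂ) (γ • τ) * jPrime τ := by
        rw [← zpow_add₀ hd]; simp

theorem hdcusp_qPow_self (τ : ℍ) : qPow N (N : ℤ) τ = Function.Periodic.qParam 1 (τ : ℂ) := by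
  have hN : (N : ℂ) ≠ 0 := Nat.cast_ne_zero.2 (NeZero.ne N)
  unfold qPow Function.Periodic.qParam
  rw [zpow_natCast, ← Complex.exp_nat_mul]
  congr 1
  push_cast
  field_simp

theorem hdcusp_aeval_ne_zero {c : Polynomial QBar} (hc : c ≠ 0) :
    Polynomial.aeval (jBar N) c ≠ 0 := fun h =>
  (isSepGen_jBar N).transcendental ⟨c, hc, h⟩

/-- the quotient `toHol a · j' / c(jFun)` vanishes at every cusp. -/
theorem isZeroAtImInfty_slash_of_isHolDiff (g : modularFunctionFieldBar N) (hg : g ≠ 0)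
    (hol : IsHolDiff N g) (a : RBar N) (c : Polynomial QBar) (hc : c ≠ 0)
    (hac : g * Polynomial.aeval (jBar N) c = (a : modularFunctionFieldBar N)) (f : HolRing)
    (hf : f * toHol N (polyJ N c) = toHol N a * jPrimeHol) (γ : SL(2, ℤ)) :
    IsZeroAtImInfty ((f : ℍ → ℂ) ∣[(2 : ℤ)] γ) := by
  set SA : LaurentSeries ℂ := coeffMap iotaBar (cuspHom N γ⁻¹ a) with hSAdef
  set SC : LaurentSeries ℂ := coeffMap iotaBar (cuspHom N γ⁻¹ (polyJ N c)) with hSCdef
  have hA : HasCuspExp N ((γ⁻¹ • toHol N a : HolRing) : ℍ → ℂ) SA := hasCuspExp_cuspHom N γ⁻¹ a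
  have hC : HasCuspExp N ((γ⁻¹ • toHol N (polyJ N c) : HolRing) : ℍ → ℂ) SC :=
    hasCuspExp_cuspHom N γ⁻¹ (polyJ N c)
  have hSA : SA = cuspEmb N γ⁻¹ (a : modularFunctionFieldBar N) := (cuspEmb_coe N γ⁻¹ a).symm
  have hSC : SC = cuspEmb N γ⁻¹ (Polynomial.aeval (jBar N) c) :=
    (cuspEmb_coe N γ⁻¹ (polyJ N c)).symm
  have hpc : Polynomial.aeval (jBar N) c ≠ 0 := hdcusp_aeval_ne_zero N hc
  have hinj : Function.Injective (cuspEmb N γ⁻¹) := (cuspEmb N γ⁻¹).injective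
  have hSC0 : SC ≠ 0 := by rw [hSC]; exact (map_ne_zero_iff _ hinj).2 hpc
  have hεg0 : cuspEmb N γ⁻¹ g ≠ 0 := (map_ne_zero_iff _ hinj).2 hg
  have hord : SA.order = (cuspEmb N γ⁻¹ g).order + SC.order := by
    rw [hSA, ← hac, map_mul, ← hSC]
    exact HahnSeries.order_mul hεg0 hSC0
  have hge := hdcusp_order_ge N g hg hol γ⁻¹
  set k : ℤ := SA.order - N - SC.order with hk
  have hk1 : 1 ≤ k := by omega
  -- the three normalised functions
  have hu := cuspdiv_tendsto_leading hC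
  have hlead : SC.coeff SC.order ≠ 0 := fun h => hSC0 (HahnSeries.coeff_order_eq_zero.1 h)
  have hv := cuspdiv_bounded_shift hA
  have hw : Tendsto (fun τ : ℍ => jPrime τ * qPow N (N : ℤ) τ) atImInfty (𝓝 (-1)) := by
    refine (hdcusp_tendsto_jPrime_mul_q).congr fun τ => ?_
    rw [hdcusp_qPow_self]
  have hqk : Tendsto (qPow N k) atImInfty (𝓝 0) := by
    have h1 : HasCuspExp N (qPow N k) (HahnSeries.single k (1 : ℂ)) := cuspdiv_hasCuspExp_qPow k
    refine cuspdiv_isZeroAtImInfty h1 ?_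
    rw [HahnSeries.order_single one_ne_zero]
    omega
  have hz : Tendsto (fun τ : ℍ => (jPrime τ * qPow N (N : ℤ) τ) * qPow N k τ /
      (((γ⁻¹ • toHol N (polyJ N c) : HolRing) : ℍ → ℂ) τ * qPow N (-SC.order) τ))
      atImInfty (𝓝 0) := by
    have := (hw.mul hqk).div hu hlead
    rw [mul_zero, zero_div] at this
    exact this
  have hfin := hz.zero_mul_isBoundedUnder_le hv.isBoundedUnder_le
  refine Tendsto.congr' ?_ hfin
  filter_upwards [hu.eventually_ne hlead] with τ hτ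
  have hid := hdcusp_slash_mul N a c f hf γ τ
  have hq : qPow N (-SC.order) τ = qPow N (-SA.order) τ * qPow N (N : ℤ) τ * qPow N k τ := by
    rw [← cuspdiv_qPow_add, ← cuspdiv_qPow_add]
    congr 1
    omega
  rw [div_mul_eq_mul_div, div_eq_iff hτ]
  calc jPrime τ * qPow N (N : ℤ) τ * qPow N k τ *
        (((γ⁻¹ • toHol N a : HolRing) : ℍ → ℂ) τ * qPow N (-SA.order) τ)
      = (((γ⁻¹ • toHol N a : HolRing) : ℍ → ℂ) τ * jPrime τ) *
        (qPow N (-SA.order) τ * qPow N (N : ℤ) τ * qPow N k τ) := by ring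
    _ = (((f : ℍ → ℂ) ∣[(2 : ℤ)] γ) τ * ((γ⁻¹ • toHol N (polyJ N c) : HolRing) : ℍ → ℂ) τ) *
        qPow N (-SC.order) τ := by rw [hid, hq]
    _ = _ := by ring

end Fermat.Agent.S20
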