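import Mathlib
import Fermat.Agent.S20.HolDiffDefs
import Fermat.Agent.S20.HolDiffAlg
import Fermat.Agent.S20.Weight2

/-!
# S20, leaf (E) : weight two invariance of `toHol a · j' / c(jFun)`
-/

set_option autoImplicit false
set_option linter.unusedSectionVars false

noncomputable section

namespace Fermat.Agent.S20

open Fermat.Agent.S24
open UpperHalfPlane ModularCurve IntermediateField AlgebraicCurve ModularForm
open scoped MatrixGroups Manifold ModularForm Real

variable (N : ℕ) [NeZero N]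

theorem jPrime_slash (γ : SL(2, ℤ)) : jPrime ∣[(2 : ℤ)] γ = jPrime := by
  rw [jPrime_eq_D]
  exact D_jFun_slash γ

/-- Functions in the image of the bridge are invariant under `Γ₀(N)` (pointwise form). -/
theorem hdform_toHol_smul (x : RBar N) (γ : SL(2, ℤ)) (hγ : γ ∈ CongruenceSubgroup.Gamma0 N)
    (τ : ℍ) : (toHol N x : ℍ → ℂ) (γ • τ) = (toHol N x : ℍ → ℂ) τ := by
  have h := smul_toHol_of_mem_Gamma0 N γ⁻¹ (inv_mem hγ) x
  have h2 := HolRing.inv_smul_apply γ (toHol N x) τ
  rw [h] at h2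
  exact h2.symm

/-- the quotient `toHol a · j' / c(jFun)` is weight-2 invariant under `Γ₀(N)`. -/
theorem slash_eq_of_mul_eq (a : RBar N) (c : Polynomial QBar) (hc : c ≠ 0) (f : HolRing)
    (hf : f * toHol N (polyJ N c) = toHol N a * jPrimeHol)
    (γ : SL(2, ℤ)) (hγ : γ ∈ CongruenceSubgroup.Gamma0 N) :
    (f : ℍ → ℂ) ∣[(2 : ℤ)] γ = (f : ℍ → ℂ) := by
  have hb0 : (toHol N (polyJ N c) : ℍ → ℂ) ≠ 0 := by
    intro h
    have h1 : toHol N (polyJ N c) = 0 := Subtype.ext h
    have h2 : polyJ N c = 0 := toHol_injective N (by rw [h1, map_zero])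
    exact polyJ_ne_zero N hc h2
  refine hdform_slash_eq_of_mul_eq (k := 2) (a := (toHol N a : ℍ → ℂ) * jPrime) f.2
    (toHol N (polyJ N c)).2 hb0 γ ?_ ?_ ?_
  · intro τ
    have := congrArg (fun F : HolRing => (F : ℍ → ℂ) τ) hf
    simpa using this
  · exact hdform_mul_slash_of_invariant (fun τ => hdform_toHol_smul N a γ hγ τ) (jPrime_slash γ)
  · intro τ
    exact hdform_toHol_smul N (polyJ N c) γ hγ τ

end Fermat.Agent.S20
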