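import Mathlib
import Fermat.Prelude.Def_ModularCurve_LaurentCoeff

/-!
# S20 : coefficientwise linear disjointness

If `ι : K →+* L` is a homomorphism of fields, a `K`-linearly independent family of Laurent series
over `K` stays `L`-linearly independent after applying `ι` to the coefficients.
More generally for families of functions `X → K`.
-/

set_option autoImplicit false

noncomputable section

namespace Fermat.Agent.S20

open ModularCurve

/-- Functions `X → K` which are `K`-linearly independent stay `L`-linearly independent after
composition with a field homomorphism `K →+* L`. -/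
theorem linearIndependent_comp_ringHom {K L : Type*} [Field K] [Field L] (ι : K →+* L)
    {n : Type*} {X : Type*} (a : n → X → K) (ha : LinearIndependent K a) :
    LinearIndependent L (fun i => fun x => ι (a i x)) := by
  let _ : Algebra K L := ι.toAlgebra
  rw [linearIndependent_iff'] at ha ⊢
  intro s c hc i hi
  rw [← Module.forall_dual_apply_eq_zero_iff (R := K)]
  intro lam
  refine ha s (fun j => lam (c j)) ?_ i hi
  funext x
  have h1 := congrFun hc x
  simp only [Finset.sum_apply, Pi.smul_apply, smul_eq_mul, Pi.zero_apply] at h1 ⊢
  have h2 : lam (∑ j ∈ s, c j * ι (a j x)) = 0 := by rw [h1, map_zero]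
  rw [map_sum] at h2
  rw [← h2]
  refine Finset.sum_congr rfl fun j _ => ?_
  have : c j * ι (a j x) = (a j x) • c j := by
    rw [Algebra.smul_def, mul_comm]
    rfl
  rw [this, map_smul, smul_eq_mul, mul_comm]

/-- `K`-linearly independent Laurent series stay `L`-linearly independent after `coeffMap ι`. -/
theorem linearIndependent_coeffMap {K L : Type*} [Field K] [Field L] (ι : K →+* L)
    {n : Type*} (s : n → LaurentSeries K) (hs : LinearIndependent K s) :
    LinearIndependent L (fun i => coeffMap ι (s i)) := by
  have ha : LinearIndependent K (fun i => fun m : ℤ => (s i).coeff m) := by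
    rw [linearIndependent_iff'] at hs ⊢
    intro t c hc i hi
    refine hs t c ?_ i hi
    ext m
    have := congrFun hc m
    simpa using this
  have hb := linearIndependent_comp_ringHom ι _ ha
  rw [linearIndependent_iff'] at hb ⊢
  intro t c hc i hi
  refine hb t c ?_ i hi
  funext m
  have := congrArg (fun u : LaurentSeries L => u.coeff m) hc
  simpa [coeffMap_coeff] using this

end Fermat.Agent.S20
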