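import Mathlib
import Fermat.Agent.S20.HolDiffDefs
import Fermat.Agent.S20.LinDisjoint

/-!
# S20, leaf (F) : linear disjointness

* `linearIndependent_coeffMap_iotaBar` : `Qbar`-independent Laurent series stay `ℂ`-independent;
* `linearIndependent_toHol` : `Qbar`-independent elements of `RBar N` have `ℂ`-independent images.
-/

set_option autoImplicit false
set_option linter.unusedSectionVars false

noncomputable section

namespace Fermat.Agent.S20

open Fermat.Agent.S24
open UpperHalfPlane ModularCurve IntermediateField AlgebraicCurve ModularForm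
open scoped MatrixGroups Manifold ModularForm Real

variable (N : ℕ) [NeZero N]

/-- `Qbar`-linearly independent Laurent series stay `ℂ`-linearly independent. -/
theorem linearIndependent_coeffMap_iotaBar {ι : Type*} (s : ι → LaurentSeries QBar)
    (hs : LinearIndependent QBar s) :
    LinearIndependent ℂ (fun i => coeffMap iotaBar (s i)) :=
  linearIndependent_coeffMap iotaBar s hs

/-- Expansion of a finite `ℂ`-linear combination. -/
theorem hdind_hasCuspExp_sum {ι : Type*} (t : Finset ι) (c : ι → ℂ) (f : ι → ℍ → ℂ)
    (S : ι → LaurentSeries ℂ) (hf : ∀ i ∈ t, HasCuspExp 1 (f i) (S i)) :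
    HasCuspExp 1 (fun τ => ∑ i ∈ t, c i * f i τ) (∑ i ∈ t, c i • S i) := by
  classical
  induction t using Finset.induction_on with
  | empty =>
    simp only [Finset.sum_empty]
    have := HasCuspExp.const (h := 1) (0 : ℂ)
    simpa using this
  | insert i t hi ih =>
    have h1 : HasCuspExp 1 (fun τ => c i * f i τ) (c i • S i) := by
      have := (HasCuspExp.const (h := 1) (c i)).mul (hf i (Finset.mem_insert_self i t))
      rw [HahnSeries.C_mul_eq_smul] at this
      exact this
    have h2 := ih fun j hj => hf j (Finset.mem_insert_of_mem hj)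
    have h3 := h1.add h2
    rw [Finset.sum_insert hi]
    convert h3 using 1
    funext τ
    simp [Finset.sum_insert hi]

/-- `Qbar`-independent elements of `RBar N` have `ℂ`-independent images in `HolRing`. -/
theorem linearIndependent_toHol {ι : Type*} (a : ι → RBar N)
    (ha : LinearIndependent QBar (fun i => ((a i : RBar N) : modularFunctionFieldBar N))) :
    LinearIndependent ℂ (fun i => toHol N (a i)) := by
  have hcoe : ∀ (c : QBar) (x : modularFunctionFieldBar N),
      ((c • x : modularFunctionFieldBar N) : LaurentSeries QBar) = c • (x : LaurentSeries QBar) := by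
    intro c x
    rw [Algebra.smul_def, ← HahnSeries.C_mul_eq_smul, MulMemClass.coe_mul]
    have : ((algebraMap QBar (modularFunctionFieldBar N) c : modularFunctionFieldBar N) :
        LaurentSeries QBar) = HahnSeries.C c := by
      have h1 : ((algebraMap QBar (modularFunctionFieldBar N) c : modularFunctionFieldBar N) :
        LaurentSeries QBar) = algebraMap QBar (LaurentSeries QBar) c := rfl
      rw [h1, algebraMap_laurentSeries_eq_single]
      rfl
    rw [this]
  have hs : LinearIndependent QBar
      (fun i => (((a i : RBar N) : modularFunctionFieldBar N) : LaurentSeries QBar)) := by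
    rw [linearIndependent_iff'] at ha ⊢
    intro t c hc i hi
    refine ha t c ?_ i hi
    apply Subtype.ext
    have hsum : ((∑ j ∈ t, c j • ((a j : RBar N) : modularFunctionFieldBar N) :
        modularFunctionFieldBar N) : LaurentSeries QBar) =
        ∑ j ∈ t, ((c j • ((a j : RBar N) : modularFunctionFieldBar N) :
          modularFunctionFieldBar N) : LaurentSeries QBar) :=
      map_sum (modularFunctionFieldBar N).val.toRingHom _ t
    rw [hsum]
    simp only [hcoe]
    exact hc
  have hC := linearIndependent_coeffMap_iotaBar _ hs
  rw [linearIndependent_iff'] at hC ⊢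
  intro t c hc i hi
  refine hC t c ?_ i hi
  have hexp := hdind_hasCuspExp_sum t c (fun j => (toHol N (a j) : ℍ → ℂ))
    (fun j => coeffMap iotaBar
      (((a j : RBar N) : modularFunctionFieldBar N) : LaurentSeries QBar))
    (fun j _ => hasCuspExp_toHol N (a j))
  have hzero : (fun τ => ∑ j ∈ t, c j * (toHol N (a j) : ℍ → ℂ) τ) = fun _ => (0 : ℂ) := by
    funext τ
    have := congrArg (fun F : HolRing => (F : ℍ → ℂ) τ) hc
    simp only [ZeroMemClass.coe_zero, Pi.zero_apply] at this
    rw [← this]
    let ev : HolRing →+* ℂ := (Pi.evalRingHom (fun _ : ℍ => ℂ) τ).comp HolRing.subtype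
    have hsum : ((∑ j ∈ t, c j • toHol N (a j) : HolRing) : ℍ → ℂ) τ =
        ∑ j ∈ t, ev (c j • toHol N (a j)) := (map_sum ev _ t)
    rw [hsum]
    refine Finset.sum_congr rfl fun j _ => ?_
    rw [Algebra.smul_def]
    rfl
  rw [hzero] at hexp
  have h0 := HasCuspExp.const (h := 1) (0 : ℂ)
  have := hexp.unique h0
  simpa using this

end Fermat.Agent.S20
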