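import Mathlib
import Fermat.Agent.S20.HolDiffDefs
import Fermat.Agent.S20.EmbPlace
import Fermat.Agent.S24.EmbPoint

/-!
# S20, part (D), leaf (C): local analysis at the points of the upper half plane

* `analyticOrderAt_jPrime` : `ord_{τ₀} j' + 1 = ord_{τ₀} (j - j(τ₀))`;
* `mem_range_iotaBar_of_isAlgebraic` : algebraic complex numbers are in the image of `iotaBar`;
* `order_le_of_isHolDiff` : if `g · dj` has no poles and `g · c(j) = a ∈ RBar N` then
  `ord_{τ₀} c(jFun) ≤ ord_{τ₀} (toHol a · j')` at every `τ₀`.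
-/

set_option autoImplicit false
set_option linter.unusedSectionVars false

noncomputable section

namespace Fermat.Agent.S20

open Fermat.Agent.S24
open UpperHalfPlane ModularCurve IntermediateField AlgebraicCurve ModularForm Derivative
open scoped MatrixGroups Manifold ModularForm Real

/-- the order of `j'` at `τ₀` is one less than the order of `j - j(τ₀)`. -/
theorem analyticOrderAt_jPrime (τ₀ : ℍ) :
    analyticOrderAt (fun z : ℂ => jPrime (ofComplex z)) (τ₀ : ℂ) + 1 =
      analyticOrderAt (fun z : ℂ => jFun (ofComplex z) - jFun τ₀) (τ₀ : ℂ) := by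
  have han : AnalyticAt ℂ (jFun ∘ ofComplex) (τ₀ : ℂ) :=
    analyticAt_comp_ofComplex mdifferentiable_jFun τ₀
  have h1 := han.analyticOrderAt_deriv_add_one
  have e1 : (fun z : ℂ => (jFun ∘ ofComplex) z - (jFun ∘ ofComplex) (τ₀ : ℂ)) =
      fun z : ℂ => jFun (ofComplex z) - jFun τ₀ := by
    funext z
    simp [Function.comp, ofComplex_apply]
  rw [e1] at h1
  rw [← h1]
  congr 1
  have h2pi : (2 * (π : ℂ) * Complex.I) ≠ 0 := by
    simp [Real.pi_ne_zero]
  -- near `τ₀`, `jPrime ∘ ofComplex = (2πi)⁻¹ • deriv (jFun ∘ ofComplex)`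
  have hev : (fun z : ℂ => jPrime (ofComplex z)) =ᶠ[nhds (τ₀ : ℂ)]
      fun z : ℂ => (2 * (π : ℂ) * Complex.I)⁻¹ * deriv (jFun ∘ ofComplex) z := by
    filter_upwards [isOpen_upperHalfPlaneSet.mem_nhds τ₀.im_pos] with z hz
    rw [jPrime_eq_D]
    show normalizedDerivOfComplex jFun (ofComplex z) = _
    rw [normalizedDerivOfComplex, ofComplex_apply_of_im_pos hz]
  rw [analyticOrderAt_congr hev]
  have hc : AnalyticAt ℂ (fun _ : ℂ => (2 * (π : ℂ) * Complex.I)⁻¹) (τ₀ : ℂ) := analyticAt_const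
  have hmul := analyticOrderAt_mul hc han.deriv
  have h0 : analyticOrderAt (fun _ : ℂ => (2 * (π : ℂ) * Complex.I)⁻¹) (τ₀ : ℂ) = 0 :=
    analyticOrderAt_eq_zero.mpr (Or.inr (inv_ne_zero h2pi))
  rw [h0, zero_add] at hmul
  exact hmul

/-- roots in `ℂ` of nonzero polynomials with coefficients in `Qbar` lie in the image of `iotaBar`. -/
theorem hdloc_mem_range_of_isRoot {c : Polynomial QBar} (hc : c ≠ 0) {z : ℂ}
    (hz : (c.map iotaBar).eval z = 0) : z ∈ Set.range iotaBar := by
  have h := (IsAlgClosed.splits c).mem_range_of_isRoot hc (i := iotaBar) (x := z) hz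
  exact h

/-- a complex number algebraic over `ℚ` is in the image of `iotaBar`. -/
theorem mem_range_iotaBar_of_isAlgebraic {z : ℂ} (hz : IsAlgebraic ℚ z) :
    z ∈ Set.range iotaBar := by
  obtain ⟨p, hp0, hp⟩ := hz
  have hinj : Function.Injective (algebraMap ℚ QBar) := (algebraMap ℚ QBar).injective
  have hc : p.map (algebraMap ℚ QBar) ≠ 0 := (Polynomial.map_ne_zero_iff hinj).mpr hp0
  refine hdloc_mem_range_of_isRoot hc ?_
  rw [Polynomial.map_map]
  have : iotaBar.comp (algebraMap ℚ QBar) = algebraMap ℚ ℂ := Subsingleton.elim _ _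
  rw [this, Polynomial.eval_map_algebraMap]
  exact hp

variable (N : ℕ) [NeZero N]

/-- evaluation of a holomorphic function at a point, as a ring hom. -/
def hdlocEval (τ : ℍ) : HolRing →+* ℂ :=
  (Pi.evalRingHom (fun _ : ℍ => ℂ) τ).comp HolRing.subtype

@[simp] theorem hdlocEval_apply (τ : ℍ) (f : HolRing) : hdlocEval τ f = (f : ℍ → ℂ) τ := rfl

/-- `toHol` of `c(j)` is `c^ι(jFun)`. -/
theorem hdloc_toHol_polyJ (c : Polynomial QBar) (τ : ℍ) :
    (toHol N (polyJ N c) : ℍ → ℂ) τ = (c.map iotaBar).eval (jFun τ) := by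
  have e1 : polyJ N c = Polynomial.aeval (⟨jBar N, jBar_mem_RBar N⟩ : RBar N) c := by
    apply Subtype.ext
    rw [Polynomial.aeval_subalgebra_coe]
    rfl
  rw [← hdlocEval_apply, e1, Polynomial.aeval_def, Polynomial.hom_eval₂, Polynomial.hom_eval₂,
    Polynomial.eval_map, toHol_jBar]
  congr 1
  ext x
  show ((toHol N (algebraMap QBar (RBar N) x) : HolRing) : ℍ → ℂ) τ = iotaBar x
  rw [toHol_algebraMap]
  rfl

theorem hdloc_polyJ_ne_zero {c : Polynomial QBar} (hc : c ≠ 0) :
    Polynomial.aeval (jBar N) c ≠ 0 := by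
  intro h0
  exact hc ((transcendental_iff.mp (transcendental_jBar N)) c h0)

/-- the key local estimate at the points of the upper half plane. -/
theorem order_le_of_isHolDiff (g : modularFunctionFieldBar N) (hg : g ≠ 0) (hol : IsHolDiff N g)
    (a : RBar N) (c : Polynomial QBar) (hc : c ≠ 0)
    (hac : g * Polynomial.aeval (jBar N) c = (a : modularFunctionFieldBar N)) (τ₀ : ℍ) :
    analyticOrderAt (fun z : ℂ => (toHol N (polyJ N c) : ℍ → ℂ) (ofComplex z)) (τ₀ : ℂ) ≤
      analyticOrderAt (fun z : ℂ => ((toHol N a * jPrimeHol : HolRing) : ℍ → ℂ) (ofComplex z))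
        (τ₀ : ℂ) := by
  by_cases hval : (c.map iotaBar).eval (jFun τ₀) = 0
  swap
  · -- the denominator does not vanish at `τ₀`
    have h0 : analyticOrderAt (fun z : ℂ => (toHol N (polyJ N c) : ℍ → ℂ) (ofComplex z))
        (τ₀ : ℂ) = 0 := by
      apply analyticOrderAt_eq_zero.mpr
      right
      show (toHol N (polyJ N c) : ℍ → ℂ) (ofComplex (τ₀ : ℂ)) ≠ 0
      rw [ofComplex_apply, hdloc_toHol_polyJ]
      exact hval
    rw [h0]
    exact zero_le
  -- now `jFun τ₀` is algebraic
  obtain ⟨α, hα⟩ := hdloc_mem_range_of_isRoot hc hval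
  set ε := pointEmb N τ₀ 1 with hε
  -- the order `e` of `j - j(τ₀)`
  obtain ⟨e, he⟩ : ∃ e : ℕ, analyticOrderAt (fun z : ℂ => jFun (ofComplex z) - jFun τ₀)
      (τ₀ : ℂ) = e := by
    rw [analyticOrderAt_jFun_sub]
    split_ifs
    · exact ⟨3, rfl⟩
    · exact ⟨2, rfl⟩
    · exact ⟨1, rfl⟩
  have he0 : 0 < e := pos_of_analyticOrderAt_jFun_sub τ₀ e he
  set t : modularFunctionFieldBar N := jBar N - algebraMap QBar (modularFunctionFieldBar N) α with ht
  have hεt : (ε t).order = (e : ℤ) := order_pointEmb_jBar_sub N τ₀ 1 α hα.symm e he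
  have hKord : ∀ x : QBar, x ≠ 0 → (ε (algebraMap QBar (modularFunctionFieldBar N) x)).order = 0 := by
    intro x _
    rw [hε, pointEmb_algebraMap]
    exact HahnSeries.order_C
  obtain ⟨κ, m, hm0, hm⟩ := exists_place_of_embedding (K := QBar) ε hKord (t := t)
    (by rw [hεt]; exact_mod_cast he0.ne')
  have ht0 : t ≠ 0 := by
    intro h0
    rw [h0, map_zero, HahnSeries.order_zero] at hεt
    exact he0.ne' (by exact_mod_cast hεt.symm)
  -- `r = ord_κ t > 0` and `e = m r`
  have hmr : (e : ℤ) = m * κ.ord t := by rw [← hεt]; exact hm t ht0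
  have hr0 : 0 < κ.ord t := by
    by_contra hle
    push Not at hle
    have : m * κ.ord t ≤ 0 := mul_nonpos_of_nonneg_of_nonpos hm0.le hle
    have he' : (0 : ℤ) < e := by exact_mod_cast he0
    omega
  obtain ⟨r, hr⟩ : ∃ r : ℕ, κ.ord t = r := ⟨(κ.ord t).toNat, (Int.toNat_of_nonneg hr0.le).symm⟩
  have hr0' : 0 < r := by
    have : (0 : ℤ) < r := by rw [← hr]; exact hr0
    exact_mod_cast this
  -- the differential of `j` at `κ`
  have hsep := isSepGen_jBar N
  have := hsep.finite
  have := hsep.separable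
  have hjne : jBar N ≠ algebraMap QBar (modularFunctionFieldBar N) α := fun h => ht0 (by rw [ht, h, sub_self])
  have hdiff : κ.ordDifferential (KaehlerDifferential.D QBar (modularFunctionFieldBar N) (jBar N)) = (r : ℤ) - 1 :=
    place_ordDifferential_D_of_zero κ hsep.transcendental α hr0' hr hjne
  have hκg : 1 - (r : ℤ) ≤ κ.ord g := by
    have := hol κ
    rw [hdiff] at this
    linarith
  -- orders of the expansions
  have hεg : (1 : ℤ) - e ≤ (ε g).order := by
    rw [hm g hg, hmr, hr]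
    have h1 : m * (1 - (r : ℤ)) ≤ m * κ.ord g := mul_le_mul_of_nonneg_left hκg hm0.le
    have h2 : (1 : ℤ) ≤ m := hm0
    nlinarith
  have hpne : Polynomial.aeval (jBar N) c ≠ 0 := hdloc_polyJ_ne_zero N hc
  have hane : (a : modularFunctionFieldBar N) ≠ 0 := by rw [← hac]; exact mul_ne_zero hg hpne
  have ha0 : a ≠ 0 := fun h => hane (by rw [h]; rfl)
  have hmul : ε g * ε (Polynomial.aeval (jBar N) c) = ε (a : modularFunctionFieldBar N) := by rw [← map_mul, hac]
  have hεc : ε (Polynomial.aeval (jBar N) c) =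
      HahnSeries.ofPowerSeries ℤ ℂ (taylorDisc τ₀ (toHol N (polyJ N c))) := by
    have := pointEmb_coe N τ₀ 1 (polyJ N c)
    rw [one_smul] at this
    exact this
  have hεa : ε (a : modularFunctionFieldBar N) = HahnSeries.ofPowerSeries ℤ ℂ (taylorDisc τ₀ (toHol N a)) := by
    have := pointEmb_coe N τ₀ 1 a
    rw [one_smul] at this
    exact this
  -- finite orders of the three power series
  have hPc0 : taylorDisc τ₀ (toHol N (polyJ N c)) ≠ 0 := by
    intro h0
    have h1 : toHol N (polyJ N c) = 0 := taylorDisc_injective τ₀ (by rw [h0, map_zero])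
    have h2 : polyJ N c = 0 := toHol_injective N (by rw [h1, map_zero])
    exact hpne (congrArg Subtype.val h2)
  have hPa0 : taylorDisc τ₀ (toHol N a) ≠ 0 := by
    intro h0
    have h1 : toHol N a = 0 := taylorDisc_injective τ₀ (by rw [h0, map_zero])
    exact ha0 (toHol_injective N (by rw [h1, map_zero]))
  obtain ⟨oc, hoc⟩ : ∃ oc : ℕ, (taylorDisc τ₀ (toHol N (polyJ N c))).order = oc :=
    ⟨_, (PowerSeries.coe_toNat_order hPc0).symm⟩
  obtain ⟨oa, hoa⟩ : ∃ oa : ℕ, (taylorDisc τ₀ (toHol N a)).order = oa :=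
    ⟨_, (PowerSeries.coe_toNat_order hPa0).symm⟩
  have hordc : (ε (Polynomial.aeval (jBar N) c)).order = (oc : ℤ) := by
    rw [hεc]; exact order_ofPowerSeries_of_order_eq _ oc hoc
  have horda : (ε (a : modularFunctionFieldBar N)).order = (oa : ℤ) := by
    rw [hεa]; exact order_ofPowerSeries_of_order_eq _ oa hoa
  have hεg0 : ε g ≠ 0 := (map_ne_zero_iff ε ε.injective).2 hg
  have hεc0 : ε (Polynomial.aeval (jBar N) c) ≠ 0 := (map_ne_zero_iff ε ε.injective).2 hpne
  have hsum : (oa : ℤ) = (ε g).order + oc := by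
    rw [← horda, ← hmul, HahnSeries.order_mul hεg0 hεc0, hordc]
  -- order of `j'`
  have hjp : (taylorDisc τ₀ jPrimeHol).order + 1 = (e : ℕ∞) := by
    rw [order_taylorDisc, ← he]
    exact analyticOrderAt_jPrime τ₀
  obtain ⟨op, hop⟩ : ∃ op : ℕ, (taylorDisc τ₀ jPrimeHol).order = op := by
    cases h : (taylorDisc τ₀ jPrimeHol).order with
    | top => rw [h] at hjp; simp at hjp
    | coe n => exact ⟨n, rfl⟩
  have hope : op + 1 = e := by
    rw [hop] at hjp
    exact_mod_cast hjp
  -- conclusion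
  rw [← order_taylorDisc, ← order_taylorDisc, map_mul, PowerSeries.order_mul, hoc, hoa, hop]
  have : (oc : ℤ) ≤ oa + op := by
    have : (e : ℤ) = op + 1 := by exact_mod_cast hope.symm
    omega
  exact_mod_cast this

end Fermat.Agent.S20
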