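import Mathlib
import Fermat.Agent.S24.HolRing

set_option autoImplicit false

/-!
S20 (lower bound), leaf (D3): division in the ring of holomorphic functions on the upper half
plane.  If the order of vanishing of `b` is at most that of `a` at every point, then `b ∣ a`.
-/

noncomputable section

namespace Fermat.Agent.S20

open UpperHalfPlane Filter Topology Fermat.Agent.S24
open scoped Manifold

/-- A holomorphic function on `ℍ`, read in the complex coordinate, is analytic on the open upper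
half plane. -/
theorem holdiv_analyticOnNhd (a : HolRing) :
    AnalyticOnNhd ℂ ((a : ℍ → ℂ) ∘ ofComplex) {z : ℂ | 0 < z.im} :=
  (UpperHalfPlane.mdifferentiable_iff.mp a.2).analyticOnNhd isOpen_upperHalfPlaneSet

/-- A nonzero holomorphic function has finite order everywhere. -/
theorem holdiv_order_ne_top (b : HolRing) (hb : b ≠ 0) (τ : ℍ) :
    analyticOrderAt ((b : ℍ → ℂ) ∘ ofComplex) (τ : ℂ) ≠ ⊤ := by
  intro htop
  rw [analyticOrderAt_eq_top] at htop
  apply hb
  apply Subtype.ext
  refine HolRing.eq_zero_of_eventuallyEq_zero b.2 (τ₀ := τ) ?_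
  have h1 : Tendsto (fun σ : ℍ => (σ : ℂ)) (𝓝 τ) (𝓝 (τ : ℂ)) :=
    UpperHalfPlane.continuous_coe.tendsto τ
  filter_upwards [h1.eventually htop] with σ hσ
  simpa [Function.comp, ofComplex_apply] using hσ

/-- Holomorphic extension of a quotient: if `ord b ≤ ord a` everywhere then `b ∣ a` in `HolRing`. -/
theorem holRing_dvd_of_order_le (a b : HolRing) (hb : b ≠ 0)
    (h : ∀ τ : ℍ, analyticOrderAt ((b : ℍ → ℂ) ∘ ofComplex) (τ : ℂ) ≤
      analyticOrderAt ((a : ℍ → ℂ) ∘ ofComplex) (τ : ℂ)) :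
    ∃ f : HolRing, f * b = a := by
  classical
  set U : Set ℂ := {z : ℂ | 0 < z.im} with hU
  set A : ℂ → ℂ := (a : ℍ → ℂ) ∘ ofComplex with hAdef
  set B : ℂ → ℂ := (b : ℍ → ℂ) ∘ ofComplex with hBdef
  have hA : AnalyticOnNhd ℂ A U := holdiv_analyticOnNhd a
  have hB : AnalyticOnNhd ℂ B U := holdiv_analyticOnNhd b
  have hQ : MeromorphicOn (A / B) U := fun z hz =>
    (hA z hz).meromorphicAt.div (hB z hz).meromorphicAt
  set F : ℂ → ℂ := toMeromorphicNFOn (A / B) U with hF
  have hFan : ∀ z ∈ U, AnalyticAt ℂ F z := by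
    intro z hz
    have hnf : MeromorphicNFAt F z := meromorphicNFOn_toMeromorphicNFOn (A / B) U hz
    rw [← hnf.meromorphicOrderAt_nonneg_iff_analyticAt, hF,
      meromorphicOrderAt_toMeromorphicNFOn hQ hz,
      meromorphicOrderAt_div (hA z hz).meromorphicAt (hB z hz).meromorphicAt,
      (hA z hz).meromorphicOrderAt_eq, (hB z hz).meromorphicOrderAt_eq]
    have hle := h ⟨z, hz⟩
    have hfin := holdiv_order_ne_top b hb ⟨z, hz⟩
    change analyticOrderAt B z ≤ analyticOrderAt A z at hle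
    change analyticOrderAt B z ≠ ⊤ at hfin
    obtain ⟨n, hn⟩ := ENat.ne_top_iff_exists.mp hfin
    rw [← hn] at hle ⊢
    cases hm : analyticOrderAt A z with
    | top => simp
    | coe m =>
      rw [hm] at hle
      have hnm : n ≤ m := by exact_mod_cast hle
      simp only [ENat.map_natCast]
      rw [← WithTop.LinearOrderedAddCommGroup.coe_sub]
      exact_mod_cast (by omega : (0 : ℤ) ≤ (m : ℤ) - (n : ℤ))
  have hmul : ∀ z ∈ U, F z * B z = A z := by
    intro z hz
    have hBne : ∀ᶠ w in 𝓝[≠] z, B w ≠ 0 := by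
      rcases (hB z hz).eventually_eq_zero_or_eventually_ne_zero with h0 | h0
      · exact absurd (analyticOrderAt_eq_top.mpr h0) (holdiv_order_ne_top b hb ⟨z, hz⟩)
      · exact h0
    have h1 : (fun w => F w * B w) =ᶠ[𝓝[≠] z] A := by
      filter_upwards [hQ.toMeromorphicNFOn_eq_self_on_nhdsNE hz, hBne] with w hw hBw
      show F w * B w = A w
      rw [hF, hw, Pi.div_apply, div_mul_cancel₀ _ hBw]
    have hc1 : ContinuousAt (fun w => F w * B w) z :=
      ((hFan z hz).continuousAt).mul (hB z hz).continuousAt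
    have hc2 : ContinuousAt A z := (hA z hz).continuousAt
    exact ((hc1.eventuallyEq_nhds_iff_eventuallyEq_nhdsNE hc2).mp h1).eq_of_nhds
  have hfmd : MDiff (fun τ : ℍ => F (τ : ℂ)) := by
    rw [UpperHalfPlane.mdifferentiable_iff]
    intro z hz
    have h1 : DifferentiableWithinAt ℂ F U z := (hFan z hz).differentiableAt.differentiableWithinAt
    refine h1.congr (fun w hw => ?_) ?_
    · show F ((ofComplex w : ℍ) : ℂ) = F w
      rw [ofComplex_apply_of_im_pos hw]
    · show F ((ofComplex z : ℍ) : ℂ) = F z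
      rw [ofComplex_apply_of_im_pos hz]
  refine ⟨⟨fun τ : ℍ => F (τ : ℂ), hfmd⟩, ?_⟩
  apply Subtype.ext
  funext τ
  show F (τ : ℂ) * (b : ℍ → ℂ) τ = (a : ℍ → ℂ) τ
  have := hmul (τ : ℂ) τ.im_pos
  simpa [hAdef, hBdef, Function.comp, ofComplex_apply] using this

/-- Leaf (B) of `HolDiffSpec` in its exact shape. -/
theorem exists_mul_eq_of_order_le (A B : HolRing) (hB : B ≠ 0)
    (h : ∀ τ : ℍ, analyticOrderAt (fun z : ℂ => (B : ℍ → ℂ) (ofComplex z)) (τ : ℂ) ≤
      analyticOrderAt (fun z : ℂ => (A : ℍ → ℂ) (ofComplex z)) (τ : ℂ)) :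
    ∃ f : HolRing, f * B = A :=
  holRing_dvd_of_order_le A B hB h

end Fermat.Agent.S20
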