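import Mathlib
import Fermat.Agent.S20.HolDiffDefs
import Fermat.Agent.S20.HolDiffAlg
import Fermat.Agent.S20.HolDiffForm
import Fermat.Agent.S20.HolDiffIndep
import Fermat.Agent.S20.HolDiv
import Fermat.Agent.S20.CuspPack
import Fermat.Agent.S20.HolDiffLocal
import Fermat.Agent.S20.HolDiffCusp
import Fermat.Agent.S23.Trivial

/-!
# S20, part (D) : holomorphic differentials give cusp forms (assembly)

`finrank_le_finrank_cuspForm` : a `Qbar`-subspace `V ⊆ F = modularFunctionFieldBar N` all of whose
nonzero elements `g` give differentials `g · dj` without poles has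
`dim_Qbar V ≤ dim_ℂ S₂(Γ₀(N))`.
-/

set_option autoImplicit false
set_option linter.unusedSectionVars false

noncomputable section

namespace Fermat.Agent.S20

open Fermat.Agent.S24
open UpperHalfPlane ModularCurve IntermediateField AlgebraicCurve ModularForm Filter Topology
open scoped MatrixGroups Manifold ModularForm Real

variable (N : ℕ) [NeZero N]

/-- Generic: bound `finrank` of a submodule by testing finite independent families. -/
theorem hd_finrank_le_of_forall {K W : Type*} [Field K] [AddCommGroup W] [Module K W]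
    (V : Submodule K W) (m : ℕ)
    (h : ∀ (n : ℕ) (g : Fin n → W), (∀ i, g i ∈ V) → LinearIndependent K g → n ≤ m) :
    Module.finrank K V ≤ m := by
  by_cases hfin : Module.Finite K V
  swap
  · rw [Module.finrank_of_not_finite hfin]
    exact Nat.zero_le _
  let bas := Module.finBasis K V
  refine h _ (fun i => ((bas i : V) : W)) (fun i => (bas i).2) ?_
  exact bas.linearIndependent.map' V.subtype (Submodule.ker_subtype V)

/-- Generic: multiplying an independent family by a nonzero element. -/
theorem hd_linearIndependent_mul_right {K F ι : Type*} [Field K] [Field F] [Algebra K F]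
    (g : ι → F) (hg : LinearIndependent K g) (c : F) (hc : c ≠ 0) :
    LinearIndependent K (fun i => g i * c) := by
  have hker : LinearMap.ker (LinearMap.mulRight K c) = ⊥ := by
    rw [LinearMap.ker_eq_bot]
    intro x y hxy
    simp only [LinearMap.mulRight_apply] at hxy
    exact mul_right_cancel₀ hc hxy
  exact hg.map' _ hker

theorem jPrimeHol_ne_zero : jPrimeHol ≠ 0 := by
  intro h
  have h4 : ∀ᶠ τ in atImInfty, E₄ τ ≠ 0 :=
    tendsto_E₄_atImInfty.eventually_ne one_ne_zero
  have h6 : ∀ᶠ τ in atImInfty, E₆ τ ≠ 0 :=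
    tendsto_E₆_atImInfty.eventually_ne one_ne_zero
  obtain ⟨τ, h4τ, h6τ⟩ := (h4.and h6).exists
  have h0 : jPrime τ = 0 := by
    have := congrArg (fun F : HolRing => (F : ℍ → ℂ) τ) h
    simpa using this
  rw [jPrime] at h0
  have hΔ := ModularForm.discriminant_ne_zero τ
  rw [div_eq_zero_iff] at h0
  rcases h0 with h0 | h0
  · rw [mul_eq_zero] at h0
    rcases h0 with h0 | h0
    · exact h4τ (pow_eq_zero_iff (two_ne_zero) |>.mp (neg_eq_zero.mp h0))
    · exact h6τ h0
  · exact hΔ h0

/-- The coercion `HolRing → (ℍ → ℂ)` as a `ℂ`-linear map. -/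
def hdCoeLin : HolRing →ₗ[ℂ] (ℍ → ℂ) where
  toFun f := (f : ℍ → ℂ)
  map_add' _ _ := rfl
  map_smul' c f := by
    funext τ
    show ((c • f : HolRing) : ℍ → ℂ) τ = c * (f : ℍ → ℂ) τ
    rw [Algebra.smul_def]
    rfl

theorem hdCoeLin_injective : Function.Injective hdCoeLin := fun _ _ h => Subtype.ext h

/-- `ℂ`-independence of the quotients `toHol aᵢ · j' / c(jFun)`. -/
theorem hd_linearIndependent_quot {ι : Type*} (a : ι → RBar N)
    (ha : LinearIndependent QBar (fun i => ((a i : RBar N) : modularFunctionFieldBar N)))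
    (b : HolRing) (f : ι → HolRing) (hf : ∀ i, f i * b = toHol N (a i) * jPrimeHol) :
    LinearIndependent ℂ (fun i => ((f i : HolRing) : ℍ → ℂ)) := by
  have hT := linearIndependent_toHol N a ha
  have hf' : LinearIndependent ℂ f := by
    rw [linearIndependent_iff'] at hT ⊢
    intro t lam hlam i hi
    refine hT t lam ?_ i hi
    have h1 : (∑ j ∈ t, lam j • toHol N (a j)) * jPrimeHol = 0 := by
      rw [Finset.sum_mul]
      have : ∀ j ∈ t, lam j • toHol N (a j) * jPrimeHol = lam j • (f j * b) := by
        intro j _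
        rw [hf j, smul_mul_assoc]
      rw [Finset.sum_congr rfl this]
      have : ∑ j ∈ t, lam j • (f j * b) = (∑ j ∈ t, lam j • f j) * b := by
        rw [Finset.sum_mul]
        refine Finset.sum_congr rfl fun j _ => ?_
        rw [smul_mul_assoc]
      rw [this, hlam, zero_mul]
    exact (mul_eq_zero.mp h1).resolve_right jPrimeHol_ne_zero
  exact hf'.map' hdCoeLin (LinearMap.ker_eq_bot.mpr hdCoeLin_injective)

/-- (HD) A `Qbar`-subspace of `F` consisting of functions `g` with `g · dj` holomorphic has
dimension at most `dim S₂(Γ₀(N))`. -/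
theorem finrank_le_finrank_cuspForm (V : Submodule QBar ↥(modularFunctionFieldBar N))
    (hV : ∀ g ∈ V, ∀ v : Place QBar ↥(modularFunctionFieldBar N), g = 0 ∨
      0 ≤ v.ord g + v.ordDifferential
        (KaehlerDifferential.D QBar ↥(modularFunctionFieldBar N) (jBar N))) :
    Module.finrank QBar V ≤ Module.finrank ℂ (CuspForm (CongruenceSubgroup.Gamma0 N) 2) := by
  classical
  refine hd_finrank_le_of_forall V _ ?_
  intro n g hgV hgli
  have hg0 : ∀ i, g i ≠ 0 := fun i => hgli.ne_zero i
  have hhol : ∀ i, IsHolDiff N (g i) := fun i v =>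
    (hV (g i) (hgV i) v).resolve_left (hg0 i)
  obtain ⟨c, hc, hca⟩ := exists_eq_div_poly_family N g
  choose a ha using hca
  have hcne : Polynomial.aeval (jBar N) c ≠ 0 := by
    intro h
    apply polyJ_ne_zero N hc
    exact Subtype.ext h
  have hali : LinearIndependent QBar (fun i => ((a i : RBar N) : modularFunctionFieldBar N)) := by
    have h2 : (fun i => ((a i : RBar N) : modularFunctionFieldBar N)) =
        fun i => g i * Polynomial.aeval (jBar N) c := funext fun i => (ha i).symm
    rw [h2]
    exact hd_linearIndependent_mul_right g hgli _ hcne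
  have hb0 : toHol N (polyJ N c) ≠ 0 := by
    intro h
    exact polyJ_ne_zero N hc (toHol_injective N (by rw [h, map_zero]))
  have hdiv : ∀ i, ∃ f : HolRing, f * toHol N (polyJ N c) = toHol N (a i) * jPrimeHol := fun i =>
    holRing_dvd_of_order_le _ _ hb0 fun τ =>
      order_le_of_isHolDiff N (g i) (hg0 i) (hhol i) (a i) c hc (ha i) τ
  choose f hf using hdiv
  have hfd : FiniteDimensional ℂ (CuspForm (CongruenceSubgroup.Gamma0 N) 2) :=
    Fermat.Agent.S23.finiteDimensional_cuspForm N 2
  have key := le_finrank_cuspForm_of_linearIndependent N (fun i => ((f i : HolRing) : ℍ → ℂ))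
    (fun i => (f i).2)
    (fun i γ hγ => slash_eq_of_mul_eq N (a i) c hc (f i) (hf i) γ hγ)
    (fun i γ => isZeroAtImInfty_slash_of_isHolDiff N (g i) (hg0 i) (hhol i) (a i) c hc (ha i)
      (f i) (hf i) γ)
    (hd_linearIndependent_quot N a hali _ f hf)
  simpa using key

end Fermat.Agent.S20
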