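import Mathlib
import Fermat.Agent.S24.ADefs
import Fermat.Prelude.Def_AlgebraicCurve_CanonicalDivisor
import Fermat.Agent.S20.HolDiff
import Fermat.Agent.S20.FFRR
import Fermat.Agent.S24.Main

/-!
# S20: the lower bound `genusFormula N ≤ dim S₂(Γ₀(N))`

Assembly (helper17) from
* (RR) `exists_holoDiff` (Riemann–Roch for the canonical class, Prelude language),
* (HD) `finrank_le_finrank_cuspForm` (holomorphic differentials give cusp forms),
* the landed S24 library: `degree_eq_of_counts`, the counts of places over `j = 0, 1728, a, ∞`,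
  the combinatorics of `SL(2,ℤ) ⧸ Γ₀(N)`.

Helper lemmas are prefixed `lb_`.
-/

set_option autoImplicit false
set_option linter.unusedSectionVars false

noncomputable section

namespace Fermat.Agent.S20

open AlgebraicCurve IntermediateField ModularCurve KaehlerDifferential Fermat.Agent.S24
open scoped MatrixGroups

section Generic

variable {K F : Type*} [Field K] [Field F] [Algebra K F] [IsAlgClosed K] [CharZero K]
  {x : F} (hx : IsSepGen K x)
include hx

theorem lb_D_ne_zero : KaehlerDifferential.D K F x ≠ 0 := by
  have := hx.finite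
  have := hx.separable
  exact kaehlerRank_D_ne_zero hx.transcendental

/-- The divisor of `dx` exists as a finitely supported function. -/
theorem lb_exists_divisor_D (S : Finset K)
    (hunr : ∀ (v : Place K F) (a : K), a ∉ S → 0 < v.ord (x - algebraMap K F a) →
      v.ord (x - algebraMap K F a) = 1) :
    ∃ D : Divisor K F, ∀ v : Place K F, D v = v.ordDifferential (KaehlerDifferential.D K F x) := by
  classical
  let s : Finset (Place K F) := (S.biUnion fun a => rh_fiber hx a) ∪ rh_fiberInf hx
  refine ⟨Finsupp.onFinset s (fun v => v.ordDifferential (KaehlerDifferential.D K F x)) ?_,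
    fun v => rfl⟩
  intro v hv
  by_cases hpole : v.ord x < 0
  · exact Finset.mem_union_right _ ((rh_mem_fiberInf hx v).mpr hpole)
  · push Not at hpole
    obtain ⟨a, ha, -⟩ := hx.existsUnique_ord_sub_pos v hpole
    have hord := rh_ordDifferential_of_center hx v a ha
    by_cases haS : a ∈ S
    · exact Finset.mem_union_left _
        (Finset.mem_biUnion.mpr ⟨a, haS, (rh_mem_fiber hx a v).mpr ha⟩)
    · exfalso
      apply hv
      rw [hord, hunr v a haS ha, sub_self]

/-- The `K`-linear bijection `g ↦ g • dx` from the function field onto the differentials. -/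
def lbSmulD : F ≃ₗ[K] Ω[F⁄K] :=
  LinearEquiv.ofBijective
    ((LinearMap.toSpanSingleton F Ω[F⁄K] (KaehlerDifferential.D K F x)).restrictScalars K)
    (by
      have := hx.finite
      have := hx.separable
      constructor
      · intro a b hab
        exact smul_left_injective F (lb_D_ne_zero hx) hab
      · intro ω
        have hω : ω ∈ Submodule.span F {KaehlerDifferential.D K F x} := by
          rw [kaehlerRank_span_D_eq_top (K := K) x]; exact Submodule.mem_top
        obtain ⟨c, hc⟩ := Submodule.mem_span_singleton.mp hω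
        exact ⟨c, hc⟩)

theorem lbSmulD_apply (g : F) : lbSmulD hx g = g • KaehlerDifferential.D K F x := rfl

/-- Order of `g • dx`. -/
theorem lb_ordDifferential_smul (v : Place K F) {g : F} (hg : g ≠ 0) :
    v.ordDifferential (g • KaehlerDifferential.D K F x) =
      v.ord g + v.ordDifferential (KaehlerDifferential.D K F x) := by
  have := hx.finite
  have := hx.separable
  haveI : v.DCoordGenerates := place_dCoordGenerates v hx.transcendental
  haveI : Nontrivial Ω[F⁄K] := kaehlerRank_nontrivial hx.transcendental
  exact v.ordDifferential_smul hg (rh_differentialCoeff_ne_zero v (lb_D_ne_zero hx))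

/-- Riemann–Roch for the canonical class, in terms of functions `g` with `g dx` holomorphic. -/
theorem lb_exists_holoFun (D : Divisor K F)
    (hD : ∀ w : Place K F, D w = w.ordDifferential (KaehlerDifferential.D K F x)) :
    ∃ V : Submodule K F,
      (∀ g ∈ V, ∀ v : Place K F, g = 0 ∨
        0 ≤ v.ord g + v.ordDifferential (KaehlerDifferential.D K F x)) ∧
      2 * (Module.finrank K V : ℤ) = Divisor.degree D + 2 := by
  have := hx.finite
  obtain ⟨W, hW, hrr⟩ := exists_holoDiff (K := K) x hx.transcendental
  refine ⟨W.comap (lbSmulD hx).toLinearMap, ?_, ?_⟩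
  · intro g hg v
    by_cases hg0 : g = 0
    · exact Or.inl hg0
    · right
      have h1 : lbSmulD hx g ∈ W := hg
      have h2 := (hW _).mp h1 v
      rwa [lbSmulD_apply, lb_ordDifferential_smul hx v hg0] at h2
  · rw [← hrr D hD]
    congr 2
    exact (LinearEquiv.ofSubmodule' (lbSmulD hx) W).finrank_eq

end Generic

section Modular

variable (N : ℕ) [NeZero N]

theorem lb_unramified (v : Place QBar ↥(modularFunctionFieldBar N)) (a : QBar)
    (ha0 : a ≠ 0) (ha : a ≠ 1728)
    (hv : 0 < v.ord (jBar N - algebraMap QBar ↥(modularFunctionFieldBar N) a)) :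
    v.ord (jBar N - algebraMap QBar ↥(modularFunctionFieldBar N) a) = 1 := by
  have hsep := isSepGen_jBar N
  refine main_ord_eq_one_of_card (hsep.sub_algebraMap a) ?_ v hv
  rw [card_places_generic N a ha0 ha, hsep.finrank_sub_algebraMap a, finrank_jBar N]

open scoped Classical in
theorem lb_unramified' (v : Place QBar ↥(modularFunctionFieldBar N)) (a : QBar)
    (ha : a ∉ ({0, 1728} : Finset QBar))
    (hv : 0 < v.ord (jBar N - algebraMap QBar ↥(modularFunctionFieldBar N) a)) :
    v.ord (jBar N - algebraMap QBar ↥(modularFunctionFieldBar N) a) = 1 := by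
  simp only [Finset.mem_insert, Finset.mem_singleton, not_or] at ha
  exact lb_unramified N v a ha.1 ha.2 hv

/-- The degree of the divisor of `dj`. -/
theorem lb_degree (D : Divisor QBar ↥(modularFunctionFieldBar N))
    (hD : ∀ w : Place QBar ↥(modularFunctionFieldBar N), D w = w.ordDifferential
      (KaehlerDifferential.D QBar ↥(modularFunctionFieldBar N) (jBar N))) :
    Divisor.degree D =
      (Nat.card (SL(2, ℤ) ⧸ CongruenceSubgroup.Gamma0 N) : ℤ)
        - Nat.card (MulAction.orbitRel.Quotient (Subgroup.zpowers (ModularGroup.S * ModularGroup.T))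
            (SL(2, ℤ) ⧸ CongruenceSubgroup.Gamma0 N))
        - Nat.card (MulAction.orbitRel.Quotient (Subgroup.zpowers ModularGroup.S)
            (SL(2, ℤ) ⧸ CongruenceSubgroup.Gamma0 N))
        - Nat.card (MulAction.orbitRel.Quotient (Subgroup.zpowers ModularGroup.T)
            (SL(2, ℤ) ⧸ CongruenceSubgroup.Gamma0 N)) := by
  classical
  have hsep := isSepGen_jBar N
  have hn := finrank_jBar N
  let r : QBar → ℕ := fun a =>
    if a = 0 then Nat.card (MulAction.orbitRel.Quotient
        (Subgroup.zpowers (ModularGroup.S * ModularGroup.T))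
        (SL(2, ℤ) ⧸ CongruenceSubgroup.Gamma0 N))
    else Nat.card (MulAction.orbitRel.Quotient (Subgroup.zpowers ModularGroup.S)
        (SL(2, ℤ) ⧸ CongruenceSubgroup.Gamma0 N))
  have h1728 : (1728 : QBar) ≠ 0 := by norm_num
  have hS : ∀ a ∈ ({0, 1728} : Finset QBar),
      Nat.card {v : Place QBar ↥(modularFunctionFieldBar N) //
        0 < v.ord (jBar N - algebraMap QBar ↥(modularFunctionFieldBar N) a)} = r a := by
    intro a ha
    simp only [Finset.mem_insert, Finset.mem_singleton] at ha
    rcases ha with rfl | rfl
    · have h := card_places_zero N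
      simp only [r, if_true]
      exact h
    · have h := card_places_1728 N
      simp only [r, if_neg h1728]
      exact h
  have hdeg := degree_eq_of_counts hsep ({0, 1728} : Finset QBar) r _
    (fun v a => lb_unramified' N v a) hS (card_places_pole N) _ (lb_D_ne_zero hsep) D hD
  rw [hdeg, hn, Finset.sum_pair h1728.symm]
  simp only [r, if_true, if_neg h1728]
  ring

/-- **The lower bound of S20.** -/
theorem genusFormula_le_finrank_cuspForm :
    ModularCurve.genusFormula N ≤
      (Module.finrank ℂ (CuspForm (CongruenceSubgroup.Gamma0 N) 2) : ℚ) := by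
  classical
  have hsep := isSepGen_jBar N
  obtain ⟨D, hD⟩ := lb_exists_divisor_D hsep ({0, 1728} : Finset QBar)
    (fun v a => lb_unramified' N v a)
  obtain ⟨V, hV, hdim⟩ := lb_exists_holoFun hsep D hD
  obtain ⟨g, hg⟩ := exists_genus_Gamma0 N
  rw [lb_degree N D hD] at hdim
  have hVg : Module.finrank QBar V = g := by omega
  have hle := finrank_le_finrank_cuspForm N V hV
  rw [hVg] at hle
  -- arithmetic in ℚ
  have hgQ := congrArg (fun z : ℤ => (z : ℚ)) hg
  simp only [Int.cast_sub, Int.cast_mul, Int.cast_natCast, Int.cast_ofNat] at hgQ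
  have h1 : (Nat.card (SL(2, ℤ) ⧸ CongruenceSubgroup.Gamma0 N) : ℚ) = dedekindPsi N := by
    exact_mod_cast card_X0 N
  have h2 : 2 * (Nat.card (MulAction.orbitRel.Quotient (Subgroup.zpowers ModularGroup.S)
      (SL(2, ℤ) ⧸ CongruenceSubgroup.Gamma0 N)) : ℚ) = dedekindPsi N + nuTwo N := by
    exact_mod_cast two_mul_orb_S N
  have h3 : 3 * (Nat.card (MulAction.orbitRel.Quotient
      (Subgroup.zpowers (ModularGroup.S * ModularGroup.T))
      (SL(2, ℤ) ⧸ CongruenceSubgroup.Gamma0 N)) : ℚ) = dedekindPsi N + 2 * nuThree N := by
    exact_mod_cast three_mul_orb_ST N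
  have h4 : (Nat.card (MulAction.orbitRel.Quotient (Subgroup.zpowers ModularGroup.T)
      (SL(2, ℤ) ⧸ CongruenceSubgroup.Gamma0 N)) : ℚ) = cuspCount N := by
    exact_mod_cast orb_T N
  have hgf : ModularCurve.genusFormula N = g := by
    unfold genusFormula
    linarith
  rw [hgf]
  exact_mod_cast hle

end Modular

end Fermat.Agent.S20
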