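import Fermat.Agent.S20.FFInfinite

set_option autoImplicit false
set_option linter.unusedSectionVars false
set_option linter.style.haveILetI false

noncomputable section

namespace Fermat.Agent.S20

open Polynomial Module IsDedekindDomain HeightOneSpectrum WithZero AlgebraicCurve
  IntermediateField KaehlerDifferential Fermat.Agent.S24

section Degree

variable {K F : Type*} [Field K] [Field F] [Algebra K F]

/-- the degree of a divisor all of whose places have degree one, split along a predicate. -/
theorem ffmain_degree_eq (D : Divisor K F) (hdeg : ∀ v : Place K F, v.deg = 1)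
    (p q : Place K F → Prop) (hpq : ∀ v, q v ↔ ¬ p v) :
    Divisor.degree D =
      ∑ᶠ v : {v : Place K F // p v}, D v.1 + ∑ᶠ v : {v : Place K F // q v}, D v.1 := by
  have h1 : Divisor.degree D = ∑ v ∈ D.support, D v := by
    rw [Divisor.degree, Finsupp.liftAddHom_apply, Finsupp.sum]
    refine Finset.sum_congr rfl fun v _ => ?_
    simp [hdeg v]
  have h2 : ∑ v ∈ D.support, D v = ∑ᶠ v, D v := by
    rw [finsum_eq_sum_of_support_subset]
    intro v hv
    simpa using hv
  have hfin : (Function.support fun v => D v).Finite := by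
    refine D.support.finite_toSet.subset ?_
    intro v hv
    simpa using hv
  have hq : {v | q v} = {v | p v}ᶜ := by
    ext v; simp [hpq v]
  rw [h1, h2, ← finsum_mem_univ, ← Set.union_compl_self {v | p v},
    finsum_mem_union' disjoint_compl_right (hfin.inter_of_right _) (hfin.inter_of_right _),
    finsum_subtype_eq_finsum_cond, finsum_subtype_eq_finsum_cond, ← hq]
  rfl

end Degree

section Main

variable {K F : Type*} [Field K] [Field F] [Algebra K F] [Algebra K[X] F] [Algebra (RatFunc K) F]
  [IsScalarTower K[X] (RatFunc K) F] [IsScalarTower K (RatFunc K) F] [IsScalarTower K K[X] F]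
  [FiniteDimensional (RatFunc K) F] [CharZero K] [IsAlgClosed K]
  (hx : Transcendental K (ffX K F)) [FiniteDimensional K⟮ffX K F⟯ F]
  [Algebra.IsSeparable K⟮ffX K F⟯ F]

variable (K F) in
/-- the space of functions `g` such that `g dx` is regular everywhere. -/
def ffHolo : Submodule K F :=
  kSub ((Algebra.traceForm (RatFunc K) F).dualSubmodule (ffLam K F)) ⊓
    kSubInf (twist (-2) ((Algebra.traceForm (RatFunc K) F).dualSubmodule (ffLamInf K F)))

include hx in
theorem ffmain_mem_ffHolo_iff (g : F) :
    g ∈ ffHolo K F ↔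
      ∀ v : Place K F, g = 0 ∨ 0 ≤ v.ord g + v.ordDifferential (D K F (ffX K F)) := by
  rw [ffHolo, Submodule.mem_inf, mem_kSub, mem_kSubInf, fffin_mem_dualSubmodule_iff hx,
    ffinf_mem_twist_dualSubmodule_iff hx]
  constructor
  · rintro ⟨h1, h2⟩ v
    rcases le_or_gt 0 (v.ord (ffX K F)) with h | h
    · exact h1 v h
    · exact h2 v h
  · intro h
    exact ⟨fun v _ => h v, fun v _ => h v⟩

include hx in
/-- `g dx` is regular at `v` iff `g = 0` or `ord g + ord dx ≥ 0`. -/
theorem ffmain_ordDifferential_smul (v : Place K F) (g : F) :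
    0 ≤ v.ordDifferential (g • D K F (ffX K F)) ↔
      (g = 0 ∨ 0 ≤ v.ord g + v.ordDifferential (D K F (ffX K F))) := by
  have := place_nontrivial_kaehler (K := K) (F := F) hx
  have := place_dCoordGenerates v hx
  rcases eq_or_ne g 0 with rfl | hg
  · simp [Place.ordDifferential]
  have hcoeff : v.differentialCoeff (D K F (ffX K F)) ≠ 0 := by
    intro h0
    have h1 := v.differentialCoeff_smul_dCoord (D K F (ffX K F))
    rw [h0, zero_smul] at h1
    exact kaehlerRank_D_ne_zero hx h1.symm
  rw [v.ordDifferential_smul hg hcoeff]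
  simp [hg]

include hx in
/-- Riemann–Hurwitz/Riemann–Roch for the canonical class in the abstract setting. -/
theorem ffmain_two_mul_finrank :
    ∃ H : Submodule K Ω[F⁄K], (∀ η, η ∈ H ↔ ∀ v : Place K F, 0 ≤ v.ordDifferential η) ∧
      ∀ Dv : Divisor K F, (∀ v : Place K F, Dv v = v.ordDifferential (D K F (ffX K F))) →
      2 * (finrank K H : ℤ) = Divisor.degree Dv + 2 := by
  let φ : F →ₗ[K] Ω[F⁄K] :=
    (LinearMap.toSpanSingleton F Ω[F⁄K] (D K F (ffX K F))).restrictScalars K
  have hφ : ∀ g, φ g = g • D K F (ffX K F) := fun g => rfl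
  have hdx : D K F (ffX K F) ≠ 0 := kaehlerRank_D_ne_zero hx
  have hinj : Function.Injective φ := by
    intro g₁ g₂ h
    rw [hφ, hφ, ← sub_eq_zero, ← sub_smul, smul_eq_zero] at h
    exact sub_eq_zero.1 (h.resolve_right hdx)
  refine ⟨(ffHolo K F).map φ, ?_, ?_⟩
  · intro η
    rw [Submodule.mem_map]
    constructor
    · rintro ⟨g, hg, rfl⟩ v
      rw [hφ, ffmain_ordDifferential_smul hx]
      exact (ffmain_mem_ffHolo_iff hx g).1 hg v
    · intro h
      obtain ⟨g, rfl⟩ := kaehlerRank_exists_eq_smul (K := K) (x := ffX K F) η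
      refine ⟨g, (ffmain_mem_ffHolo_iff hx g).2 fun v => ?_, rfl⟩
      exact (ffmain_ordDifferential_smul hx v g).1 (h v)
  · intro Dv hD
    rw [← (Submodule.equivMapOfInjective φ hinj (ffHolo K F)).finrank_eq]
    have hFIN := two_mul_latH0_dual_twist (ffLam K F) (ffLamInf K F)
      (Algebra.traceForm (RatFunc K) F) (traceForm_nondegenerate (RatFunc K) F)
      (fflat_le_dualSubmodule K[X] (RatFunc K) F) (fflat_le_dualSubmodule (Rinf K) (RatFunc K) F)
      fflat_latH0_eq_one
    have hlat : latH0 ((Algebra.traceForm (RatFunc K) F).dualSubmodule (ffLam K F))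
        (twist (-2) ((Algebra.traceForm (RatFunc K) F).dualSubmodule (ffLamInf K F))) =
        finrank K (ffHolo K F) := rfl
    rw [hlat] at hFIN
    obtain ⟨-, hA⟩ := fffin_finrank_dual_quot hx
    have hB := ffinf_finrank_dual_quot (K := K) (F := F)
    obtain ⟨hfinite, hn⟩ := ffinf_sum_ord (K := K) (F := F)
    have hdeg := ffmain_degree_eq Dv (fun v => place_deg_eq_one v hx)
      (fun v => 0 ≤ v.ord (ffX K F)) (fun v => v.ord (ffX K F) < 0) (fun v => not_le.symm)
    have hD1 : (fun v : {v : Place K F // 0 ≤ v.ord (ffX K F)} => Dv v.1) =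
        fun v => v.1.ordDifferential (D K F (ffX K F)) := funext fun v => hD v.1
    have hD2 : (fun v : {v : Place K F // v.ord (ffX K F) < 0} => Dv v.1) =
        fun v => v.1.ord (ffX K F) - 1 := funext fun v => by
      rw [hD v.1, ffinf_ordDifferential hx v.1 v.2]
    rw [hD1, hD2] at hdeg
    have := Fintype.ofFinite {v : Place K F // v.ord (ffX K F) < 0}
    have e1 : ∀ f : {v : Place K F // v.ord (ffX K F) < 0} → ℤ, ∑ᶠ v, f v = ∑ v, f v :=
      fun f => finsum_eq_sum_of_fintype f
    rw [e1] at hdeg hB hn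
    have harith : ∑ v : {v : Place K F // v.ord (ffX K F) < 0}, (v.1.ord (ffX K F) - 1) =
        ∑ v : {v : Place K F // v.ord (ffX K F) < 0}, (-(v.1.ord (ffX K F)) - 1) -
          2 * ∑ v : {v : Place K F // v.ord (ffX K F) < 0}, (-(v.1.ord (ffX K F))) := by
      rw [Finset.mul_sum, ← Finset.sum_sub_distrib]
      exact Finset.sum_congr rfl fun v _ => by ring
    rw [hFIN, hdeg, harith, hA, hB, hn]
    ring

end Main

end Fermat.Agent.S20
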