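import Mathlib

set_option autoImplicit false

noncomputable section

namespace Fermat.Agent.S20

open Module

section Index

variable {K : Type*} [Field K] {V : Type*} [AddCommGroup V] [Module K V]

/-- `L₂ ∩ M → L₂ / L₁`. -/
def ixG (L₁ L₂ M : Submodule K V) : ↥(L₂ ⊓ M) →ₗ[K] (↥L₂ ⧸ L₁.submoduleOf L₂) :=
  (L₁.submoduleOf L₂).mkQ ∘ₗ Submodule.inclusion inf_le_left

/-- `L₂ / L₁ → V / (L₁ + M)`. -/
def ixH (L₁ L₂ M : Submodule K V) : (↥L₂ ⧸ L₁.submoduleOf L₂) →ₗ[K] (V ⧸ (L₁ ⊔ M)) :=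
  (L₁.submoduleOf L₂).liftQ ((L₁ ⊔ M).mkQ ∘ₗ L₂.subtype) (by
    intro x hx
    rw [LinearMap.mem_ker, LinearMap.comp_apply, Submodule.mkQ_apply,
      Submodule.Quotient.mk_eq_zero]
    exact Submodule.mem_sup_left hx)

/-- `V / (L₁ + M) → V / (L₂ + M)`. -/
def ixQ {L₁ L₂ : Submodule K V} (M : Submodule K V) (h : L₁ ≤ L₂) :
    (V ⧸ (L₁ ⊔ M)) →ₗ[K] (V ⧸ (L₂ ⊔ M)) :=
  Submodule.factor (sup_le_sup_right h M)

theorem ixG_apply (L₁ L₂ M : Submodule K V) (x : ↥(L₂ ⊓ M)) :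
    ixG L₁ L₂ M x = (L₁.submoduleOf L₂).mkQ ⟨x.1, x.2.1⟩ := rfl

theorem ixH_mk (L₁ L₂ M : Submodule K V) (x : ↥L₂) :
    ixH L₁ L₂ M ((L₁.submoduleOf L₂).mkQ x) = (L₁ ⊔ M).mkQ (x : V) := rfl

theorem ixQ_mk {L₁ L₂ : Submodule K V} (M : Submodule K V) (h : L₁ ≤ L₂) (x : V) :
    ixQ M h ((L₁ ⊔ M).mkQ x) = (L₂ ⊔ M).mkQ x := rfl

theorem ker_ixG (L₁ L₂ M : Submodule K V) :
    LinearMap.ker (ixG L₁ L₂ M) = (L₁ ⊓ M).submoduleOf (L₂ ⊓ M) := by
  ext x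
  rw [LinearMap.mem_ker, ixG_apply, Submodule.mkQ_apply, Submodule.Quotient.mk_eq_zero]
  change (x : V) ∈ L₁ ↔ (x : V) ∈ L₁ ⊓ M
  exact ⟨fun h => ⟨h, x.2.2⟩, fun h => h.1⟩

theorem finrank_ker_ixG {L₁ L₂ : Submodule K V} (M : Submodule K V) (h : L₁ ≤ L₂) :
    finrank K (LinearMap.ker (ixG L₁ L₂ M)) = finrank K ↥(L₁ ⊓ M) := by
  rw [ker_ixG]
  exact (Submodule.submoduleOfEquivOfLe (inf_le_inf_right M h)).finrank_eq

theorem ker_ixH {L₁ L₂ : Submodule K V} (M : Submodule K V) (h : L₁ ≤ L₂) :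
    LinearMap.ker (ixH L₁ L₂ M) = LinearMap.range (ixG L₁ L₂ M) := by
  ext y
  obtain ⟨x, rfl⟩ := Submodule.mkQ_surjective _ y
  rw [LinearMap.mem_ker, ixH_mk, Submodule.mkQ_apply, Submodule.Quotient.mk_eq_zero,
    LinearMap.mem_range]
  constructor
  · intro hx
    obtain ⟨l, hl, m, hm, hlm⟩ := Submodule.mem_sup.mp hx
    have hmL : m ∈ L₂ := by
      have : m = (x : V) - l := by rw [← hlm]; abel
      rw [this]
      exact L₂.sub_mem x.2 (h hl)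
    refine ⟨⟨m, hmL, hm⟩, ?_⟩
    rw [ixG_apply, Submodule.mkQ_apply, Submodule.mkQ_apply, Submodule.Quotient.eq]
    change (m - (x : V)) ∈ L₁
    have : m - (x : V) = -l := by rw [← hlm]; abel
    rw [this]
    exact L₁.neg_mem hl
  · rintro ⟨z, hz⟩
    rw [ixG_apply, Submodule.mkQ_apply, Submodule.mkQ_apply, Submodule.Quotient.eq] at hz
    have hz' : ((z : V) - (x : V)) ∈ L₁ := hz
    have : (x : V) = -((z : V) - (x : V)) + (z : V) := by abel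
    rw [this]
    exact Submodule.add_mem_sup (L₁.neg_mem hz') z.2.2

theorem ker_ixQ {L₁ L₂ : Submodule K V} (M : Submodule K V) (h : L₁ ≤ L₂) :
    LinearMap.ker (ixQ M h) = LinearMap.range (ixH L₁ L₂ M) := by
  ext y
  obtain ⟨x, rfl⟩ := Submodule.mkQ_surjective _ y
  rw [LinearMap.mem_ker, ixQ_mk, Submodule.mkQ_apply, Submodule.Quotient.mk_eq_zero,
    LinearMap.mem_range]
  constructor
  · intro hx
    obtain ⟨l, hl, m, hm, hlm⟩ := Submodule.mem_sup.mp hx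
    refine ⟨(L₁.submoduleOf L₂).mkQ ⟨l, hl⟩, ?_⟩
    rw [ixH_mk, Submodule.mkQ_apply, Submodule.mkQ_apply, Submodule.Quotient.eq]
    have : l - x = -m := by rw [← hlm]; abel
    rw [this]
    exact Submodule.mem_sup_right (M.neg_mem hm)
  · rintro ⟨z, hz⟩
    obtain ⟨w, rfl⟩ := Submodule.mkQ_surjective _ z
    rw [ixH_mk, Submodule.mkQ_apply, Submodule.mkQ_apply, Submodule.Quotient.eq] at hz
    have : x = (w : V) - ((w : V) - x) := by abel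
    rw [this]
    exact Submodule.sub_mem _ (Submodule.mem_sup_left w.2) (sup_le_sup_right h M hz)

theorem ixQ_surjective {L₁ L₂ : Submodule K V} (M : Submodule K V) (h : L₁ ≤ L₂) :
    Function.Surjective (ixQ M h) :=
  Submodule.factor_surjective (sup_le_sup_right h M)

/-- **Index lemma (finiteness part).** -/
theorem finite_quotient_of_le {L₁ L₂ : Submodule K V} (M : Submodule K V) (h : L₁ ≤ L₂)
    [Module.Finite K ↥(L₂ ⊓ M)] [Module.Finite K (V ⧸ (L₁ ⊔ M))] :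
    Module.Finite K (↥L₂ ⧸ L₁.submoduleOf L₂) := by
  have : Module.Finite K ↥(LinearMap.ker (ixH L₁ L₂ M)) := by
    rw [ker_ixH M h]
    infer_instance
  have : Module.Finite K ((↥L₂ ⧸ L₁.submoduleOf L₂) ⧸ LinearMap.ker (ixH L₁ L₂ M)) :=
    Module.Finite.equiv (ixH L₁ L₂ M).quotKerEquivRange.symm
  exact Module.Finite.of_submodule_quotient (LinearMap.ker (ixH L₁ L₂ M))

/-- **Index lemma.** For `L₁ ≤ L₂` and `M` subspaces of `V` with `L₂ ∩ M` and `V / (L₁ + M)`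
finite-dimensional:
`dim L₂/L₁ + dim (L₁ ∩ M) + dim V/(L₂ + M) = dim (L₂ ∩ M) + dim V/(L₁ + M)`. -/
theorem finrank_quotient_add_eq {L₁ L₂ : Submodule K V} (M : Submodule K V) (h : L₁ ≤ L₂)
    [Module.Finite K ↥(L₂ ⊓ M)] [Module.Finite K (V ⧸ (L₁ ⊔ M))] :
    finrank K (↥L₂ ⧸ L₁.submoduleOf L₂) + finrank K ↥(L₁ ⊓ M) + finrank K (V ⧸ (L₂ ⊔ M)) =
      finrank K ↥(L₂ ⊓ M) + finrank K (V ⧸ (L₁ ⊔ M)) := by
  have := finite_quotient_of_le M h
  have h1 := (ixG L₁ L₂ M).finrank_range_add_finrank_ker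
  have h2 := (ixH L₁ L₂ M).finrank_range_add_finrank_ker
  have h3 := (ixQ M h).finrank_range_add_finrank_ker
  rw [finrank_ker_ixG M h] at h1
  rw [ker_ixH M h] at h2
  rw [ker_ixQ M h, LinearMap.range_eq_top.mpr (ixQ_surjective M h), finrank_top] at h3
  omega

end Index

end Fermat.Agent.S20
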