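import Mathlib

set_option autoImplicit false

noncomputable section

namespace Fermat.Agent.S20

open Polynomial
open scoped Classical

variable (K : Type*) [Field K]

/-- The valuation ring at infinity of `K(X)`: rational functions of degree `≤ 0`. -/
def Rinf : ValuationSubring (RatFunc K) where
  carrier := {f | f.intDegree ≤ 0}
  mul_mem' := by
    intro f g hf hg
    by_cases hf0 : f = 0
    · simp [hf0]
    by_cases hg0 : g = 0
    · simp [hg0]
    simp only [Set.mem_ofPred_eq] at *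
    rw [RatFunc.intDegree_mul hf0 hg0]
    omega
  one_mem' := by simp
  add_mem' := by
    intro f g hf hg
    by_cases hg0 : g = 0
    · simpa [hg0] using hf
    by_cases hfg : f + g = 0
    · simp [hfg]
    simp only [Set.mem_ofPred_eq] at *
    exact (RatFunc.intDegree_add_le hg0 hfg).trans (max_le hf hg)
  zero_mem' := by simp
  neg_mem' := by
    intro f hf
    simpa [RatFunc.intDegree_neg] using hf
  mem_or_inv_mem' := by
    intro f
    simp only [Set.mem_ofPred_eq, RatFunc.intDegree_inv]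
    omega

variable {K}

theorem mem_Rinf_iff {f : RatFunc K} : f ∈ Rinf K ↔ f.intDegree ≤ 0 := Iff.rfl

/-- degree of a rational function with value `⊥` at zero. -/
def rdeg (f : RatFunc K) : WithBot ℤ := if f = 0 then ⊥ else (f.intDegree : WithBot ℤ)

@[simp] theorem rdeg_zero : rdeg (0 : RatFunc K) = ⊥ := by simp [rdeg]

theorem rdeg_of_ne_zero {f : RatFunc K} (hf : f ≠ 0) : rdeg f = (f.intDegree : WithBot ℤ) := by
  simp [rdeg, hf]

@[simp] theorem rdeg_eq_bot_iff {f : RatFunc K} : rdeg f = ⊥ ↔ f = 0 := by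
  by_cases hf : f = 0
  · simp [hf]
  · simp [rdeg, hf]

theorem rdeg_mul (f g : RatFunc K) : rdeg (f * g) = rdeg f + rdeg g := by
  by_cases hf : f = 0
  · simp [hf]
  by_cases hg : g = 0
  · simp [hg]
  rw [rdeg_of_ne_zero hf, rdeg_of_ne_zero hg, rdeg_of_ne_zero (mul_ne_zero hf hg),
    RatFunc.intDegree_mul hf hg, WithBot.coe_add]

@[simp] theorem rdeg_neg (f : RatFunc K) : rdeg (-f) = rdeg f := by
  by_cases hf : f = 0
  · simp [hf]
  rw [rdeg_of_ne_zero hf, rdeg_of_ne_zero (neg_ne_zero.mpr hf), RatFunc.intDegree_neg]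

theorem rdeg_add_le (f g : RatFunc K) : rdeg (f + g) ≤ max (rdeg f) (rdeg g) := by
  by_cases hg : g = 0
  · simp [hg]
  by_cases hf : f = 0
  · simp [hf]
  by_cases hfg : f + g = 0
  · simp [hfg]
  rw [rdeg_of_ne_zero hf, rdeg_of_ne_zero hg, rdeg_of_ne_zero hfg, ← WithBot.coe_max,
    WithBot.coe_le_coe]
  exact RatFunc.intDegree_add_le hg hfg

theorem rdeg_sub_le (f g : RatFunc K) : rdeg (f - g) ≤ max (rdeg f) (rdeg g) := by
  rw [sub_eq_add_neg]
  exact (rdeg_add_le f (-g)).trans (by rw [rdeg_neg])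

theorem rdeg_sum_le {ι : Type*} (s : Finset ι) (f : ι → RatFunc K) (d : WithBot ℤ)
    (h : ∀ i ∈ s, rdeg (f i) ≤ d) : rdeg (∑ i ∈ s, f i) ≤ d := by
  classical
  induction s using Finset.induction_on with
  | empty => simp
  | insert a s ha ih =>
    rw [Finset.sum_insert ha]
    refine (rdeg_add_le _ _).trans (max_le (h a (Finset.mem_insert_self a s)) ?_)
    exact ih fun i hi => h i (Finset.mem_insert_of_mem hi)

theorem rdeg_add_eq_of_lt {f g : RatFunc K} (h : rdeg g < rdeg f) : rdeg (f + g) = rdeg f := by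
  refine le_antisymm ((rdeg_add_le f g).trans (max_le le_rfl h.le)) ?_
  by_contra hlt
  rw [not_le] at hlt
  have : rdeg f ≤ max (rdeg (f + g)) (rdeg g) := by
    have := rdeg_sub_le (f + g) g
    simpa using this
  rcases le_max_iff.mp this with h1 | h1
  · exact absurd h1 (not_le.mpr hlt)
  · exact absurd h1 (not_le.mpr h)

theorem rdeg_algebraMap (p : K[X]) :
    rdeg (algebraMap K[X] (RatFunc K) p) = (p.degree).map (Nat.cast : ℕ → ℤ) := by
  by_cases hp : p = 0
  · simp [hp]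
  have hp' : algebraMap K[X] (RatFunc K) p ≠ 0 := by
    simpa using hp
  rw [rdeg_of_ne_zero hp', RatFunc.intDegree_polynomial, Polynomial.degree_eq_natDegree hp]
  rfl

theorem rdeg_algebraMap_nonneg {p : K[X]} (hp : p ≠ 0) :
    (0 : WithBot ℤ) ≤ rdeg (algebraMap K[X] (RatFunc K) p) := by
  rw [rdeg_algebraMap, Polynomial.degree_eq_natDegree hp]
  exact WithBot.coe_le_coe.mpr (Int.natCast_nonneg _)

theorem rdeg_X_zpow (d : ℤ) : rdeg ((RatFunc.X : RatFunc K) ^ d) = (d : WithBot ℤ) := by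
  have hX : (RatFunc.X : RatFunc K) ≠ 0 := RatFunc.X_ne_zero
  rw [rdeg_of_ne_zero (zpow_ne_zero d hX)]
  congr 1
  induction d using Int.induction_on with
  | zero => simp
  | succ n ih =>
    rw [zpow_add_one₀ hX, RatFunc.intDegree_mul (zpow_ne_zero _ hX) hX, ih, RatFunc.intDegree_X]
  | pred n ih =>
    rw [zpow_sub_one₀ hX, RatFunc.intDegree_mul (zpow_ne_zero _ hX) (inv_ne_zero hX), ih,
      RatFunc.intDegree_inv, RatFunc.intDegree_X]
    ring

theorem rdeg_C {c : K} (hc : c ≠ 0) : rdeg (RatFunc.C c : RatFunc K) = 0 := by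
  have : (RatFunc.C c : RatFunc K) ≠ 0 := by simpa using hc
  rw [rdeg_of_ne_zero this, RatFunc.intDegree_C]
  rfl

theorem rdeg_C_le (c : K) : rdeg (RatFunc.C c : RatFunc K) ≤ 0 := by
  by_cases hc : c = 0
  · simp [hc]
  · exact (rdeg_C hc).le

theorem mem_Rinf_iff_rdeg {f : RatFunc K} : f ∈ Rinf K ↔ rdeg f ≤ 0 := by
  by_cases hf : f = 0
  · simp [hf, (Rinf K).zero_mem]
  · rw [rdeg_of_ne_zero hf, mem_Rinf_iff]
    exact WithBot.coe_le_coe.symm


/-- The inclusion of polynomials, as a `K`-linear map. -/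
def polyMap : K[X] →ₗ[K] RatFunc K := (Algebra.linearMap K[X] (RatFunc K)).restrictScalars K

@[simp] theorem polyMap_apply (p : K[X]) : polyMap p = algebraMap K[X] (RatFunc K) p := rfl

theorem polyMap_injective : Function.Injective (polyMap (K := K)) :=
  fun _ _ h => RatFunc.algebraMap_injective K h

variable (K) in
/-- The `K`-subspace of polynomials inside `K(X)`. -/
def polyK : Submodule K (RatFunc K) := LinearMap.range (polyMap (K := K))

theorem mem_polyK {f : RatFunc K} : f ∈ polyK K ↔ ∃ p : K[X], algebraMap K[X] (RatFunc K) p = f :=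
  Iff.rfl

variable (K) in
/-- `K`-subspace of rational functions of degree `≤ d` (including `0`). -/
def degLE (d : ℤ) : Submodule K (RatFunc K) where
  carrier := {f | rdeg f ≤ d}
  zero_mem' := by simp
  add_mem' := fun hf hg => (rdeg_add_le _ _).trans (max_le hf hg)
  smul_mem' := by
    intro c f hf
    rw [Set.mem_ofPred_eq, Algebra.smul_def, RatFunc.algebraMap_eq_C, rdeg_mul]
    calc rdeg (RatFunc.C c) + rdeg f ≤ 0 + d := add_le_add (rdeg_C_le c) hf
      _ = d := zero_add _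

theorem mem_degLE {d : ℤ} {f : RatFunc K} : f ∈ degLE K d ↔ rdeg f ≤ d := Iff.rfl

theorem degLE_mono {d e : ℤ} (h : d ≤ e) : degLE K d ≤ degLE K e :=
  fun _ hf => le_trans hf (WithBot.coe_le_coe.mpr h)

theorem X_zpow_mul_mem_degLE {d e : ℤ} {f : RatFunc K} (hf : f ∈ degLE K e) :
    (RatFunc.X : RatFunc K) ^ d * f ∈ degLE K (d + e) := by
  rw [mem_degLE, rdeg_mul, rdeg_X_zpow, WithBot.coe_add]
  exact add_le_add le_rfl hf

theorem mem_degLE_iff_exists {d : ℤ} {f : RatFunc K} :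
    f ∈ degLE K d ↔ ∃ r ∈ Rinf K, f = (RatFunc.X : RatFunc K) ^ d * r := by
  have hX : (RatFunc.X : RatFunc K) ≠ 0 := RatFunc.X_ne_zero
  constructor
  · intro hf
    refine ⟨(RatFunc.X : RatFunc K) ^ (-d) * f, ?_, ?_⟩
    · rw [mem_Rinf_iff_rdeg]
      have := mem_degLE.mp (X_zpow_mul_mem_degLE (d := -d) hf)
      simpa using this
    · rw [← mul_assoc, ← zpow_add₀ hX]
      simp
  · rintro ⟨r, hr, rfl⟩
    have := X_zpow_mul_mem_degLE (d := d) (e := 0) (mem_degLE.mpr (mem_Rinf_iff_rdeg.mp hr))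
    simpa using this

/-- Division with remainder at infinity. -/
theorem exists_poly_rdeg_sub_lt (g : RatFunc K) :
    ∃ p : K[X], rdeg (g - algebraMap K[X] (RatFunc K) p) < 0 := by
  have hD : g.denom ≠ 0 := g.denom_ne_zero
  have hD' : algebraMap K[X] (RatFunc K) g.denom ≠ 0 := by simpa using hD
  refine ⟨g.num / g.denom, ?_⟩
  have hg : algebraMap K[X] (RatFunc K) g.num = g * algebraMap K[X] (RatFunc K) g.denom :=
    (div_eq_iff hD').mp (RatFunc.num_div_denom g)
  have h1 : g - algebraMap K[X] (RatFunc K) (g.num / g.denom)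
      = algebraMap K[X] (RatFunc K) (g.num % g.denom) / algebraMap K[X] (RatFunc K) g.denom := by
    rw [eq_div_iff hD', sub_mul, ← hg, ← map_mul, ← map_sub]
    congr 1
    have := EuclideanDomain.div_add_mod g.num g.denom
    rw [mul_comm] at this
    linear_combination -this
  rw [h1]
  by_cases hr : g.num % g.denom = 0
  · simp [hr]
  have hr' : algebraMap K[X] (RatFunc K) (g.num % g.denom) ≠ 0 := by simpa using hr
  rw [rdeg_of_ne_zero (div_ne_zero hr' hD'), RatFunc.intDegree_div hr' hD',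
    RatFunc.intDegree_polynomial, RatFunc.intDegree_polynomial]
  have := Polynomial.degree_mod_lt g.num hD
  rw [Polynomial.degree_eq_natDegree hr, Polynomial.degree_eq_natDegree hD] at this
  have h2 : (g.num % g.denom).natDegree < g.denom.natDegree := by exact_mod_cast this
  have : ((g.num % g.denom).natDegree : ℤ) - (g.denom.natDegree : ℤ) < 0 := by omega
  exact_mod_cast this

theorem withBot_lt_zero_iff (x : WithBot ℤ) : x < 0 ↔ x ≤ ((-1 : ℤ) : WithBot ℤ) := by
  induction x using WithBot.recBotCoe with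
  | bot => simp
  | coe n =>
    rw [← WithBot.coe_zero, WithBot.coe_lt_coe, WithBot.coe_le_coe]
    omega

theorem rdeg_lt_zero_iff {f : RatFunc K} : rdeg f < 0 ↔ rdeg f ≤ ((-1 : ℤ) : WithBot ℤ) :=
  withBot_lt_zero_iff _

theorem polyK_sup_degLE_neg_one : polyK K ⊔ degLE K (-1) = ⊤ := by
  rw [eq_top_iff]
  intro f _
  obtain ⟨p, hp⟩ := exists_poly_rdeg_sub_lt f
  have : f = algebraMap K[X] (RatFunc K) p + (f - algebraMap K[X] (RatFunc K) p) := by ring
  rw [this]
  refine Submodule.add_mem_sup ⟨p, rfl⟩ ?_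
  rw [mem_degLE]
  exact rdeg_lt_zero_iff.mp hp

/-- A polynomial of negative degree at infinity vanishes. -/
theorem eq_zero_of_rdeg_algebraMap_lt {p : K[X]}
    (h : rdeg (algebraMap K[X] (RatFunc K) p) < 0) : p = 0 := by
  by_contra hp
  exact absurd (rdeg_algebraMap_nonneg hp) (not_le.mpr h)


theorem rdeg_algebraMap_le_iff {p : K[X]} {d : ℤ} :
    rdeg (algebraMap K[X] (RatFunc K) p) ≤ d ↔ p.degree < ((d + 1).toNat : WithBot ℕ) := by
  by_cases hp : p = 0
  · simp [hp]
  rw [rdeg_algebraMap, Polynomial.degree_eq_natDegree hp]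
  have h1 : WithBot.map (Nat.cast : ℕ → ℤ) ((p.natDegree : ℕ) : WithBot ℕ)
      = ((p.natDegree : ℤ) : WithBot ℤ) := rfl
  rw [h1, WithBot.coe_le_coe, Nat.cast_lt]
  omega

theorem polyK_inf_degLE (d : ℤ) :
    polyK K ⊓ degLE K d = (Polynomial.degreeLT K (d + 1).toNat).map polyMap := by
  ext f
  simp only [Submodule.mem_inf, Submodule.mem_map, mem_polyK, mem_degLE, Polynomial.mem_degreeLT]
  constructor
  · rintro ⟨⟨p, rfl⟩, hd⟩
    exact ⟨p, rdeg_algebraMap_le_iff.mp hd, rfl⟩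
  · rintro ⟨p, hp, rfl⟩
    exact ⟨⟨p, rfl⟩, rdeg_algebraMap_le_iff.mpr hp⟩

theorem finrank_degreeLT (n : ℕ) : Module.finrank K (Polynomial.degreeLT K n) = n := by
  rw [(Polynomial.degreeLTEquiv K n).finrank_eq]
  simp

instance finite_degreeLT (n : ℕ) : Module.Finite K (Polynomial.degreeLT K n) :=
  Module.Finite.equiv (Polynomial.degreeLTEquiv K n).symm

/-- **L1**: the space of polynomials of degree `≤ d`. -/
theorem finrank_polyK_inf_degLE (d : ℤ) :
    Module.finrank K ↥(polyK K ⊓ degLE K d) = (d + 1).toNat := by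
  rw [polyK_inf_degLE,
    ← (Submodule.equivMapOfInjective polyMap polyMap_injective
      (Polynomial.degreeLT K (d + 1).toNat)).finrank_eq]
  exact finrank_degreeLT _

instance finite_polyK_inf_degLE (d : ℤ) : Module.Finite K ↥(polyK K ⊓ degLE K d) := by
  rw [polyK_inf_degLE]
  exact Module.Finite.equiv (Submodule.equivMapOfInjective polyMap polyMap_injective
      (Polynomial.degreeLT K (d + 1).toNat))

/-- `p ↦ X ^ (-m) * p`. -/
def shiftPolyMap (m : ℕ) : K[X] →ₗ[K] RatFunc K :=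
  (LinearMap.mulLeft K ((RatFunc.X : RatFunc K) ^ (-(m : ℤ)))).comp polyMap

@[simp] theorem shiftPolyMap_apply (m : ℕ) (p : K[X]) :
    shiftPolyMap m p = (RatFunc.X : RatFunc K) ^ (-(m : ℤ)) * algebraMap K[X] (RatFunc K) p := rfl

theorem shiftPolyMap_injective (m : ℕ) : Function.Injective (shiftPolyMap (K := K) m) := by
  intro p q h
  have hX : ((RatFunc.X : RatFunc K) ^ (-(m : ℤ))) ≠ 0 := zpow_ne_zero _ RatFunc.X_ne_zero
  simp only [shiftPolyMap_apply] at h
  exact RatFunc.algebraMap_injective K (mul_left_cancel₀ hX h)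

variable (K) in
/-- The complement of `polyK ⊔ degLE d`: spanned by `X^(-1), …, X^(-m)`. -/
def tailSpace (m : ℕ) : Submodule K (RatFunc K) := (Polynomial.degreeLT K m).map (shiftPolyMap m)

theorem finrank_tailSpace (m : ℕ) : Module.finrank K (tailSpace K m) = m := by
  rw [tailSpace, ← (Submodule.equivMapOfInjective (shiftPolyMap m) (shiftPolyMap_injective m)
      (Polynomial.degreeLT K m)).finrank_eq]
  exact finrank_degreeLT _

instance finite_tailSpace (m : ℕ) : Module.Finite K (tailSpace K m) :=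
  Module.Finite.equiv (Submodule.equivMapOfInjective (shiftPolyMap m) (shiftPolyMap_injective m)
      (Polynomial.degreeLT K m))

theorem exists_decomp (m : ℕ) (f : RatFunc K) :
    ∃ (p q : K[X]) (g : RatFunc K), q.degree < (m : WithBot ℕ) ∧
      rdeg g ≤ ((-(m : ℤ) - 1 : ℤ) : WithBot ℤ) ∧
      f = algebraMap K[X] (RatFunc K) p
        + (RatFunc.X : RatFunc K) ^ (-(m : ℤ)) * algebraMap K[X] (RatFunc K) q + g := by
  have hX : (RatFunc.X : RatFunc K) ≠ 0 := RatFunc.X_ne_zero
  obtain ⟨p, hp⟩ := exists_poly_rdeg_sub_lt f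
  set g1 := f - algebraMap K[X] (RatFunc K) p with hg1
  obtain ⟨q, hq⟩ := exists_poly_rdeg_sub_lt ((RatFunc.X : RatFunc K) ^ (m : ℤ) * g1)
  set g2 := (RatFunc.X : RatFunc K) ^ (m : ℤ) * g1 - algebraMap K[X] (RatFunc K) q with hg2
  refine ⟨p, q, (RatFunc.X : RatFunc K) ^ (-(m : ℤ)) * g2, ?_, ?_, ?_⟩
  · -- degree q < m
    have hq' : algebraMap K[X] (RatFunc K) q = (RatFunc.X : RatFunc K) ^ (m : ℤ) * g1 - g2 := by
      rw [hg2]; ring
    have h1 : rdeg (algebraMap K[X] (RatFunc K) q) ≤ ((m : ℤ) - 1 : ℤ) := by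
      rw [hq']
      refine (rdeg_sub_le _ _).trans (max_le ?_ ?_)
      · rw [rdeg_mul, rdeg_X_zpow]
        have : rdeg g1 ≤ ((-1 : ℤ) : WithBot ℤ) := rdeg_lt_zero_iff.mp hp
        calc ((m : ℤ) : WithBot ℤ) + rdeg g1 ≤ ((m : ℤ) : WithBot ℤ) + ((-1 : ℤ) : WithBot ℤ) :=
              add_le_add le_rfl this
          _ = (((m : ℤ) - 1 : ℤ) : WithBot ℤ) := by rw [← WithBot.coe_add]; rfl
      · refine (rdeg_lt_zero_iff.mp hq).trans ?_
        rw [WithBot.coe_le_coe]
        omega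
    have := rdeg_algebraMap_le_iff.mp h1
    simpa using this
  · rw [rdeg_mul, rdeg_X_zpow]
    have : rdeg g2 ≤ ((-1 : ℤ) : WithBot ℤ) := rdeg_lt_zero_iff.mp hq
    calc ((-(m : ℤ) : ℤ) : WithBot ℤ) + rdeg g2
        ≤ ((-(m : ℤ) : ℤ) : WithBot ℤ) + ((-1 : ℤ) : WithBot ℤ) := add_le_add le_rfl this
      _ = ((-(m : ℤ) - 1 : ℤ) : WithBot ℤ) := by rw [← WithBot.coe_add]; rfl
  · have hXm : (RatFunc.X : RatFunc K) ^ (-(m : ℤ)) * (RatFunc.X : RatFunc K) ^ (m : ℤ) = 1 := by
      rw [← zpow_add₀ hX]; simp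
    rw [hg2, mul_sub, ← mul_assoc, hXm, hg1]
    ring

theorem isCompl_polyK_sup_degLE (d : ℤ) :
    IsCompl (polyK K ⊔ degLE K d) (tailSpace K (-d - 1).toNat) := by
  have hX : (RatFunc.X : RatFunc K) ≠ 0 := RatFunc.X_ne_zero
  set m := (-d - 1).toNat with hm
  constructor
  · rw [Submodule.disjoint_def]
    rintro x hx ⟨q, hq, rfl⟩
    rw [SetLike.mem_coe, Polynomial.mem_degreeLT] at hq
    obtain ⟨y, ⟨p, rfl⟩, g, hg, hxe⟩ := Submodule.mem_sup.mp hx
    rw [shiftPolyMap_apply] at hxe ⊢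
    rcases Nat.eq_zero_or_pos m with hm0 | hmpos
    · rw [hm0] at hq
      have : q = 0 := by
        by_contra hq0
        rw [Polynomial.degree_eq_natDegree hq0] at hq
        have : (q.natDegree : ℕ) < 0 := by exact_mod_cast hq
        omega
      simp [this]
    · have hd : d = -(m : ℤ) - 1 := by omega
      -- q - X^m p = X^m g
      have hXm : (RatFunc.X : RatFunc K) ^ (m : ℤ) * (RatFunc.X : RatFunc K) ^ (-(m : ℤ)) = 1 := by
        rw [← zpow_add₀ hX]; simp
      have key : algebraMap K[X] (RatFunc K) (q - X ^ m * p)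
          = (RatFunc.X : RatFunc K) ^ (m : ℤ) * g := by
        have h2 : algebraMap K[X] (RatFunc K) q = (RatFunc.X : RatFunc K) ^ (m : ℤ) *
            (algebraMap K[X] (RatFunc K) p + g) := by
          rw [← polyMap_apply p, hxe, ← mul_assoc, hXm, one_mul]
        rw [map_sub, map_mul, map_pow, RatFunc.algebraMap_X, h2, zpow_natCast]
        ring
      have hlt : rdeg (algebraMap K[X] (RatFunc K) (q - X ^ m * p)) < 0 := by
        rw [key, rdeg_mul, rdeg_X_zpow, withBot_lt_zero_iff]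
        calc ((m : ℤ) : WithBot ℤ) + rdeg g ≤ ((m : ℤ) : WithBot ℤ) + (d : WithBot ℤ) :=
              add_le_add le_rfl (mem_degLE.mp hg)
          _ = ((-1 : ℤ) : WithBot ℤ) := by rw [← WithBot.coe_add, hd]; congr 1; ring
      have h0 : q - X ^ m * p = 0 := eq_zero_of_rdeg_algebraMap_lt hlt
      have hq2 : q = X ^ m * p := sub_eq_zero.mp h0
      have hp0 : p = 0 := by
        by_contra hp0
        rw [hq2, Polynomial.degree_mul, Polynomial.degree_X_pow,
          Polynomial.degree_eq_natDegree hp0] at hq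
        have : ((m + p.natDegree : ℕ) : WithBot ℕ) < (m : WithBot ℕ) := by
          rw [Nat.cast_add]; exact hq
        have : m + p.natDegree < m := by exact_mod_cast this
        omega
      rw [hq2, hp0]
      simp
  · rw [codisjoint_iff, eq_top_iff]
    intro f _
    obtain ⟨p, q, g, hq, hg, hf⟩ := exists_decomp m f
    rw [hf]
    have hd : -(m : ℤ) - 1 ≤ d := by omega
    have h1 : algebraMap K[X] (RatFunc K) p + g ∈ polyK K ⊔ degLE K d :=
      Submodule.add_mem_sup ⟨p, rfl⟩ (degLE_mono hd (mem_degLE.mpr hg))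
    have h2 : (RatFunc.X : RatFunc K) ^ (-(m : ℤ)) * algebraMap K[X] (RatFunc K) q
        ∈ tailSpace K m := ⟨q, Polynomial.mem_degreeLT.mpr hq, rfl⟩
    have : algebraMap K[X] (RatFunc K) p
        + (RatFunc.X : RatFunc K) ^ (-(m : ℤ)) * algebraMap K[X] (RatFunc K) q + g
        = (algebraMap K[X] (RatFunc K) p + g)
          + (RatFunc.X : RatFunc K) ^ (-(m : ℤ)) * algebraMap K[X] (RatFunc K) q := by ring
    rw [this]
    exact Submodule.add_mem_sup h1 h2

/-- **L2**: the cokernel `K(X) / (K[X] + {deg ≤ d})`. -/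
theorem finrank_quotient_polyK_sup_degLE (d : ℤ) :
    Module.finrank K (RatFunc K ⧸ (polyK K ⊔ degLE K d)) = (-d - 1).toNat := by
  rw [(Submodule.quotientEquivOfIsCompl _ _ (isCompl_polyK_sup_degLE d)).finrank_eq]
  exact finrank_tailSpace _

instance finite_quotient_polyK_sup_degLE (d : ℤ) :
    Module.Finite K (RatFunc K ⧸ (polyK K ⊔ degLE K d)) :=
  Module.Finite.equiv (Submodule.quotientEquivOfIsCompl _ _ (isCompl_polyK_sup_degLE d)).symm


instance isPrincipalIdealRing_Rinf : IsPrincipalIdealRing (Rinf K) := by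
  refine ⟨fun I => ?_⟩
  by_cases hI : I = ⊥
  · rw [hI]; exact bot_isPrincipal
  -- choose an element of maximal degree
  have hne : ∃ f ∈ I, f ≠ 0 := by
    by_contra h
    simp only [not_exists, not_and, not_not] at h
    exact hI ((Submodule.eq_bot_iff I).mpr h)
  have hex : ∃ n : ℤ, ∃ f ∈ I, f ≠ 0 ∧ (f : RatFunc K).intDegree = n := by
    obtain ⟨f, hf, hf0⟩ := hne
    exact ⟨_, f, hf, hf0, rfl⟩
  have hbdd : ∀ n : ℤ, (∃ f ∈ I, f ≠ 0 ∧ (f : RatFunc K).intDegree = n) → n ≤ 0 := by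
    rintro n ⟨f, -, -, rfl⟩
    exact f.2
  obtain ⟨n0, ⟨f0, hf0I, hf0, hn0⟩, hmax⟩ := Int.exists_greatest_of_bdd ⟨0, hbdd⟩ hex
  refine ⟨⟨f0, le_antisymm ?_ ?_⟩⟩
  · intro g hg
    rw [Ideal.submodule_span_eq, Ideal.mem_span_singleton']
    by_cases hg0 : g = 0
    · exact ⟨0, by simp [hg0]⟩
    have hf0' : (f0 : RatFunc K) ≠ 0 := fun h => hf0 (Subtype.ext h)
    have hg0' : (g : RatFunc K) ≠ 0 := fun h => hg0 (Subtype.ext h)
    have hdeg : ((g : RatFunc K) / (f0 : RatFunc K)).intDegree ≤ 0 := by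
      rw [RatFunc.intDegree_div hg0' hf0', hn0]
      have := hmax _ ⟨g, hg, hg0, rfl⟩
      omega
    refine ⟨⟨(g : RatFunc K) / (f0 : RatFunc K), hdeg⟩, Subtype.ext ?_⟩
    show (g : RatFunc K) / (f0 : RatFunc K) * (f0 : RatFunc K) = g
    exact div_mul_cancel₀ _ hf0'
  · rw [Ideal.submodule_span_eq, Ideal.span_singleton_le_iff_mem]
    exact hf0I

end Fermat.Agent.S20
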