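import Mathlib
import Fermat.Agent.S20.RatFuncInfty

set_option autoImplicit false

noncomputable section

namespace Fermat.Agent.S20

open Polynomial
open scoped Classical

variable {K : Type*} [Field K] {n : ℕ}

/-- sup-degree of a vector of rational functions. -/
def vdeg (w : Fin n → RatFunc K) : WithBot ℤ := Finset.univ.sup fun i => rdeg (w i)

theorem vdeg_le_iff {w : Fin n → RatFunc K} {d : WithBot ℤ} :
    vdeg w ≤ d ↔ ∀ i, rdeg (w i) ≤ d := by
  simp [vdeg, Finset.sup_le_iff]

theorem rdeg_le_vdeg (w : Fin n → RatFunc K) (i : Fin n) : rdeg (w i) ≤ vdeg w :=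
  Finset.le_sup (f := fun i => rdeg (w i)) (Finset.mem_univ i)

@[simp] theorem vdeg_zero : vdeg (0 : Fin n → RatFunc K) = ⊥ := by
  rw [eq_bot_iff, vdeg_le_iff]
  intro i
  simp

@[simp] theorem vdeg_eq_bot_iff {w : Fin n → RatFunc K} : vdeg w = ⊥ ↔ w = 0 := by
  constructor
  · intro h
    funext i
    have := rdeg_le_vdeg w i
    rw [h, le_bot_iff, rdeg_eq_bot_iff] at this
    simpa using this
  · rintro rfl
    exact vdeg_zero

theorem vdeg_add_le (v w : Fin n → RatFunc K) : vdeg (v + w) ≤ max (vdeg v) (vdeg w) := by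
  rw [vdeg_le_iff]
  intro i
  exact (rdeg_add_le _ _).trans (max_le_max (rdeg_le_vdeg v i) (rdeg_le_vdeg w i))

theorem vdeg_neg (v : Fin n → RatFunc K) : vdeg (-v) = vdeg v := by
  simp [vdeg]

theorem vdeg_sub_le (v w : Fin n → RatFunc K) : vdeg (v - w) ≤ max (vdeg v) (vdeg w) := by
  rw [sub_eq_add_neg]
  exact (vdeg_add_le v (-w)).trans (by rw [vdeg_neg])

theorem vdeg_sum_le {ι : Type*} (s : Finset ι) (f : ι → Fin n → RatFunc K) (d : WithBot ℤ)
    (h : ∀ i ∈ s, vdeg (f i) ≤ d) : vdeg (∑ i ∈ s, f i) ≤ d := by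
  induction s using Finset.induction_on with
  | empty => simp
  | insert a s ha ih =>
    rw [Finset.sum_insert ha]
    refine (vdeg_add_le _ _).trans (max_le (h a (Finset.mem_insert_self a s)) ?_)
    exact ih fun i hi => h i (Finset.mem_insert_of_mem hi)

theorem withBot_add_sup {ι : Type*} (s : Finset ι) (a : WithBot ℤ) (f : ι → WithBot ℤ)
    (hs : s.Nonempty) : a + s.sup f = s.sup fun i => a + f i := by
  induction hs using Finset.Nonempty.cons_induction with
  | singleton i => simp
  | cons i s hi hs ih =>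
    rw [Finset.sup_cons, Finset.sup_cons, ← ih]
    exact (max_add_add_left a (f i) (s.sup f)).symm

theorem vdeg_smul (c : RatFunc K) (w : Fin n → RatFunc K) : vdeg (c • w) = rdeg c + vdeg w := by
  rcases Nat.eq_zero_or_pos n with hn | hn
  · subst hn
    have h1 : c • w = 0 := Subsingleton.elim _ _
    have h2 : w = 0 := Subsingleton.elim _ _
    rw [h1, h2, vdeg_zero]
    simp
  · have : Nonempty (Fin n) := ⟨⟨0, hn⟩⟩
    unfold vdeg
    rw [withBot_add_sup _ _ _ Finset.univ_nonempty]
    congr 1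
    funext i
    simp [rdeg_mul]

theorem vdeg_add_eq_of_lt {v w : Fin n → RatFunc K} (h : vdeg w < vdeg v) :
    vdeg (v + w) = vdeg v := by
  refine le_antisymm ((vdeg_add_le v w).trans (max_le le_rfl h.le)) ?_
  by_contra hlt
  rw [not_le] at hlt
  have : vdeg v ≤ max (vdeg (v + w)) (vdeg w) := by
    have := vdeg_sub_le (v + w) w
    simpa using this
  rcases le_max_iff.mp this with h1 | h1
  · exact absurd h1 (not_le.mpr hlt)
  · exact absurd h1 (not_le.mpr h)

/-- degree of a polynomial seen in `K(X)`. -/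
abbrev pdeg (p : K[X]) : WithBot ℤ := rdeg (algebraMap K[X] (RatFunc K) p)

/-- A family is reduced if the degree of every polynomial combination is the maximum of the
degrees of the summands. -/
def IsReduced {ι : Type*} [Fintype ι] (b : ι → Fin n → RatFunc K) : Prop :=
  ∀ a : ι → K[X], (Finset.univ.sup fun i => pdeg (a i) + vdeg (b i)) ≤ vdeg (∑ i, a i • b i)

theorem polySMul_eq (p : K[X]) (w : Fin n → RatFunc K) :
    p • w = (algebraMap K[X] (RatFunc K) p) • w := by
  rw [algebraMap_smul]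

theorem vdeg_polySMul (p : K[X]) (w : Fin n → RatFunc K) : vdeg (p • w) = pdeg p + vdeg w := by
  rw [polySMul_eq, vdeg_smul]

theorem vdeg_sum_polySMul_le {ι : Type*} [Fintype ι] (b : ι → Fin n → RatFunc K) (a : ι → K[X]) :
    vdeg (∑ i, a i • b i) ≤ Finset.univ.sup fun i => pdeg (a i) + vdeg (b i) := by
  refine vdeg_sum_le _ _ _ fun i _ => ?_
  rw [vdeg_polySMul]
  exact Finset.le_sup (f := fun i => pdeg (a i) + vdeg (b i)) (Finset.mem_univ i)


/-- integer-valued degree of a vector (junk value `0` at `0`). -/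
def vdegZ (w : Fin n → RatFunc K) : ℤ := (vdeg w).unbotD 0

theorem vdeg_eq_coe_vdegZ {w : Fin n → RatFunc K} (hw : w ≠ 0) :
    vdeg w = (vdegZ w : WithBot ℤ) := by
  unfold vdegZ
  have : vdeg w ≠ ⊥ := fun h => hw (vdeg_eq_bot_iff.mp h)
  obtain ⟨z, hz⟩ := WithBot.ne_bot_iff_exists.mp this
  rw [← hz]
  simp

theorem pdeg_eq_natDegree {p : K[X]} (hp : p ≠ 0) : pdeg p = ((p.natDegree : ℤ) : WithBot ℤ) := by
  have hp' : algebraMap K[X] (RatFunc K) p ≠ 0 := by simpa using hp
  rw [pdeg, rdeg_of_ne_zero hp', RatFunc.intDegree_polynomial]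

theorem pdeg_X_pow (N : ℕ) : pdeg (X ^ N : K[X]) = ((N : ℤ) : WithBot ℤ) := by
  rw [pdeg_eq_natDegree (pow_ne_zero _ X_ne_zero), natDegree_X_pow]

theorem pdeg_eraseLead_lt {p : K[X]} (hp : p ≠ 0) : pdeg p.eraseLead < pdeg p := by
  by_cases h0 : p.eraseLead = 0
  · rw [h0, pdeg_eq_natDegree hp, pdeg, map_zero, rdeg_zero]
    exact WithBot.bot_lt_coe _
  · rw [pdeg_eq_natDegree h0, pdeg_eq_natDegree hp, WithBot.coe_lt_coe]
    have := (Polynomial.eraseLead_natDegree_lt_or_eraseLead_eq_zero p).resolve_right h0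
    exact_mod_cast this

theorem exists_better {b : Fin n → Fin n → RatFunc K} (hli : LinearIndependent K[X] b)
    (hnr : ¬ IsReduced b) :
    ∃ (i0 : Fin n) (b' : Fin n → RatFunc K), b' ≠ 0 ∧ vdeg b' < vdeg (b i0) ∧
      Submodule.span K[X] (Set.range (Function.update b i0 b'))
        = Submodule.span K[X] (Set.range b) := by
  unfold IsReduced at hnr
  simp only [not_forall, not_le] at hnr
  obtain ⟨a, ha⟩ := hnr
  set T : Fin n → WithBot ℤ := fun i => pdeg (a i) + vdeg (b i) with hT
  set m := Finset.univ.sup T with hm_def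
  have hm : ⊥ < m := lt_of_le_of_lt bot_le ha
  have hne : (Finset.univ : Finset (Fin n)).Nonempty := by
    by_contra h
    rw [Finset.not_nonempty_iff_eq_empty] at h
    rw [hm_def, h, Finset.sup_empty] at hm
    exact lt_irrefl _ hm
  obtain ⟨i1, -, hi1⟩ := Finset.exists_mem_eq_sup Finset.univ hne T
  set S := Finset.univ.filter (fun i => T i = m) with hS
  have hi1S : i1 ∈ S := by simp [hS, ← hi1, hm_def]
  obtain ⟨i0, hi0S, hmax⟩ := Finset.exists_max_image S (fun i => vdegZ (b i)) ⟨i1, hi1S⟩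
  have hb0 : ∀ i, b i ≠ 0 := fun i => hli.ne_zero i
  have hmemS : ∀ i, i ∈ S ↔ T i = m := fun i => by simp [hS]
  have ha0 : ∀ i ∈ S, a i ≠ 0 := by
    intro i hi h0
    have : T i = ⊥ := by simp [hT, h0, pdeg]
    rw [(hmemS i).mp hi] at this
    exact hm.ne' this
  obtain ⟨M, hM⟩ := WithBot.ne_bot_iff_exists.mp hm.ne'
  have hTi : ∀ i ∈ S, ((a i).natDegree : ℤ) + vdegZ (b i) = M := by
    intro i hi
    have h1 := (hmemS i).mp hi
    rw [hT] at h1
    simp only at h1
    rw [pdeg_eq_natDegree (ha0 i hi), vdeg_eq_coe_vdegZ (hb0 i), ← hM, ← WithBot.coe_add] at h1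
    exact WithBot.coe_injective h1
  set N0 := (a i0).natDegree with hN0
  have hle : ∀ i ∈ S, N0 ≤ (a i).natDegree := by
    intro i hi
    have h1 := hTi i hi
    have h2 := hTi i0 hi0S
    have h3 : vdegZ (b i) ≤ vdegZ (b i0) := hmax i hi
    omega
  set r : Fin n → K[X] := fun i =>
    if i ∈ S then C (a i).leadingCoeff * X ^ ((a i).natDegree - N0) else 0 with hr
  set e : Fin n → K[X] := fun i => if i ∈ S then (a i).eraseLead else a i with he
  have hre : ∀ i, X ^ N0 * r i = a i - e i := by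
    intro i
    by_cases hi : i ∈ S
    · simp only [hr, he, if_pos hi]
      have h1 := Polynomial.eraseLead_add_C_mul_X_pow (a i)
      have h2 : (X : K[X]) ^ N0 * (C (a i).leadingCoeff * X ^ ((a i).natDegree - N0))
          = C (a i).leadingCoeff * X ^ (a i).natDegree := by
        rw [mul_left_comm, ← pow_add, Nat.add_sub_cancel' (hle i hi)]
      rw [h2]
      linear_combination h1
    · simp only [hr, he, if_neg hi]
      simp
  set b' : Fin n → RatFunc K := ∑ i, r i • b i with hb'
  have key : (X ^ N0 : K[X]) • b' = ∑ i, a i • b i - ∑ i, e i • b i := by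
    rw [hb', Finset.smul_sum, ← Finset.sum_sub_distrib]
    refine Finset.sum_congr rfl fun i _ => ?_
    rw [← mul_smul, hre, sub_smul]
  have h2 : vdeg (∑ i, e i • b i) < m := by
    refine (vdeg_sum_polySMul_le b e).trans_lt ?_
    rw [Finset.sup_lt_iff hm]
    intro i _
    by_cases hi : i ∈ S
    · have h1 : pdeg (e i) < pdeg (a i) := by
        simp only [he, if_pos hi]
        exact pdeg_eraseLead_lt (ha0 i hi)
      have h3 : vdeg (b i) ≠ ⊥ := fun h => hb0 i (vdeg_eq_bot_iff.mp h)
      calc pdeg (e i) + vdeg (b i) < pdeg (a i) + vdeg (b i) := WithBot.add_lt_add_right h3 h1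
        _ = m := (hmemS i).mp hi
    · simp only [he, if_neg hi]
      have h1 : T i ≤ m := Finset.le_sup (f := T) (Finset.mem_univ i)
      exact lt_of_le_of_ne h1 (fun h => hi ((hmemS i).mpr h))
  have h3 : vdeg ((X ^ N0 : K[X]) • b') < m := by
    rw [key]
    exact (vdeg_sub_le _ _).trans_lt (max_lt ha h2)
  have h4 : vdeg b' < vdeg (b i0) := by
    rw [vdeg_polySMul, pdeg_X_pow] at h3
    have h5 : m = ((N0 : ℤ) : WithBot ℤ) + vdeg (b i0) := by
      rw [← (hmemS i0).mp hi0S, hT]
      simp only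
      rw [pdeg_eq_natDegree (ha0 i0 hi0S)]
    rw [h5] at h3
    exact lt_of_add_lt_add_left h3
  have hr0 : r i0 = C (a i0).leadingCoeff := by
    simp only [hr, if_pos hi0S]
    simp [hN0]
  have hlc : (a i0).leadingCoeff ≠ 0 := Polynomial.leadingCoeff_ne_zero.mpr (ha0 i0 hi0S)
  have hb'0 : b' ≠ 0 := by
    intro h0
    have := linearIndependent_iff'.mp hli Finset.univ r (by rw [← hb']; exact h0) i0
      (Finset.mem_univ _)
    rw [hr0] at this
    exact hlc (by simpa using this)
  refine ⟨i0, b', hb'0, h4, le_antisymm ?_ ?_⟩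
  · rw [Submodule.span_le]
    rintro _ ⟨i, rfl⟩
    by_cases hi : i = i0
    · subst hi
      rw [Function.update_self]
      exact Submodule.sum_mem _ fun j _ =>
        Submodule.smul_mem _ _ (Submodule.subset_span ⟨j, rfl⟩)
    · rw [Function.update_of_ne hi]
      exact Submodule.subset_span ⟨i, rfl⟩
  · rw [Submodule.span_le]
    rintro _ ⟨i, rfl⟩
    by_cases hi : i = i0
    · subst hi
      have hmem' : b' ∈ Submodule.span K[X] (Set.range (Function.update b i b')) :=
        Submodule.subset_span ⟨i, by rw [Function.update_self]⟩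
      have hmemj : ∀ j, j ≠ i → b j ∈ Submodule.span K[X] (Set.range (Function.update b i b')) :=
        fun j hj => Submodule.subset_span ⟨j, by rw [Function.update_of_ne hj]⟩
      have hsplit : b' = r i • b i + ∑ j ∈ Finset.univ.erase i, r j • b j := by
        rw [hb']
        exact (Finset.add_sum_erase Finset.univ (fun j => r j • b j) (Finset.mem_univ i)).symm
      have h6 : C (a i).leadingCoeff • b i
          ∈ Submodule.span K[X] (Set.range (Function.update b i b')) := by
        have : C (a i).leadingCoeff • b i = b' - ∑ j ∈ Finset.univ.erase i, r j • b j := by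
          rw [hsplit, hr0]; abel
        rw [this]
        refine Submodule.sub_mem _ hmem' (Submodule.sum_mem _ fun j hj => ?_)
        exact Submodule.smul_mem _ _ (hmemj j (Finset.ne_of_mem_erase hj))
      have h7 : b i = C ((a i).leadingCoeff)⁻¹ • (C (a i).leadingCoeff • b i) := by
        rw [← mul_smul, ← C_mul, inv_mul_cancel₀ hlc, C_1, one_smul]
      rw [SetLike.mem_coe, h7]
      exact Submodule.smul_mem _ _ h6
    · exact Submodule.subset_span ⟨i, by rw [Function.update_of_ne hi]⟩


theorem exists_vdeg_lower_bound (Λ : Submodule K[X] (Fin n → RatFunc K)) (hfg : Λ.FG) :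
    ∃ D : ℤ, ∀ v ∈ Λ, v ≠ 0 → (D : WithBot ℤ) ≤ vdeg v := by
  obtain ⟨S, hS⟩ := hfg
  set q : K[X] := ∏ g ∈ S, ∏ i, (g i).denom with hq_def
  have hq : q ≠ 0 := Finset.prod_ne_zero_iff.mpr fun g _ =>
    Finset.prod_ne_zero_iff.mpr fun i _ => (g i).denom_ne_zero
  have hq' : algebraMap K[X] (RatFunc K) q ≠ 0 := by simpa using hq
  have hP : ∀ v ∈ Λ, ∀ i, ∃ p : K[X],
      algebraMap K[X] (RatFunc K) q * v i = algebraMap K[X] (RatFunc K) p := by
    intro v hv
    rw [← hS] at hv
    induction hv using Submodule.span_induction with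
    | mem g hg =>
      intro i
      obtain ⟨r, hr⟩ : (g i).denom ∣ q :=
        (Finset.dvd_prod_of_mem (fun i => (g i).denom) (Finset.mem_univ i)).trans
          (Finset.dvd_prod_of_mem (fun g : Fin n → RatFunc K => ∏ i, (g i).denom) hg)
      refine ⟨r * (g i).num, ?_⟩
      have hD : algebraMap K[X] (RatFunc K) (g i).denom ≠ 0 := by
        simpa using (g i).denom_ne_zero
      have h1 : algebraMap K[X] (RatFunc K) (g i).num
          = g i * algebraMap K[X] (RatFunc K) (g i).denom :=
        (div_eq_iff hD).mp (RatFunc.num_div_denom (g i))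
      rw [hr, map_mul, map_mul, h1]
      ring
    | zero => intro i; exact ⟨0, by simp⟩
    | add x y _ _ hx hy =>
      intro i
      obtain ⟨p1, h1⟩ := hx i
      obtain ⟨p2, h2⟩ := hy i
      exact ⟨p1 + p2, by rw [Pi.add_apply, mul_add, h1, h2, map_add]⟩
    | smul c x _ hx =>
      intro i
      obtain ⟨p, hp⟩ := hx i
      refine ⟨c * p, ?_⟩
      rw [Pi.smul_apply, Algebra.smul_def, map_mul, ← hp]
      ring
  refine ⟨-(q.natDegree : ℤ), fun v hv hv0 => ?_⟩
  obtain ⟨i, hi⟩ : ∃ i, v i ≠ 0 := by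
    by_contra h
    simp only [not_exists, not_not] at h
    exact hv0 (funext h)
  obtain ⟨p, hp⟩ := hP v hv i
  have hp0 : p ≠ 0 := by
    rintro rfl
    rw [map_zero] at hp
    exact (mul_ne_zero hq' hi) hp
  refine le_trans ?_ (rdeg_le_vdeg v i)
  rw [rdeg_of_ne_zero hi, WithBot.coe_le_coe]
  have := congrArg RatFunc.intDegree hp
  rw [RatFunc.intDegree_mul hq' hi, RatFunc.intDegree_polynomial,
    RatFunc.intDegree_polynomial] at this
  omega

theorem linearIndependent_of_span_eq {Λ : Submodule K[X] (Fin n → RatFunc K)}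
    [Λ.IsLattice (RatFunc K)] {b : Fin n → Fin n → RatFunc K}
    (hb : Submodule.span K[X] (Set.range b) = Λ) : LinearIndependent (RatFunc K) b := by
  refine linearIndependent_of_top_le_span_of_card_eq_finrank ?_ (by simp)
  rw [← Submodule.span_span_of_tower K[X] (RatFunc K), hb, Submodule.IsLattice.span_eq_top]

theorem exists_spanning_family (Λ : Submodule K[X] (Fin n → RatFunc K))
    [Λ.IsLattice (RatFunc K)] :
    ∃ b : Fin n → Fin n → RatFunc K, Submodule.span K[X] (Set.range b) = Λ := by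
  have hfr : Module.finrank K[X] Λ = n := by
    rw [Submodule.IsLattice.finrank_of_pi (RatFunc K) Λ]
    simp
  let β := Module.finBasisOfFinrankEq K[X] Λ hfr
  refine ⟨fun i => (β i : Fin n → RatFunc K), ?_⟩
  have : Set.range (fun i => (β i : Fin n → RatFunc K)) = Λ.subtype '' Set.range β := by
    rw [← Set.range_comp]; rfl
  rw [this, ← Submodule.map_span, β.span_eq, Submodule.map_subtype_top]

theorem exists_reduced_spanning (Λ : Submodule K[X] (Fin n → RatFunc K))
    [Λ.IsLattice (RatFunc K)] :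
    ∃ b : Fin n → Fin n → RatFunc K, Submodule.span K[X] (Set.range b) = Λ ∧ IsReduced b := by
  obtain ⟨D, hD⟩ := exists_vdeg_lower_bound Λ (Submodule.IsLattice.fg (A := RatFunc K))
  let P : ℤ → Prop := fun z => ∃ b : Fin n → Fin n → RatFunc K,
    Submodule.span K[X] (Set.range b) = Λ ∧ ∑ i, vdegZ (b i) = z
  have hmem : ∀ b : Fin n → Fin n → RatFunc K, Submodule.span K[X] (Set.range b) = Λ →
      ∀ i, b i ∈ Λ := fun b hb i => hb ▸ Submodule.subset_span ⟨i, rfl⟩
  have hne0 : ∀ b : Fin n → Fin n → RatFunc K, Submodule.span K[X] (Set.range b) = Λ →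
      ∀ i, b i ≠ 0 := fun b hb i => (linearIndependent_of_span_eq hb).ne_zero i
  have hbdd : ∃ B : ℤ, ∀ z, P z → B ≤ z := by
    refine ⟨n * D, ?_⟩
    rintro z ⟨b, hb, rfl⟩
    have : ∀ i ∈ (Finset.univ : Finset (Fin n)), D ≤ vdegZ (b i) := by
      intro i _
      have := hD (b i) (hmem b hb i) (hne0 b hb i)
      rw [vdeg_eq_coe_vdegZ (hne0 b hb i), WithBot.coe_le_coe] at this
      exact this
    have h2 := Finset.card_nsmul_le_sum Finset.univ (fun i => vdegZ (b i)) D this
    simpa using h2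
  have hex : ∃ z, P z := by
    obtain ⟨b, hb⟩ := exists_spanning_family Λ
    exact ⟨_, b, hb, rfl⟩
  obtain ⟨z0, ⟨b0, hb0, hz0⟩, hmin⟩ := Int.exists_least_of_bdd hbdd hex
  refine ⟨b0, hb0, ?_⟩
  by_contra hnr
  have hliK : LinearIndependent K[X] b0 :=
    (LinearIndependent.iff_fractionRing (R := K[X]) (K := RatFunc K)).mpr
      (linearIndependent_of_span_eq hb0)
  obtain ⟨i0, b', hb'0, hlt, hspan⟩ := exists_better hliK hnr
  have hb'' : Submodule.span K[X] (Set.range (Function.update b0 i0 b')) = Λ := hspan.trans hb0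
  have hle := hmin _ ⟨Function.update b0 i0 b', hb'', rfl⟩
  have hlt' : ∑ i, vdegZ (Function.update b0 i0 b' i) < ∑ i, vdegZ (b0 i) := by
    refine Finset.sum_lt_sum (fun i _ => ?_) ⟨i0, Finset.mem_univ _, ?_⟩
    · by_cases hi : i = i0
      · subst hi
        rw [Function.update_self]
        rw [vdeg_eq_coe_vdegZ hb'0, vdeg_eq_coe_vdegZ (hne0 b0 hb0 i), WithBot.coe_lt_coe] at hlt
        exact hlt.le
      · rw [Function.update_of_ne hi]
    · rw [Function.update_self]
      rw [vdeg_eq_coe_vdegZ hb'0, vdeg_eq_coe_vdegZ (hne0 b0 hb0 i0), WithBot.coe_lt_coe] at hlt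
      exact hlt
  omega


theorem IsReduced.vdeg_sum_eq {b : Fin n → Fin n → RatFunc K} (hb : IsReduced b)
    (c : Fin n → RatFunc K) :
    vdeg (∑ i, c i • b i) = Finset.univ.sup fun i => rdeg (c i) + vdeg (b i) := by
  rcases Nat.eq_zero_or_pos n with hn | hn
  · subst hn
    simp
  have hne : (Finset.univ : Finset (Fin n)).Nonempty := ⟨⟨0, hn⟩, Finset.mem_univ _⟩
  set q : K[X] := ∏ i, (c i).denom with hq_def
  have hq : q ≠ 0 := Finset.prod_ne_zero_iff.mpr fun i _ => (c i).denom_ne_zero
  set a : Fin n → K[X] := fun i => (c i).num * ∏ j ∈ Finset.univ.erase i, (c j).denom with ha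
  have hac : ∀ i, algebraMap K[X] (RatFunc K) (a i) = algebraMap K[X] (RatFunc K) q * c i := by
    intro i
    have hD : algebraMap K[X] (RatFunc K) (c i).denom ≠ 0 := by
      simpa using (c i).denom_ne_zero
    have h1 : algebraMap K[X] (RatFunc K) (c i).num
        = c i * algebraMap K[X] (RatFunc K) (c i).denom :=
      (div_eq_iff hD).mp (RatFunc.num_div_denom (c i))
    have h2 : q = (c i).denom * ∏ j ∈ Finset.univ.erase i, (c j).denom :=
      (Finset.mul_prod_erase Finset.univ (fun j => (c j).denom) (Finset.mem_univ i)).symm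
    rw [ha]
    simp only
    rw [map_mul, h1, h2, map_mul]
    ring
  have hsum : (algebraMap K[X] (RatFunc K) q) • ∑ i, c i • b i = ∑ i, a i • b i := by
    rw [Finset.smul_sum]
    refine Finset.sum_congr rfl fun i _ => ?_
    rw [polySMul_eq, hac, mul_smul]
  have h1 : vdeg (∑ i, a i • b i) = Finset.univ.sup fun i => pdeg (a i) + vdeg (b i) :=
    le_antisymm (vdeg_sum_polySMul_le b a) (hb a)
  have h2 : (Finset.univ.sup fun i => pdeg (a i) + vdeg (b i))
      = pdeg q + Finset.univ.sup fun i => rdeg (c i) + vdeg (b i) := by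
    rw [withBot_add_sup _ _ _ hne]
    congr 1
    funext i
    rw [pdeg, hac, rdeg_mul, add_assoc]
  have h3 : vdeg ((algebraMap K[X] (RatFunc K) q) • ∑ i, c i • b i)
      = pdeg q + vdeg (∑ i, c i • b i) := vdeg_smul _ _
  rw [hsum, h1, h2] at h3
  have hq' : pdeg q ≠ ⊥ := by
    rw [pdeg_eq_natDegree hq]
    exact WithBot.coe_ne_bot
  exact le_antisymm (WithBot.le_of_add_le_add_left hq' h3.ge)
    (WithBot.le_of_add_le_add_left hq' h3.le)

theorem withBot_add_coe_le_zero_iff (x : WithBot ℤ) (z : ℤ) :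
    x + (z : WithBot ℤ) ≤ 0 ↔ x ≤ ((-z : ℤ) : WithBot ℤ) := by
  induction x using WithBot.recBotCoe with
  | bot => simp
  | coe y =>
    rw [← WithBot.coe_add, ← WithBot.coe_zero, WithBot.coe_le_coe, WithBot.coe_le_coe]
    omega

/-- **Dedekind–Weber in coordinates.** -/
theorem dw_coord (Λ : Submodule K[X] (Fin n → RatFunc K)) [Λ.IsLattice (RatFunc K)] :
    ∃ (b : Module.Basis (Fin n) (RatFunc K) (Fin n → RatFunc K)) (d : Fin n → ℤ),
      (∀ v, v ∈ Λ ↔ ∀ i, b.repr v i ∈ polyK K) ∧
      (∀ v : Fin n → RatFunc K, (∀ j, v j ∈ Rinf K) ↔ ∀ i, b.repr v i ∈ degLE K (d i)) := by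
  obtain ⟨b0, hspan, hred⟩ := exists_reduced_spanning Λ
  have hli := linearIndependent_of_span_eq hspan
  have htop : ⊤ ≤ Submodule.span (RatFunc K) (Set.range b0) := by
    rw [← Submodule.span_span_of_tower K[X] (RatFunc K), hspan,
      Submodule.IsLattice.span_eq_top]
  let b : Module.Basis (Fin n) (RatFunc K) (Fin n → RatFunc K) := Module.Basis.mk hli htop
  have hb : ∀ i, b i = b0 i := fun i => by simp [b]
  have hb0 : ∀ i, b0 i ≠ 0 := fun i => hli.ne_zero i
  refine ⟨b, fun i => -vdegZ (b0 i), ?_, ?_⟩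
  · intro v
    constructor
    · intro hv
      rw [← hspan] at hv
      obtain ⟨p, hp⟩ := (Submodule.mem_span_range_iff_exists_fun K[X]).mp hv
      intro i
      have : v = ∑ j, (algebraMap K[X] (RatFunc K) (p j)) • b j := by
        rw [← hp]
        refine Finset.sum_congr rfl fun j _ => ?_
        rw [hb, polySMul_eq]
      rw [this, b.repr_sum_self]
      exact ⟨p i, rfl⟩
    · intro hv
      choose p hp using hv
      rw [← hspan, ← b.sum_repr v]
      refine Submodule.sum_mem _ fun i _ => ?_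
      rw [← hp i, hb, polyMap_apply]
      have : (algebraMap K[X] (RatFunc K) (p i)) • b0 i = p i • b0 i := (polySMul_eq _ _).symm
      rw [this]
      exact Submodule.smul_mem _ _ (Submodule.subset_span ⟨i, rfl⟩)
  · intro v
    have h1 : (∀ j, v j ∈ Rinf K) ↔ vdeg v ≤ 0 := by
      rw [vdeg_le_iff]
      exact forall_congr' fun j => mem_Rinf_iff_rdeg
    have h2 : vdeg v = Finset.univ.sup fun i => rdeg (b.repr v i) + vdeg (b0 i) := by
      conv_lhs => rw [← b.sum_repr v]
      rw [← hred.vdeg_sum_eq]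
      congr 1
      refine Finset.sum_congr rfl fun i _ => ?_
      rw [hb]
    rw [h1, h2, Finset.sup_le_iff]
    refine forall_congr' fun i => ?_
    rw [vdeg_eq_coe_vdegZ (hb0 i), mem_degLE]
    simp only [Finset.mem_univ, true_imp_iff]
    exact withBot_add_coe_le_zero_iff _ _

end Fermat.Agent.S20
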