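import Mathlib
import Fermat.Agent.S20.ReducedBasis

set_option autoImplicit false

noncomputable section

namespace Fermat.Agent.S20

open Polynomial Module
open scoped Classical

variable {K : Type*} [Field K] {V : Type*} [AddCommGroup V] [Module (RatFunc K) V]
  [Module K[X] V] [IsScalarTower K[X] (RatFunc K) V]

/-- A basis `b` of `V` and integers `d i` put the pair `(Λ, Λ')` in Dedekind–Weber normal form. -/
def IsDWBasis {ι : Type*} (Λ : Submodule K[X] V) (Λ' : Submodule (Rinf K) V)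
    (b : Basis ι (RatFunc K) V) (d : ι → ℤ) : Prop :=
  (∀ v, v ∈ Λ ↔ ∀ i, b.repr v i ∈ polyK K) ∧ (∀ v, v ∈ Λ' ↔ ∀ i, b.repr v i ∈ degLE K (d i))

theorem Rinf_smul_def (r : Rinf K) (v : V) : r • v = (r : RatFunc K) • v := rfl

theorem exists_isDWBasis [Module.Finite (RatFunc K) V] (Λ : Submodule K[X] V)
    [Λ.IsLattice (RatFunc K)] (Λ' : Submodule (Rinf K) V) [Λ'.IsLattice (RatFunc K)] :
    ∃ (b : Basis (Fin (finrank (RatFunc K) V)) (RatFunc K) V)
      (d : Fin (finrank (RatFunc K) V) → ℤ), IsDWBasis Λ Λ' b d := by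
  set n := finrank (RatFunc K) V with hn
  have hfr : finrank (Rinf K) Λ' = n := by
    have := Submodule.IsLattice.rank' (RatFunc K) Λ'
    exact Module.finrank_eq_of_rank_eq (by rw [this, hn, Module.finrank_eq_rank])
  let β' : Basis (Fin n) (Rinf K) Λ' := Module.finBasisOfFinrankEq (Rinf K) Λ' hfr
  let β : Basis (Fin n) (RatFunc K) V := β'.extendOfIsLattice (RatFunc K)
  have hβ : ∀ i, β i = (β' i : V) := fun i => Basis.extendOfIsLattice_apply (RatFunc K) β' i
  let e : V ≃ₗ[RatFunc K] (Fin n → RatFunc K) := β.equivFun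
  have hΛ' : ∀ v, v ∈ Λ' ↔ ∀ j, e v j ∈ Rinf K := by
    intro v
    constructor
    · intro hv
      have h1 : v = ∑ j, ((β'.repr ⟨v, hv⟩ j : Rinf K) : RatFunc K) • β j := by
        have := β'.sum_repr ⟨v, hv⟩
        have h2 : v = ((∑ i, β'.repr ⟨v, hv⟩ i • β' i : Λ') : V) := by rw [this]
        conv_lhs => rw [h2]
        rw [Submodule.coe_sum]
        refine Finset.sum_congr rfl fun j _ => ?_
        rw [hβ]
        rfl
      intro j
      have h3 : e v = fun j => ((β'.repr ⟨v, hv⟩ j : Rinf K) : RatFunc K) := by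
        conv_lhs => rw [h1]
        exact β.repr_sum_self _
      rw [h3]
      exact (β'.repr ⟨v, hv⟩ j).2
    · intro hv
      have h1 : v = ∑ j, (e v j) • β j := (β.sum_equivFun v).symm
      rw [h1]
      refine Submodule.sum_mem _ fun j _ => ?_
      have : (e v j) • β j = (⟨e v j, hv j⟩ : Rinf K) • (β' j : V) := by
        rw [hβ]; rfl
      rw [this]
      exact Submodule.smul_mem _ _ (β' j).2
  let eR : V →ₗ[K[X]] (Fin n → RatFunc K) := (e.restrictScalars K[X] : V ≃ₗ[K[X]] _).toLinearMap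
  have heR : ∀ v, eR v = e v := fun _ => rfl
  let ΛW : Submodule K[X] (Fin n → RatFunc K) := Λ.map eR
  have hΛW : ΛW.IsLattice (RatFunc K) := by
    refine ⟨Submodule.FG.map _ (Submodule.IsLattice.fg (A := RatFunc K)), ?_⟩
    have h1 : ((Λ.map eR : Submodule K[X] (Fin n → RatFunc K)) : Set (Fin n → RatFunc K))
        = e.toLinearMap '' (Λ : Set V) := by
      ext w
      simp [heR]
    rw [h1, Submodule.span_image, Submodule.IsLattice.span_eq_top, Submodule.map_top,
      LinearMap.range_eq_top]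
    exact e.surjective
  obtain ⟨bW, d, h1, h2⟩ := dw_coord ΛW
  refine ⟨bW.map e.symm, d, ?_, ?_⟩
  · intro v
    have hr : ∀ i, (bW.map e.symm).repr v i = bW.repr (e v) i := by
      intro i
      rw [Basis.map_repr]
      simp
    simp only [hr]
    rw [← h1 (e v)]
    constructor
    · intro hv
      exact ⟨v, hv, rfl⟩
    · rintro ⟨v', hv', hvv'⟩
      have : v' = v := e.injective hvv'
      exact this ▸ hv'
  · intro v
    have hr : ∀ i, (bW.map e.symm).repr v i = bW.repr (e v) i := by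
      intro i
      rw [Basis.map_repr]
      simp
    simp only [hr]
    rw [← h2 (e v)]
    exact hΛ' v

/-! ### The `K`-subspaces underlying the two kinds of lattices -/

section KSub

variable [Module K V] [IsScalarTower K (RatFunc K) V]

omit [Module K[X] V] [IsScalarTower K[X] (RatFunc K) V] in
theorem K_smul_eq_C_smul (c : K) (v : V) : c • v = (RatFunc.C c : RatFunc K) • v := by
  rw [← algebraMap_smul (RatFunc K) c v]
  rfl

/-- The `K`-subspace underlying a `K[X]`-submodule. -/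
def kSub (Λ : Submodule K[X] V) : Submodule K V where
  carrier := Λ
  add_mem' := Λ.add_mem
  zero_mem' := Λ.zero_mem
  smul_mem' c v hv := by
    have : c • v = (Polynomial.C c : K[X]) • v := by
      rw [K_smul_eq_C_smul, ← algebraMap_smul (RatFunc K) (Polynomial.C c : K[X]) v]
      simp
    rw [this]
    exact Λ.smul_mem _ hv

omit [Module K[X] V] [IsScalarTower K[X] (RatFunc K) V] in
/-- The `K`-subspace underlying an `R∞`-submodule. -/
def kSubInf (Λ' : Submodule (Rinf K) V) : Submodule K V where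
  carrier := Λ'
  add_mem' := Λ'.add_mem
  zero_mem' := Λ'.zero_mem
  smul_mem' c v hv := by
    have hc : (RatFunc.C c : RatFunc K) ∈ Rinf K := mem_Rinf_iff_rdeg.mpr (rdeg_C_le c)
    have : c • v = (⟨RatFunc.C c, hc⟩ : Rinf K) • v := by
      rw [K_smul_eq_C_smul]
      rfl
    rw [this]
    exact Λ'.smul_mem _ hv

@[simp] theorem mem_kSub {Λ : Submodule K[X] V} {v : V} : v ∈ kSub Λ ↔ v ∈ Λ := Iff.rfl

omit [Module K[X] V] [IsScalarTower K[X] (RatFunc K) V] in
@[simp] theorem mem_kSubInf {Λ' : Submodule (Rinf K) V} {v : V} : v ∈ kSubInf Λ' ↔ v ∈ Λ' :=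
  Iff.rfl

theorem kSub_mono {Λ₁ Λ₂ : Submodule K[X] V} (h : Λ₁ ≤ Λ₂) : kSub Λ₁ ≤ kSub Λ₂ := h

omit [Module K[X] V] [IsScalarTower K[X] (RatFunc K) V] in
theorem kSubInf_mono {Λ₁ Λ₂ : Submodule (Rinf K) V} (h : Λ₁ ≤ Λ₂) :
    kSubInf Λ₁ ≤ kSubInf Λ₂ := h

end KSub

/-! ### Coordinates -/

section Coord

variable [Module K V] [IsScalarTower K (RatFunc K) V] {ι : Type*} [Fintype ι]

omit [Module K[X] V] [IsScalarTower K[X] (RatFunc K) V] in
/-- Coordinates with respect to a `K(X)`-basis, as a `K`-linear equivalence. -/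
def coordK (b : Basis ι (RatFunc K) V) : V ≃ₗ[K] (ι → RatFunc K) :=
  b.equivFun.restrictScalars K

omit [Module K[X] V] [IsScalarTower K[X] (RatFunc K) V] in
@[simp] theorem coordK_apply (b : Basis ι (RatFunc K) V) (v : V) (i : ι) :
    coordK b v i = b.repr v i := rfl

omit [Fintype ι] in
theorem pi_univ_inf (p q : ι → Submodule K (RatFunc K)) :
    Submodule.pi Set.univ p ⊓ Submodule.pi Set.univ q = Submodule.pi Set.univ fun i => p i ⊓ q i := by
  ext v
  simp only [Submodule.mem_inf, Submodule.mem_pi, Set.mem_univ, true_implies]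
  exact ⟨fun h i => ⟨h.1 i, h.2 i⟩, fun h => ⟨fun i => (h i).1, fun i => (h i).2⟩⟩

omit [Fintype ι] in
theorem pi_univ_sup (p q : ι → Submodule K (RatFunc K)) :
    Submodule.pi Set.univ p ⊔ Submodule.pi Set.univ q = Submodule.pi Set.univ fun i => p i ⊔ q i := by
  apply le_antisymm
  · exact sup_le (Submodule.pi_mono fun i _ => le_sup_left) (Submodule.pi_mono fun i _ => le_sup_right)
  · intro v hv
    have hv' : ∀ i, ∃ a ∈ p i, ∃ c ∈ q i, a + c = v i := fun i =>
      Submodule.mem_sup.mp (hv i (Set.mem_univ i))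
    choose a ha c hc hac using hv'
    refine Submodule.mem_sup.mpr ⟨a, fun i _ => ha i, c, fun i _ => hc i, ?_⟩
    funext i
    exact hac i

omit [Fintype ι] in
/-- The full product of submodules, as a product of modules. -/
def piSubEquiv (p : ι → Submodule K (RatFunc K)) :
    ↥(Submodule.pi Set.univ p) ≃ₗ[K] (∀ i, ↥(p i)) where
  toFun v i := ⟨v.1 i, v.2 i (Set.mem_univ i)⟩
  invFun w := ⟨fun i => (w i : RatFunc K), fun i _ => (w i).2⟩
  map_add' _ _ := rfl
  map_smul' _ _ := rfl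
  left_inv _ := rfl
  right_inv _ := rfl

variable {Λ : Submodule K[X] V} {Λ' : Submodule (Rinf K) V} {b : Basis ι (RatFunc K) V}
  {d : ι → ℤ}

theorem IsDWBasis.kSub_eq (h : IsDWBasis Λ Λ' b d) :
    kSub Λ = (Submodule.pi Set.univ fun _ : ι => polyK K).comap (coordK b).toLinearMap := by
  ext v
  simp only [mem_kSub, Submodule.mem_comap, Submodule.mem_pi, Set.mem_univ, true_implies]
  exact h.1 v

theorem IsDWBasis.kSubInf_eq (h : IsDWBasis Λ Λ' b d) :
    kSubInf Λ' = (Submodule.pi Set.univ fun i : ι => degLE K (d i)).comap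
      (coordK b).toLinearMap := by
  ext v
  simp only [mem_kSubInf, Submodule.mem_comap, Submodule.mem_pi, Set.mem_univ, true_implies]
  exact h.2 v

theorem IsDWBasis.inf_eq (h : IsDWBasis Λ Λ' b d) :
    kSub Λ ⊓ kSubInf Λ' = (Submodule.pi Set.univ fun i : ι => polyK K ⊓ degLE K (d i)).comap
      (coordK b).toLinearMap := by
  rw [h.kSub_eq, h.kSubInf_eq, ← Submodule.comap_inf, pi_univ_inf]

theorem IsDWBasis.sup_eq (h : IsDWBasis Λ Λ' b d) :
    kSub Λ ⊔ kSubInf Λ' = (Submodule.pi Set.univ fun i : ι => polyK K ⊔ degLE K (d i)).comap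
      (coordK b).toLinearMap := by
  rw [h.kSub_eq, h.kSubInf_eq, Submodule.comap_equiv_eq_map_symm, Submodule.comap_equiv_eq_map_symm,
    Submodule.comap_equiv_eq_map_symm, ← Submodule.map_sup, pi_univ_sup]

/-- `h⁰` of a lattice pair: the `K`-dimension of `Λ ∩ Λ'`. -/
def latH0 (Λ : Submodule K[X] V) (Λ' : Submodule (Rinf K) V) : ℕ :=
  finrank K ↥(kSub Λ ⊓ kSubInf Λ')

/-- `h¹` of a lattice pair: the `K`-dimension of `V / (Λ + Λ')`. -/
def latH1 (Λ : Submodule K[X] V) (Λ' : Submodule (Rinf K) V) : ℕ :=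
  finrank K (V ⧸ (kSub Λ ⊔ kSubInf Λ'))

/-- `Λ ∩ Λ'` in coordinates. -/
def IsDWBasis.infEquiv (h : IsDWBasis Λ Λ' b d) :
    ↥(kSub Λ ⊓ kSubInf Λ') ≃ₗ[K] (∀ i, ↥(polyK K ⊓ degLE K (d i))) :=
  (LinearEquiv.ofEq _ _ h.inf_eq).trans
    ((LinearEquiv.ofSubmodule' (coordK b) _).trans (piSubEquiv _))

/-- `V / (Λ + Λ')` in coordinates. -/
def IsDWBasis.quotEquiv (h : IsDWBasis Λ Λ' b d) :
    (V ⧸ (kSub Λ ⊔ kSubInf Λ')) ≃ₗ[K] (∀ i, RatFunc K ⧸ (polyK K ⊔ degLE K (d i))) :=
  (Submodule.Quotient.equiv _ (Submodule.pi Set.univ fun i : ι => polyK K ⊔ degLE K (d i))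
    (coordK b) (by
      rw [h.sup_eq]
      exact Submodule.map_comap_eq_of_surjective (coordK b).surjective _)).trans
    (Submodule.quotientPi _)

theorem IsDWBasis.finite_inf (h : IsDWBasis Λ Λ' b d) :
    Module.Finite K ↥(kSub Λ ⊓ kSubInf Λ') :=
  Module.Finite.equiv h.infEquiv.symm

theorem IsDWBasis.finite_quot (h : IsDWBasis Λ Λ' b d) :
    Module.Finite K (V ⧸ (kSub Λ ⊔ kSubInf Λ')) :=
  Module.Finite.equiv h.quotEquiv.symm

theorem IsDWBasis.latH0_eq (h : IsDWBasis Λ Λ' b d) :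
    latH0 Λ Λ' = ∑ i, (d i + 1).toNat := by
  rw [latH0, h.infEquiv.finrank_eq, Module.finrank_pi_fintype]
  exact Finset.sum_congr rfl fun i _ => finrank_polyK_inf_degLE (d i)

theorem IsDWBasis.latH1_eq (h : IsDWBasis Λ Λ' b d) :
    latH1 Λ Λ' = ∑ i, (-d i - 1).toNat := by
  rw [latH1, h.quotEquiv.finrank_eq, Module.finrank_pi_fintype]
  exact Finset.sum_congr rfl fun i _ => finrank_quotient_polyK_sup_degLE (d i)

end Coord

/-! ### Twisting the lattice at infinity by a power of `X` -/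

section Twist

omit [Module K[X] V] [IsScalarTower K[X] (RatFunc K) V] in
/-- `X ^ e • Λ'`. -/
def twist (e : ℤ) (Λ' : Submodule (Rinf K) V) : Submodule (Rinf K) V :=
  Λ'.map ((LinearMap.lsmul (RatFunc K) V ((RatFunc.X : RatFunc K) ^ e)).restrictScalars (Rinf K))

omit [Module K[X] V] [IsScalarTower K[X] (RatFunc K) V] in
theorem mem_twist {e : ℤ} {Λ' : Submodule (Rinf K) V} {v : V} :
    v ∈ twist e Λ' ↔ (RatFunc.X : RatFunc K) ^ (-e) • v ∈ Λ' := by
  have hX : (RatFunc.X : RatFunc K) ≠ 0 := RatFunc.X_ne_zero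
  constructor
  · rintro ⟨w, hw, rfl⟩
    have : (RatFunc.X : RatFunc K) ^ (-e) • ((RatFunc.X : RatFunc K) ^ e • w) = w := by
      rw [smul_smul, ← zpow_add₀ hX]
      simp
    simp only [LinearMap.coe_restrictScalars, LinearMap.lsmul_apply]
    rw [this]
    exact hw
  · intro hv
    refine ⟨_, hv, ?_⟩
    simp only [LinearMap.coe_restrictScalars, LinearMap.lsmul_apply]
    rw [smul_smul, ← zpow_add₀ hX]
    simp

theorem mem_degLE_add_iff {d e : ℤ} {f : RatFunc K} :
    f ∈ degLE K (d + e) ↔ (RatFunc.X : RatFunc K) ^ (-e) * f ∈ degLE K d := by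
  have hX : (RatFunc.X : RatFunc K) ≠ 0 := RatFunc.X_ne_zero
  constructor
  · intro hf
    have := X_zpow_mul_mem_degLE (d := -e) hf
    have h2 : -e + (d + e) = d := by ring
    rwa [h2] at this
  · intro hf
    have := X_zpow_mul_mem_degLE (d := e) hf
    rw [← mul_assoc, ← zpow_add₀ hX] at this
    have h2 : e + d = d + e := by ring
    simpa [h2] using this

theorem IsDWBasis.twist {ι : Type*} {Λ : Submodule K[X] V} {Λ' : Submodule (Rinf K) V}
    {b : Basis ι (RatFunc K) V} {d : ι → ℤ} (h : IsDWBasis Λ Λ' b d) (e : ℤ) :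
    IsDWBasis Λ (Fermat.Agent.S20.twist e Λ') b (fun i => d i + e) := by
  refine ⟨h.1, fun v => ?_⟩
  rw [mem_twist, h.2]
  refine forall_congr' fun i => ?_
  rw [map_smul, Finsupp.smul_apply, smul_eq_mul]
  exact mem_degLE_add_iff.symm

end Twist

/-! ### Duality -/

section Dual

open LinearMap (BilinForm)

theorem mem_one_polyK {f : RatFunc K} : f ∈ (1 : Submodule K[X] (RatFunc K)) ↔ f ∈ polyK K := by
  rw [Submodule.mem_one, mem_polyK]

theorem mem_one_Rinf {f : RatFunc K} : f ∈ (1 : Submodule (Rinf K) (RatFunc K)) ↔ f ∈ Rinf K := by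
  rw [Submodule.mem_one]
  constructor
  · rintro ⟨y, rfl⟩
    exact y.2
  · intro hf
    exact ⟨⟨f, hf⟩, rfl⟩

theorem polyK_mul_mem {f g : RatFunc K} (hf : f ∈ polyK K) (hg : g ∈ polyK K) :
    f * g ∈ polyK K := by
  obtain ⟨p, rfl⟩ := mem_polyK.mp hf
  obtain ⟨q, rfl⟩ := mem_polyK.mp hg
  exact mem_polyK.mpr ⟨p * q, by simp⟩

theorem degLE_mul_mem {d e : ℤ} {f g : RatFunc K} (hf : f ∈ degLE K d) (hg : g ∈ degLE K e) :
    f * g ∈ degLE K (d + e) := by
  rw [mem_degLE, rdeg_mul, WithBot.coe_add]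
  exact add_le_add hf hg

theorem mem_Rinf_iff_degLE {f : RatFunc K} : f ∈ Rinf K ↔ f ∈ degLE K 0 := by
  rw [mem_Rinf_iff_rdeg, mem_degLE]
  rfl

theorem IsDWBasis.dual {ι : Type*} [Fintype ι] [DecidableEq ι] {Λ : Submodule K[X] V}
    {Λ' : Submodule (Rinf K) V} {b : Basis ι (RatFunc K) V} {d : ι → ℤ}
    (h : IsDWBasis Λ Λ' b d) (B : BilinForm (RatFunc K) V) (hB : B.Nondegenerate) :
    IsDWBasis (B.dualSubmodule Λ) (B.dualSubmodule Λ') (B.dualBasis hB b) (fun i => - d i) := by
  have hX : (RatFunc.X : RatFunc K) ≠ 0 := RatFunc.X_ne_zero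
  have hexp : ∀ v y : V, B v y = ∑ j, b.repr y j * B v (b j) := by
    intro v y
    conv_lhs => rw [← b.sum_repr y]
    rw [map_sum]
    refine Finset.sum_congr rfl fun j _ => ?_
    rw [map_smul, smul_eq_mul]
  constructor
  · intro v
    simp only [BilinForm.dualBasis_repr_apply]
    rw [BilinForm.mem_dualSubmodule]
    constructor
    · intro hv i
      have hbi : b i ∈ Λ := by
        rw [h.1]
        intro j
        rw [b.repr_self, Finsupp.single_apply]
        split_ifs
        · exact mem_polyK.mpr ⟨1, by simp⟩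
        · exact Submodule.zero_mem _
      exact mem_one_polyK.mp (hv _ hbi)
    · intro hv y hy
      rw [mem_one_polyK, hexp]
      exact Submodule.sum_mem _ fun j _ => polyK_mul_mem ((h.1 y).mp hy j) (hv j)
  · intro v
    simp only [BilinForm.dualBasis_repr_apply]
    rw [BilinForm.mem_dualSubmodule]
    constructor
    · intro hv i
      have hbi : ((RatFunc.X : RatFunc K) ^ (d i)) • b i ∈ Λ' := by
        rw [h.2]
        intro j
        rw [map_smul, Finsupp.smul_apply, b.repr_self, Finsupp.single_apply, smul_eq_mul]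
        split_ifs with hij
        · subst hij
          have := X_zpow_mul_mem_degLE (K := K) (d := d i) (e := 0) (f := 1)
            (mem_degLE.mpr (by simpa using rdeg_C_le (1 : K)))
          simpa using this
        · rw [mul_zero]
          exact Submodule.zero_mem _
      have h1 := mem_Rinf_iff_degLE.mp (mem_one_Rinf.mp (hv _ hbi))
      rw [map_smul, smul_eq_mul] at h1
      have h2 := X_zpow_mul_mem_degLE (d := - d i) h1
      rw [← mul_assoc, ← zpow_add₀ hX] at h2
      simpa using h2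
    · intro hv y hy
      rw [mem_one_Rinf, mem_Rinf_iff_degLE, hexp]
      refine Submodule.sum_mem _ fun j _ => ?_
      have := degLE_mul_mem ((h.2 y).mp hy j) (hv j)
      simpa using this

end Dual

end Fermat.Agent.S20
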