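import Mathlib
import Fermat.Agent.S20.LatticePair
import Fermat.Agent.S20.IndexLemma

set_option autoImplicit false

noncomputable section

namespace Fermat.Agent.S20

open Polynomial Module
open LinearMap (BilinForm)
open scoped Classical

variable {K : Type*} [Field K] {V : Type*} [AddCommGroup V] [Module (RatFunc K) V]
  [Module K[X] V] [IsScalarTower K[X] (RatFunc K) V] [Module K V] [IsScalarTower K (RatFunc K) V]

theorem sum_toNat_sub_sum_toNat {ι : Type*} [Fintype ι] (a : ι → ℤ) :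
    ((∑ i, (a i).toNat : ℕ) : ℤ) - ((∑ i, (- a i).toNat : ℕ) : ℤ) = ∑ i, a i := by
  push_cast
  rw [← Finset.sum_sub_distrib]
  refine Finset.sum_congr rfl fun i _ => ?_
  omega

/-- The index lemma with the roles of the two arguments exchanged. -/
theorem finrank_quotient_add_eq' {L M₁ M₂ : Submodule K V} (h : M₁ ≤ M₂)
    [Module.Finite K ↥(L ⊓ M₂)] [Module.Finite K (V ⧸ (L ⊔ M₁))] :
    finrank K (↥M₂ ⧸ M₁.submoduleOf M₂) + finrank K ↥(L ⊓ M₁) + finrank K (V ⧸ (L ⊔ M₂)) =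
      finrank K ↥(L ⊓ M₂) + finrank K (V ⧸ (L ⊔ M₁)) := by
  have h1 : Module.Finite K ↥(M₂ ⊓ L) := by rw [inf_comm]; infer_instance
  have h2 : Module.Finite K (V ⧸ (M₁ ⊔ L)) := by rw [sup_comm]; infer_instance
  have := finrank_quotient_add_eq L h
  rw [inf_comm M₁ L, inf_comm M₂ L, sup_comm M₁ L, sup_comm M₂ L] at this
  exact this

section DW

variable {ι : Type*} [Fintype ι] {Λ : Submodule K[X] V} {Λ' : Submodule (Rinf K) V}
  {b : Basis ι (RatFunc K) V} {d : ι → ℤ}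

/-- Riemann–Roch for a pair in Dedekind–Weber normal form. -/
theorem IsDWBasis.chi_eq (h : IsDWBasis Λ Λ' b d) :
    (latH0 Λ Λ' : ℤ) - latH1 Λ Λ' = ∑ i, (d i + 1) := by
  rw [h.latH0_eq, h.latH1_eq, ← sum_toNat_sub_sum_toNat]
  congr 3
  funext i
  congr 1
  ring

/-- Serre duality for a pair in Dedekind–Weber normal form. -/
theorem IsDWBasis.latH1_eq_latH0_dual [DecidableEq ι] (h : IsDWBasis Λ Λ' b d)
    (B : BilinForm (RatFunc K) V) (hB : B.Nondegenerate) :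
    latH1 Λ Λ' = latH0 (B.dualSubmodule Λ)
      (Fermat.Agent.S20.twist (-2) (B.dualSubmodule Λ')) := by
  rw [h.latH1_eq, ((h.dual B hB).twist (-2)).latH0_eq]
  refine Finset.sum_congr rfl fun i _ => ?_
  congr 1
  ring

theorem IsDWBasis.chi_dual_eq [DecidableEq ι] (h : IsDWBasis Λ Λ' b d)
    (B : BilinForm (RatFunc K) V) (hB : B.Nondegenerate) :
    (latH0 (B.dualSubmodule Λ) (B.dualSubmodule Λ') : ℤ)
      - latH1 (B.dualSubmodule Λ) (B.dualSubmodule Λ') = ∑ i, (- d i + 1) :=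
  (h.dual B hB).chi_eq

end DW

section Lattice

variable [Module.Finite (RatFunc K) V]

/-- `Λ ∩ Λ'` is finite-dimensional over `K`. -/
theorem finite_latInf (Λ : Submodule K[X] V) [Λ.IsLattice (RatFunc K)]
    (Λ' : Submodule (Rinf K) V) [Λ'.IsLattice (RatFunc K)] :
    Module.Finite K ↥(kSub Λ ⊓ kSubInf Λ') := by
  obtain ⟨b, d, h⟩ := exists_isDWBasis Λ Λ'
  exact h.finite_inf

/-- `V / (Λ + Λ')` is finite-dimensional over `K`. -/
theorem finite_latQuot (Λ : Submodule K[X] V) [Λ.IsLattice (RatFunc K)]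
    (Λ' : Submodule (Rinf K) V) [Λ'.IsLattice (RatFunc K)] :
    Module.Finite K (V ⧸ (kSub Λ ⊔ kSubInf Λ')) := by
  obtain ⟨b, d, h⟩ := exists_isDWBasis Λ Λ'
  exact h.finite_quot

/-- **Serre duality** for lattice pairs: `h¹(Λ, Λ') = h⁰(Λ^#, X⁻² Λ'^#)`. -/
theorem latH1_eq_latH0_dual (Λ : Submodule K[X] V) [Λ.IsLattice (RatFunc K)]
    (Λ' : Submodule (Rinf K) V) [Λ'.IsLattice (RatFunc K)]
    (B : BilinForm (RatFunc K) V) (hB : B.Nondegenerate) :
    latH1 Λ Λ' = latH0 (B.dualSubmodule Λ) (twist (-2) (B.dualSubmodule Λ')) := by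
  obtain ⟨b, d, h⟩ := exists_isDWBasis Λ Λ'
  exact h.latH1_eq_latH0_dual B hB

/-- `χ(Λ, Λ') + χ(Λ^#, Λ'^#) = 2 n`. -/
theorem chi_add_chi_dual (Λ : Submodule K[X] V) [Λ.IsLattice (RatFunc K)]
    (Λ' : Submodule (Rinf K) V) [Λ'.IsLattice (RatFunc K)]
    (B : BilinForm (RatFunc K) V) (hB : B.Nondegenerate) :
    ((latH0 Λ Λ' : ℤ) - latH1 Λ Λ') + ((latH0 (B.dualSubmodule Λ) (B.dualSubmodule Λ') : ℤ)
      - latH1 (B.dualSubmodule Λ) (B.dualSubmodule Λ')) = 2 * finrank (RatFunc K) V := by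
  obtain ⟨b, d, h⟩ := exists_isDWBasis Λ Λ'
  rw [h.chi_eq, h.chi_dual_eq B hB, ← Finset.sum_add_distrib]
  have : ∀ i, (d i + 1) + (- d i + 1) = 2 := fun i => by ring
  simp only [this, Finset.sum_const, Finset.card_univ, Fintype.card_fin, smul_eq_mul]
  ring

/-- **FIN**: for a lattice pair with `Λ ≤ Λ^#`, `Λ' ≤ Λ'^#`:
`2 h¹(Λ, Λ') = 2 h⁰(Λ, Λ') - 2 n + dim Λ^#/Λ + dim Λ'^#/Λ'`. -/
theorem two_mul_latH1 (Λ : Submodule K[X] V) [Λ.IsLattice (RatFunc K)]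
    (Λ' : Submodule (Rinf K) V) [Λ'.IsLattice (RatFunc K)]
    (B : BilinForm (RatFunc K) V) (hB : B.Nondegenerate)
    (hΛ : Λ ≤ B.dualSubmodule Λ) (hΛ' : Λ' ≤ B.dualSubmodule Λ') :
    (2 * latH1 Λ Λ' : ℤ) = 2 * latH0 Λ Λ' - 2 * finrank (RatFunc K) V
      + finrank K (↥(kSub (B.dualSubmodule Λ)) ⧸
          (kSub Λ).submoduleOf (kSub (B.dualSubmodule Λ)))
      + finrank K (↥(kSubInf (B.dualSubmodule Λ')) ⧸
          (kSubInf Λ').submoduleOf (kSubInf (B.dualSubmodule Λ'))) := by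
  obtain ⟨b, d, h⟩ := exists_isDWBasis Λ Λ'
  have hdual := h.dual B hB
  -- finiteness
  have f1 : Module.Finite K ↥(kSub (B.dualSubmodule Λ) ⊓ kSubInf (B.dualSubmodule Λ')) :=
    hdual.finite_inf
  have f2 : Module.Finite K (V ⧸ (kSub Λ ⊔ kSubInf Λ')) := h.finite_quot
  have f3 : Module.Finite K (V ⧸ (kSub Λ ⊔ kSubInf (B.dualSubmodule Λ'))) :=
    Module.Finite.of_surjective
      (Submodule.factor (sup_le_sup_left (kSubInf_mono hΛ') (kSub Λ)))
      (Submodule.factor_surjective _)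
  have f4 : Module.Finite K ↥(kSub Λ ⊓ kSubInf (B.dualSubmodule Λ')) :=
    Module.Finite.of_injective
      (Submodule.inclusion (inf_le_inf_right (kSubInf (B.dualSubmodule Λ')) (kSub_mono hΛ)))
      (Submodule.inclusion_injective _)
  have e1 := finrank_quotient_add_eq (kSubInf (B.dualSubmodule Λ')) (kSub_mono hΛ)
  have e2 := finrank_quotient_add_eq' (L := kSub Λ) (kSubInf_mono hΛ')
  have e3 := chi_add_chi_dual Λ Λ' B hB
  simp only [latH0, latH1] at e3 ⊢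
  omega

/-- **FIN** in the form used for the canonical divisor: if moreover `h⁰(Λ, Λ') = 1` then
`2 h⁰(Λ^#, X⁻² Λ'^#) = 2 - 2 n + dim Λ^#/Λ + dim Λ'^#/Λ'`. -/
theorem two_mul_latH0_dual_twist (Λ : Submodule K[X] V) [Λ.IsLattice (RatFunc K)]
    (Λ' : Submodule (Rinf K) V) [Λ'.IsLattice (RatFunc K)]
    (B : BilinForm (RatFunc K) V) (hB : B.Nondegenerate)
    (hΛ : Λ ≤ B.dualSubmodule Λ) (hΛ' : Λ' ≤ B.dualSubmodule Λ')
    (h0 : latH0 Λ Λ' = 1) :
    (2 * latH0 (B.dualSubmodule Λ) (twist (-2) (B.dualSubmodule Λ')) : ℤ) =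
      2 - 2 * finrank (RatFunc K) V
      + finrank K (↥(kSub (B.dualSubmodule Λ)) ⧸
          (kSub Λ).submoduleOf (kSub (B.dualSubmodule Λ)))
      + finrank K (↥(kSubInf (B.dualSubmodule Λ')) ⧸
          (kSubInf Λ').submoduleOf (kSubInf (B.dualSubmodule Λ'))) := by
  rw [← latH1_eq_latH0_dual Λ Λ' B hB, two_mul_latH1 Λ Λ' B hB hΛ hΛ', h0]
  ring

end Lattice

end Fermat.Agent.S20
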