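import Mathlib
import Fermat.Prelude.Def_AlgebraicCurve_Repartitions

/-!
# S20 function-field layer: dictionary between places and height one primes

For a Dedekind domain `A` with fraction field `F`, containing the constant field `K`, every
height one prime `P` of `A` gives a `Place K F` (`placeOfPrime`), whose normalised valuation is
`P.valuation F`; conversely every place whose valuation ring contains `A` arises from a unique
prime.
-/

set_option autoImplicit false

namespace Fermat.Agent.S20

open IsDedekindDomain AlgebraicCurve WithZero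

variable {K F A : Type*} [Field K] [Field F] [Algebra K F] [CommRing A] [IsDedekindDomain A]
  [Algebra K A] [Algebra A F] [IsScalarTower K A F] [IsFractionRing A F]

variable (K F) in
/-- the place of `F` attached to a height one prime of a Dedekind domain `A` with `Frac A = F` -/
noncomputable def placeOfPrime (P : HeightOneSpectrum A) : Place K F where
  toValuationSubring := (P.valuation F).valuationSubring
  algebraMap_mem' a := by
    show P.valuation F (algebraMap K F a) ≤ 1
    rw [IsScalarTower.algebraMap_apply K A F]
    exact P.valuation_le_one _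
  ne_top' := by
    simp only [ne_eq, Valuation.valuationSubring_eq_top_iff, not_not]
    infer_instance
  isPrincipalIdealRing' := inferInstance

@[simp]
theorem placeOfPrime_toValuationSubring (P : HeightOneSpectrum A) :
    (placeOfPrime K F P).toValuationSubring = (P.valuation F).valuationSubring := rfl

theorem mem_placeOfPrime_iff (P : HeightOneSpectrum A) (f : F) :
    f ∈ (placeOfPrime K F P).toValuationSubring ↔ P.valuation F f ≤ 1 := Iff.rfl

/-- an element and its inverse both of valuation `≤ 1` have valuation one -/
theorem ffDict_valuation_eq_one {Γ : Type*} [LinearOrderedCommGroupWithZero Γ]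
    (v : Valuation F Γ) {x : F} (hx0 : x ≠ 0) (hx : v x ≤ 1) (hx' : v x⁻¹ ≤ 1) : v x = 1 := by
  refine le_antisymm hx ?_
  have h4 : v x * v x⁻¹ = 1 := by rw [← map_mul, mul_inv_cancel₀ hx0, map_one]
  by_contra hlt
  push Not at hlt
  have : v x * v x⁻¹ < 1 := by
    calc _ ≤ v x * 1 := mul_le_mul_right hx' _
      _ < 1 := by rwa [mul_one]
  rw [h4] at this
  exact lt_irrefl _ this

/-- an irreducible element of the valuation ring of `P` has `P`-adic valuation `exp (-1)` -/
theorem ffDict_valuation_irreducible (P : HeightOneSpectrum A)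
    {π : (placeOfPrime K F P).toValuationSubring} (hπ : Irreducible π) :
    P.valuation F (π : F) = exp (-1 : ℤ) := by
  obtain ⟨ϖ, hϖ⟩ := P.valuation_exists_uniformizer F
  have hϖ0 : ϖ ≠ 0 := by
    rintro rfl
    rw [map_zero] at hϖ
    exact exp_ne_zero hϖ.symm
  obtain ⟨u, hu⟩ := (placeOfPrime K F P).exists_unit_mul_zpow hϖ0 hπ
  have hπ0 : (π : F) ≠ 0 := by
    simpa [ne_eq, ZeroMemClass.coe_eq_zero] using hπ.ne_zero
  have hπle : P.valuation F (π : F) ≤ 1 := π.2
  have hπne1 : P.valuation F (π : F) ≠ 1 := by
    intro h1
    apply hπ.not_isUnit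
    have hinv : P.valuation F ((π : F)⁻¹) ≤ 1 := by rw [map_inv₀, h1, inv_one]
    refine ⟨⟨π, ⟨(π : F)⁻¹, hinv⟩, ?_, ?_⟩, rfl⟩
    · apply Subtype.ext
      show (π : F) * (π : F)⁻¹ = 1
      exact mul_inv_cancel₀ hπ0
    · apply Subtype.ext
      show (π : F)⁻¹ * (π : F) = 1
      exact inv_mul_cancel₀ hπ0
  have hπne0 : P.valuation F (π : F) ≠ 0 := (Valuation.ne_zero_iff _).mpr hπ0
  have hu1 : P.valuation F ((u : (placeOfPrime K F P).toValuationSubring) : F) = 1 := by
    refine ffDict_valuation_eq_one _ ?_ (u : (placeOfPrime K F P).toValuationSubring).2 ?_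
    · simp [ne_eq, ZeroMemClass.coe_eq_zero]
    · have : (((u⁻¹ : (placeOfPrime K F P).toValuationSubringˣ) :
          (placeOfPrime K F P).toValuationSubring) : F)
          = ((u : (placeOfPrime K F P).toValuationSubring) : F)⁻¹ := by
        have h3 := congrArg (fun z : (placeOfPrime K F P).toValuationSubring => (z : F)) u.mul_inv
        simp only [MulMemClass.coe_mul, OneMemClass.coe_one] at h3
        exact (eq_inv_of_mul_eq_one_right h3)
      rw [← this]
      exact ((u⁻¹ : (placeOfPrime K F P).toValuationSubringˣ) :
        (placeOfPrime K F P).toValuationSubring).2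
  have key := congrArg (P.valuation F) hu
  rw [hϖ, map_mul, hu1, one_mul, map_zpow₀] at key
  obtain ⟨m, hm⟩ : ∃ m : ℤ, P.valuation F (π : F) = exp m :=
    ⟨log (P.valuation F (π : F)), (exp_log hπne0).symm⟩
  rw [hm] at key hπle hπne1 ⊢
  have hm_neg : m < 0 := by
    have h1 : m ≤ 0 := by
      have : exp m ≤ exp (0 : ℤ) := by simpa using hπle
      exact exp_le_exp.mp this
    have h2 : m ≠ 0 := by
      rintro rfl
      exact hπne1 (by simp)
    omega
  rw [← exp_zsmul] at key
  have hk : (-1 : ℤ) = (placeOfPrime K F P).ord ϖ • m := exp_injective key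
  rw [smul_eq_mul] at hk
  have : m = -1 := by
    have h1 : m ∣ 1 := ⟨-((placeOfPrime K F P).ord ϖ), by linarith⟩
    have h2 := Int.isUnit_iff.mp (isUnit_of_dvd_one h1)
    omega
  rw [this]

/-- **(D2)** the normalised valuation of `placeOfPrime P` is the `P`-adic valuation. -/
theorem placeOfPrime_adicValuation (P : HeightOneSpectrum A) :
    (placeOfPrime K F P).adicValuation = P.valuation F := by
  ext f
  rcases eq_or_ne f 0 with rfl | hf
  · simp
  obtain ⟨π, hπ⟩ := IsDiscreteValuationRing.exists_irreducible
    (placeOfPrime K F P).toValuationSubring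
  obtain ⟨u, hu⟩ := (placeOfPrime K F P).exists_unit_mul_zpow hf hπ
  have hu1 : P.valuation F ((u : (placeOfPrime K F P).toValuationSubring) : F) = 1 := by
    refine ffDict_valuation_eq_one _ ?_ (u : (placeOfPrime K F P).toValuationSubring).2 ?_
    · simp [ne_eq, ZeroMemClass.coe_eq_zero]
    · have : (((u⁻¹ : (placeOfPrime K F P).toValuationSubringˣ) :
          (placeOfPrime K F P).toValuationSubring) : F)
          = ((u : (placeOfPrime K F P).toValuationSubring) : F)⁻¹ := by
        have h3 := congrArg (fun z : (placeOfPrime K F P).toValuationSubring => (z : F)) u.mul_inv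
        simp only [MulMemClass.coe_mul, OneMemClass.coe_one] at h3
        exact (eq_inv_of_mul_eq_one_right h3)
      rw [← this]
      exact ((u⁻¹ : (placeOfPrime K F P).toValuationSubringˣ) :
        (placeOfPrime K F P).toValuationSubring).2
  rw [(placeOfPrime K F P).adicValuation_eq_exp_neg_ord hf]
  conv_rhs => rw [hu]
  rw [map_mul, hu1, one_mul, map_zpow₀, ffDict_valuation_irreducible P hπ, ← exp_zsmul]
  simp

/-- the order of `f` at `placeOfPrime P` in terms of the `P`-adic valuation -/
theorem placeOfPrime_ord (P : HeightOneSpectrum A) (f : F) :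
    (placeOfPrime K F P).ord f = -(log (P.valuation F f)) := by
  rw [← placeOfPrime_adicValuation (K := K)]
  rfl

/-- **(D3, uniqueness)** distinct primes give distinct places. -/
theorem placeOfPrime_injective :
    Function.Injective (placeOfPrime K F : HeightOneSpectrum A → Place K F) := by
  intro P Q h
  have h1 : (P.valuation F).valuationSubring = (Q.valuation F).valuationSubring :=
    congrArg Place.toValuationSubring h
  exact HeightOneSpectrum.eq_of_valuation_isEquiv_valuation
    ((Valuation.isEquiv_iff_valuationSubring _ _).mpr h1)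

/-- **(D3, existence)** every place whose valuation ring contains `A` comes from a prime. -/
theorem exists_placeOfPrime_eq (v : Place K F)
    (hv : ∀ a : A, algebraMap A F a ∈ v.toValuationSubring) :
    ∃ P : HeightOneSpectrum A, placeOfPrime K F P = v := by
  classical
  let φ : A →+* v.toValuationSubring :=
    (algebraMap A F).codRestrict v.toValuationSubring.toSubring hv
  have hφ : ∀ a : A, ((φ a : v.toValuationSubring) : F) = algebraMap A F a := fun a => rfl
  let I : Ideal A := (IsLocalRing.maximalIdeal v.toValuationSubring).comap φ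
  have hIprime : I.IsPrime := Ideal.comap_isPrime φ _
  have hIne : I ≠ ⊥ := by
    intro hI
    apply v.ne_top'
    refine SetLike.ext fun x => ⟨fun _ => ValuationSubring.mem_top x, fun _ => ?_⟩
    obtain ⟨a, b, hb, rfl⟩ := IsFractionRing.div_surjective (A := A) x
    have hb0 : b ≠ 0 := nonZeroDivisors.ne_zero hb
    have hbI : b ∉ I := by
      rw [hI]
      simpa using hb0
    have hunit : IsUnit (φ b) := by
      by_contra hnu
      exact hbI ((IsLocalRing.mem_maximalIdeal _).mpr hnu)
    obtain ⟨w, hw⟩ := hunit
    have hinv : ((↑(w⁻¹) : v.toValuationSubring) : F) = (algebraMap A F b)⁻¹ := by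
      have h3 := congrArg (fun z : v.toValuationSubring => (z : F)) w.mul_inv
      simp only [MulMemClass.coe_mul, OneMemClass.coe_one] at h3
      rw [hw, hφ] at h3
      exact (eq_inv_of_mul_eq_one_right h3)
    rw [div_eq_mul_inv, ← hinv]
    exact v.toValuationSubring.mul_mem _ _ (hv a) (↑(w⁻¹) : v.toValuationSubring).2
  let P : HeightOneSpectrum A := ⟨I, hIprime, hIne⟩
  refine ⟨P, Place.ext ?_⟩
  show (P.valuation F).valuationSubring = v.toValuationSubring
  rw [← HeightOneSpectrum.valuationSubringAtPrime_eq_valuationSubring]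
  refine ValuationSubring.eq_of_le_of_ne_top _ ?_ v.ne_top'
  rintro x ⟨a, s, hs, rfl⟩
  have hsI : s ∉ I := hs
  have hunit : IsUnit (φ s) := by
    by_contra hnu
    exact hsI ((IsLocalRing.mem_maximalIdeal _).mpr hnu)
  obtain ⟨w, hw⟩ := hunit
  have hinv : ((↑(w⁻¹) : v.toValuationSubring) : F) = (algebraMap A F s)⁻¹ := by
    have h3 := congrArg (fun z : v.toValuationSubring => (z : F)) w.mul_inv
    simp only [MulMemClass.coe_mul, OneMemClass.coe_one] at h3
    rw [hw, hφ] at h3
    exact (eq_inv_of_mul_eq_one_right h3)
  rw [← hinv]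
  exact v.toValuationSubring.mul_mem _ _ (hv a) (↑(w⁻¹) : v.toValuationSubring).2

/-- the dictionary as an equivalence -/
noncomputable def placeEquivPrime :
    HeightOneSpectrum A ≃
      {v : Place K F // ∀ a : A, algebraMap A F a ∈ v.toValuationSubring} :=
  Equiv.ofBijective
    (fun P => ⟨placeOfPrime K F P, fun a => P.valuation_le_one a⟩)
    ⟨fun P Q h => placeOfPrime_injective (congrArg Subtype.val h),
     fun v => by
      obtain ⟨P, hP⟩ := exists_placeOfPrime_eq v.1 v.2
      exact ⟨P, Subtype.ext hP⟩⟩

@[simp]
theorem placeEquivPrime_apply (P : HeightOneSpectrum A) :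
    ((placeEquivPrime (K := K) (F := F) P : {v : Place K F // ∀ a : A,
      algebraMap A F a ∈ v.toValuationSubring}) : Place K F) = placeOfPrime K F P := rfl

end Fermat.Agent.S20
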