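import Fermat.Agent.S20.FFSide
import Fermat.Agent.S24.LocalDiffModel
import Fermat.Agent.S24.PlaceOrd

/-!
# S20, function-field layer: the finite places

`F` is a finite extension of `K(X)`, `x = ffX K F` the coordinate.  The places of `F / K` at which
`x` is regular are the primes of `B₀ = integralClosure K[X] F`; the dual lattice of `B₀` consists of
the `g` such that `g dx` is regular at all finite places, and `dim_K (B₀^# / B₀)` is the sum of
the orders of `dx` at the finite places.
-/

set_option autoImplicit false
set_option linter.unusedSectionVars false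
set_option linter.style.haveILetI false

noncomputable section

namespace Fermat.Agent.S20

open Polynomial Module IsDedekindDomain HeightOneSpectrum WithZero AlgebraicCurve
  IntermediateField KaehlerDifferential Fermat.Agent.S24

section Closed

variable {K F : Type*} [Field K] [Field F] [Algebra K F]

/-- a subring of `O_v` has its integral closure inside `O_v`. -/
theorem ffplace_integralClosure_le (v : Place K F) {A : Type*} [CommRing A] [Algebra A F]
    (hA : ∀ a : A, algebraMap A F a ∈ v.toValuationSubring) (b : integralClosure A F) :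
    (b : F) ∈ v.toValuationSubring := by
  let φ : A →+* v.toValuationSubring :=
    (algebraMap A F).codRestrict v.toValuationSubring.toSubring hA
  have h1 : IsIntegral A (b : F) := b.2
  have h2 : IsIntegral v.toValuationSubring (b : F) :=
    IsIntegral.map_of_comp_eq φ (RingHom.id F) (by ext z; rfl) h1
  obtain ⟨w, hw⟩ := IsIntegrallyClosed.isIntegral_iff.1 h2
  rw [← hw]
  exact w.2

end Closed

section PolyResidue

variable (K : Type*) [Field K] [IsAlgClosed K]

/-- the residue fields of `K[X]` are `K` when `K` is algebraically closed. -/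
theorem fffin_residue_surjective (p : Ideal K[X]) (hp : p.IsMaximal) :
    Function.Surjective (algebraMap K (K[X] ⧸ p)) := by
  letI : Field (K[X] ⧸ p) := Ideal.Quotient.field p
  have h1 : Algebra.FiniteType K (K[X] ⧸ p) := inferInstance
  have h2 : Module.Finite K (K[X] ⧸ p) := finite_of_finite_type_of_isJacobsonRing K (K[X] ⧸ p)
  have : Algebra.IsIntegral K (K[X] ⧸ p) := Algebra.IsIntegral.of_finite K _
  exact (IsAlgClosed.algebraMap_bijective_of_isIntegral (k := K) (K := K[X] ⧸ p)).2

theorem fffin_span_X_sub_C_isMaximal (a : K) : (Ideal.span {(X - C a : K[X])}).IsMaximal := by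
  rw [← Polynomial.ker_evalRingHom]
  exact RingHom.ker_isMaximal_of_surjective _ fun c => ⟨C c, by simp⟩

/-- every maximal ideal of `K[X]` is generated by some `X - a`. -/
theorem fffin_exists_eq_span (p : Ideal K[X]) (hp : p.IsMaximal) :
    ∃ a : K, p = Ideal.span {(X - C a : K[X])} := by
  obtain ⟨a, ha⟩ := fffin_residue_surjective K p hp (Ideal.Quotient.mk p X)
  refine ⟨a, ?_⟩
  have hmem : (X - C a : K[X]) ∈ p := by
    rw [← Ideal.Quotient.eq, ← ha]; rfl
  have hle : Ideal.span {(X - C a : K[X])} ≤ p := (Ideal.span_singleton_le_iff_mem _).2 hmem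
  exact ((fffin_span_X_sub_C_isMaximal K a).eq_of_le hp.ne_top hle).symm

end PolyResidue

section Finite

variable {K F : Type*} [Field K] [Field F] [Algebra K F] [Algebra K[X] F] [Algebra (RatFunc K) F]
  [IsScalarTower K[X] (RatFunc K) F] [IsScalarTower K (RatFunc K) F] [IsScalarTower K K[X] F]
  [FiniteDimensional (RatFunc K) F] [CharZero K]

variable (K F) in
/-- the coordinate function. -/
def ffX : F := algebraMap K[X] F Polynomial.X

theorem ffX_eq : ffX K F = algebraMap (RatFunc K) F RatFunc.X := by
  rw [ffX, IsScalarTower.algebraMap_apply K[X] (RatFunc K) F, RatFunc.algebraMap_X]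

theorem ffX_aeval (p : K[X]) : aeval (ffX K F) p = algebraMap K[X] F p := by
  have : (aeval (ffX K F) : K[X] →ₐ[K] F) = IsScalarTower.toAlgHom K K[X] F := by
    apply Polynomial.algHom_ext
    simp [ffX]
  rw [this]; rfl

instance ffIsDedekindDomainB0 : IsDedekindDomain (integralClosure K[X] F) :=
  integralClosure.isDedekindDomain K[X] (RatFunc K) F

instance ffIsFractionRingB0 : IsFractionRing (integralClosure K[X] F) F :=
  integralClosure.isFractionRing_of_finite_extension (RatFunc K) F

/-- polynomials in the coordinate are regular at a place where the coordinate is. -/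
theorem fffin_algebraMap_mem (v : Place K F) (hv : 0 ≤ v.ord (ffX K F)) (p : K[X]) :
    algebraMap K[X] F p ∈ v.toValuationSubring := by
  rw [← ffX_aeval, aeval_def, eval₂_eq_sum_range]
  refine sum_mem fun i _ => mul_mem (v.algebraMap_mem' _) (pow_mem ?_ i)
  exact PlaceOrd.mem_of_ord_nonneg v hv

theorem fffin_algebraMap_X_sub_C (a : K) :
    algebraMap K[X] F (X - C a) = ffX K F - algebraMap K F a := by
  rw [map_sub, ffX, IsScalarTower.algebraMap_apply K K[X] F, Polynomial.algebraMap_apply,
    Algebra.algebraMap_self, RingHom.id_apply]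

/-- the places where the coordinate is regular are the primes of the finite integers. -/
theorem fffin_forall_mem_iff (v : Place K F) :
    (∀ b : integralClosure K[X] F, algebraMap (integralClosure K[X] F) F b ∈ v.toValuationSubring) ↔
      0 ≤ v.ord (ffX K F) := by
  constructor
  · intro h
    have hX : IsIntegral K[X] (ffX K F) := isIntegral_algebraMap
    exact PlaceOrd.ord_nonneg_of_mem v (h ⟨ffX K F, hX⟩)
  · intro h b
    exact ffplace_integralClosure_le v (fffin_algebraMap_mem v h) b

/-- primes of the finite integers ↔ places where the coordinate is regular. -/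
def fffinEquiv : HeightOneSpectrum (integralClosure K[X] F) ≃
    {v : Place K F // 0 ≤ v.ord (ffX K F)} :=
  (placeEquivPrime (K := K) (F := F) (A := integralClosure K[X] F)).trans
    (Equiv.subtypeEquivRight fffin_forall_mem_iff)

theorem fffinEquiv_apply (P : HeightOneSpectrum (integralClosure K[X] F)) :
    ((fffinEquiv P : {v : Place K F // 0 ≤ v.ord (ffX K F)}) : Place K F) = placeOfPrime K F P :=
  rfl

variable [IsAlgClosed K]

theorem fffin_under_isMaximal (P : HeightOneSpectrum (integralClosure K[X] F)) :
    (P.asIdeal.under K[X]).IsMaximal :=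
  Ideal.IsPrime.isMaximal inferInstance (mt Ideal.eq_bot_of_comap_eq_bot P.ne_bot)

/-- the value of the coordinate at a prime of the finite integers. -/
def fffinCenter (P : HeightOneSpectrum (integralClosure K[X] F)) : K :=
  (fffin_exists_eq_span K _ (fffin_under_isMaximal P)).choose

theorem fffin_under_eq (P : HeightOneSpectrum (integralClosure K[X] F)) :
    P.asIdeal.under K[X] = Ideal.span {(X - C (fffinCenter P) : K[X])} :=
  (fffin_exists_eq_span K _ (fffin_under_isMaximal P)).choose_spec

variable (hx : Transcendental K (ffX K F)) [FiniteDimensional K⟮ffX K F⟯ F]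
  [Algebra.IsSeparable K⟮ffX K F⟯ F]

include hx in
/-- the order of `dx` at a finite place is `e - 1`. -/
theorem fffin_ordDifferential (P : HeightOneSpectrum (integralClosure K[X] F)) :
    (placeOfPrime K F P).ordDifferential (D K F (ffX K F)) =
      (placeOfPrime K F P).ord (algebraMap K[X] F (X - C (fffinCenter P))) - 1 := by
  obtain ⟨hpos, -⟩ := ffside_emultiplicity_eq (K := K) K[X] (RatFunc K) P _ (fffin_under_eq P)
  set w := placeOfPrime K F P
  set a := fffinCenter P
  rw [fffin_algebraMap_X_sub_C] at hpos ⊢
  have hne : ffX K F ≠ algebraMap K F a := by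
    intro h
    exact hx (h ▸ isAlgebraic_algebraMap a)
  have he : 0 < (w.ord (ffX K F - algebraMap K F a)).toNat := by omega
  have h := place_ordDifferential_D_of_zero w hx a he
    (by rw [Int.toNat_of_nonneg hpos.le]) hne
  rw [h, Int.toNat_of_nonneg hpos.le]

include hx in
/-- (F1) the dual lattice of the finite integers: `g dx` is regular at all finite places. -/
theorem fffin_mem_dualSubmodule_iff (g : F) :
    g ∈ (Algebra.traceForm (RatFunc K) F).dualSubmodule (ffLam K F) ↔
      ∀ v : Place K F, 0 ≤ v.ord (ffX K F) →
        g = 0 ∨ 0 ≤ v.ord g + v.ordDifferential (D K F (ffX K F)) := by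
  rw [ffside_mem_dualSubmodule_iff (K := K) K[X] (RatFunc K)
    (fun P => X - C (fffinCenter P)) fffin_under_eq g]
  constructor
  · intro h v hv
    have h1 := h (fffinEquiv.symm ⟨v, hv⟩)
    have h2 : placeOfPrime K F (fffinEquiv.symm ⟨v, hv⟩) = v := by
      rw [← fffinEquiv_apply, Equiv.apply_symm_apply]
    have h3 := fffin_ordDifferential hx (fffinEquiv.symm ⟨v, hv⟩)
    rw [h2] at h1 h3
    rcases h1 with h1 | h1
    · exact Or.inl h1
    · exact Or.inr (by rw [h3]; linarith)
  · intro h P
    have hv : 0 ≤ (placeOfPrime K F P).ord (ffX K F) := by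
      rw [← fffinEquiv_apply]; exact (fffinEquiv P).2
    rcases h _ hv with h1 | h1
    · exact Or.inl h1
    · refine Or.inr ?_
      rw [fffin_ordDifferential hx P] at h1
      linarith

include hx in
/-- (F2) `dim_K (Λ^# / Λ)` is the sum of the orders of `dx` at the finite places. -/
theorem fffin_finrank_dual_quot :
    (Function.support fun v : {v : Place K F // 0 ≤ v.ord (ffX K F)} =>
      v.1.ordDifferential (D K F (ffX K F))).Finite ∧
    (finrank K (↥(kSub ((Algebra.traceForm (RatFunc K) F).dualSubmodule (ffLam K F))) ⧸
      (kSub (ffLam K F)).submoduleOf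
        (kSub ((Algebra.traceForm (RatFunc K) F).dualSubmodule (ffLam K F)))) : ℤ) =
      ∑ᶠ v : {v : Place K F // 0 ≤ v.ord (ffX K F)}, v.1.ordDifferential (D K F (ffX K F)) := by
  obtain ⟨h1, h2⟩ := ffside_finrank_dual_quot (K := K) K[X] (RatFunc K)
    (fffin_residue_surjective K) (fun P => X - C (fffinCenter P)) fffin_under_eq
    (kSub ((Algebra.traceForm (RatFunc K) F).dualSubmodule (ffLam K F))) (kSub (ffLam K F))
    (fun g => Iff.rfl) (fun g => Iff.rfl)
  have hfun : (fun P : HeightOneSpectrum (integralClosure K[X] F) =>
      (placeOfPrime K F P).ord (algebraMap K[X] F (X - C (fffinCenter P))) - 1) =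
      (fun v : {v : Place K F // 0 ≤ v.ord (ffX K F)} =>
        v.1.ordDifferential (D K F (ffX K F))) ∘ fffinEquiv := by
    funext P
    simp only [Function.comp_apply]
    rw [fffinEquiv_apply, fffin_ordDifferential hx P]
  rw [hfun] at h1 h2
  refine ⟨?_, ?_⟩
  · have := h1.image (fffinEquiv (K := K) (F := F))
    rwa [Function.support_comp_eq_preimage,
      Set.image_preimage_eq _ (fffinEquiv (K := K) (F := F)).surjective] at this
  · rw [h2]
    exact finsum_comp_equiv (fffinEquiv (K := K) (F := F))
      (f := fun v : {v : Place K F // 0 ≤ v.ord (ffX K F)} =>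
        v.1.ordDifferential (D K F (ffX K F)))

end Finite

end Fermat.Agent.S20
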