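import Fermat.Agent.S20.FFFinite

/-!
# S20, function-field layer: the infinite places

The places of `F / K` at which the coordinate `x` has a pole are the primes of
`B∞ = integralClosure R∞ F`; the twisted dual lattice `X⁻² B∞^#` consists of the `g` such that
`g dx` is regular at all infinite places; `dim_K (B∞^# / B∞) = ∑ (e_v - 1)` and `∑ e_v = n`.
-/

set_option autoImplicit false
set_option linter.unusedSectionVars false
set_option linter.style.haveILetI false

noncomputable section

namespace Fermat.Agent.S20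

open Polynomial Module IsDedekindDomain HeightOneSpectrum WithZero AlgebraicCurve
  IntermediateField KaehlerDifferential Fermat.Agent.S24

section RinfStructure

variable (K : Type*) [Field K]

theorem ffinf_inv_X_mem : (RatFunc.X : RatFunc K)⁻¹ ∈ Rinf K := by
  rw [mem_Rinf_iff, RatFunc.intDegree_inv, RatFunc.intDegree_X]
  norm_num

/-- the uniformizer `1 / X` of `R∞`. -/
def ffinfUnif : Rinf K := ⟨(RatFunc.X : RatFunc K)⁻¹, ffinf_inv_X_mem K⟩

theorem ffinfUnif_ne_zero : ffinfUnif K ≠ 0 := by
  intro h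
  have := congrArg Subtype.val h
  simp only [ffinfUnif, ZeroMemClass.coe_zero, inv_eq_zero] at this
  exact RatFunc.X_ne_zero this

variable {K}

theorem ffinf_isUnit_iff (r : Rinf K) : IsUnit r ↔ (r : RatFunc K) ≠ 0 ∧ (r : RatFunc K).intDegree = 0 := by
  constructor
  · rintro ⟨u, rfl⟩
    have h1 : ((u : Rinf K) : RatFunc K) * ((u⁻¹ : (Rinf K)ˣ) : Rinf K) = 1 := by
      have := congrArg Subtype.val (Units.mul_inv u)
      exact this
    have hu0 : ((u : Rinf K) : RatFunc K) ≠ 0 := left_ne_zero_of_mul_eq_one h1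
    have hv0 : (((u⁻¹ : (Rinf K)ˣ) : Rinf K) : RatFunc K) ≠ 0 := right_ne_zero_of_mul_eq_one h1
    refine ⟨hu0, ?_⟩
    have h2 := congrArg RatFunc.intDegree h1
    rw [RatFunc.intDegree_mul hu0 hv0, RatFunc.intDegree_one] at h2
    have h3 := (u : Rinf K).2
    have h4 := ((u⁻¹ : (Rinf K)ˣ) : Rinf K).2
    rw [mem_Rinf_iff] at h3 h4
    omega
  · rintro ⟨h0, hd⟩
    have hinv : (r : RatFunc K)⁻¹ ∈ Rinf K := by
      rw [mem_Rinf_iff, RatFunc.intDegree_inv, hd]; norm_num
    refine isUnit_iff_exists_inv.2 ⟨⟨_, hinv⟩, Subtype.ext ?_⟩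
    simp [h0]

theorem ffinf_mem_maximalIdeal_iff (r : Rinf K) :
    r ∈ IsLocalRing.maximalIdeal (Rinf K) ↔ (r : RatFunc K) = 0 ∨ (r : RatFunc K).intDegree < 0 := by
  rw [IsLocalRing.mem_maximalIdeal, mem_nonunits_iff, ffinf_isUnit_iff]
  have := r.2
  rw [mem_Rinf_iff] at this
  constructor
  · intro h
    by_cases h0 : (r : RatFunc K) = 0
    · exact Or.inl h0
    · refine Or.inr ?_
      by_contra hlt
      exact h ⟨h0, by omega⟩
  · rintro (h | h) ⟨h0, hd⟩
    · exact h0 h
    · omega

theorem ffinf_maximalIdeal_eq : IsLocalRing.maximalIdeal (Rinf K) = Ideal.span {ffinfUnif K} := by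
  ext r
  rw [ffinf_mem_maximalIdeal_iff, Ideal.mem_span_singleton']
  constructor
  · rintro (h | h)
    · exact ⟨0, by rw [zero_mul]; exact (Subtype.ext h).symm⟩
    · have h0 : (r : RatFunc K) ≠ 0 := by
        rintro h0; rw [h0] at h; simp at h
      have hmem : (RatFunc.X : RatFunc K) * r ∈ Rinf K := by
        rw [mem_Rinf_iff, RatFunc.intDegree_mul RatFunc.X_ne_zero h0, RatFunc.intDegree_X]
        omega
      refine ⟨⟨_, hmem⟩, Subtype.ext ?_⟩
      show (RatFunc.X : RatFunc K) * r * (RatFunc.X : RatFunc K)⁻¹ = r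
      rw [mul_comm (RatFunc.X : RatFunc K), mul_assoc,
        mul_inv_cancel₀ (RatFunc.X_ne_zero (K := K)), mul_one]
  · rintro ⟨s, rfl⟩
    by_cases h0 : (s : RatFunc K) = 0
    · left
      show (s : RatFunc K) * (RatFunc.X : RatFunc K)⁻¹ = 0
      rw [h0, zero_mul]
    · right
      show ((s : RatFunc K) * (RatFunc.X : RatFunc K)⁻¹).intDegree < 0
      rw [RatFunc.intDegree_mul h0 (inv_ne_zero RatFunc.X_ne_zero), RatFunc.intDegree_inv,
        RatFunc.intDegree_X]
      have := s.2
      rw [mem_Rinf_iff] at this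
      omega

theorem ffinf_span_isMaximal : (Ideal.span {ffinfUnif K}).IsMaximal := by
  rw [← ffinf_maximalIdeal_eq]; infer_instance

/-- every maximal ideal of `R∞` is `(1 / X)`. -/
theorem ffinf_eq_span_of_isMaximal (p : Ideal (Rinf K)) (hp : p.IsMaximal) :
    p = Ideal.span {ffinfUnif K} := by
  rw [← ffinf_maximalIdeal_eq]; exact IsLocalRing.eq_maximalIdeal hp

/-- the residue field of `R∞` is `K`. -/
theorem ffinf_residue_surjective (p : Ideal (Rinf K)) (hp : p.IsMaximal) :
    Function.Surjective (algebraMap K (Rinf K ⧸ p)) := by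
  intro z
  obtain ⟨r, rfl⟩ := Ideal.Quotient.mk_surjective z
  obtain ⟨q, hq⟩ := exists_poly_rdeg_sub_lt (r : RatFunc K)
  have hr : rdeg (r : RatFunc K) ≤ 0 := mem_Rinf_iff_rdeg.1 r.2
  have hq0 : rdeg (algebraMap K[X] (RatFunc K) q) ≤ 0 := by
    have h1 : algebraMap K[X] (RatFunc K) q = (r : RatFunc K) - ((r : RatFunc K) -
        algebraMap K[X] (RatFunc K) q) := by ring
    rw [h1]
    exact (rdeg_sub_le _ _).trans (max_le hr hq.le)
  have hdeg : q.degree ≤ 0 := by
    rw [rdeg_algebraMap] at hq0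
    by_cases hq' : q = 0
    · simp [hq']
    rw [Polynomial.degree_eq_natDegree hq'] at hq0 ⊢
    have : ((q.natDegree : ℤ) : WithBot ℤ) ≤ 0 := hq0
    have h2 : (q.natDegree : ℤ) ≤ 0 := by exact_mod_cast this
    exact_mod_cast h2
  obtain ⟨c, rfl⟩ : ∃ c, q = C c := ⟨_, Polynomial.eq_C_of_degree_le_zero hdeg⟩
  refine ⟨c, ?_⟩
  rw [show algebraMap K (Rinf K ⧸ p) c = Ideal.Quotient.mk p (algebraMap K (Rinf K) c) from rfl,
    Ideal.Quotient.eq, ffinf_eq_span_of_isMaximal p hp, ← ffinf_maximalIdeal_eq,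
    ffinf_mem_maximalIdeal_iff]
  have hcoe : ((algebraMap K (Rinf K) c - r : Rinf K) : RatFunc K) =
      -((r : RatFunc K) - algebraMap K[X] (RatFunc K) (C c)) := by
    push_cast
    rw [fflat_coe_algebraMap_Rinf]
    simp [RatFunc.algebraMap_C]
  by_cases h0 : ((algebraMap K (Rinf K) c - r : Rinf K) : RatFunc K) = 0
  · exact Or.inl h0
  · refine Or.inr ?_
    rw [hcoe] at h0 ⊢
    rw [← ne_eq, neg_ne_zero] at h0
    rw [RatFunc.intDegree_neg]
    rw [rdeg_of_ne_zero h0] at hq
    exact_mod_cast hq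

end RinfStructure

section OrdPoly

variable {K F : Type*} [Field K] [Field F] [Algebra K F] (v : Place K F)

/-- a unit plus an element of the maximal ideal is a unit. -/
theorem ffinf_ord_add_eq_zero {u m : F} (hu : v.ord u = 0) (hu0 : u ≠ 0)
    (hm : m = 0 ∨ 0 < v.ord m) : u + m ≠ 0 ∧ v.ord (u + m) = 0 := by
  rcases hm with rfl | hm
  · rw [add_zero]; exact ⟨hu0, hu⟩
  have hm0 : m ≠ 0 := by rintro rfl; simp at hm
  have hne : u + m ≠ 0 := by
    intro h
    have : u = -m := eq_neg_of_add_eq_zero_left h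
    rw [this, PlaceOrd.ord_neg] at hu
    omega
  refine ⟨hne, ?_⟩
  have h1 := PlaceOrd.min_le_ord_add v hne
  have h2 : min (v.ord (u + m)) (v.ord (-m)) ≤ v.ord u := by
    have := PlaceOrd.min_le_ord_add v (f := u + m) (g := -m) (by simpa using hu0)
    simpa using this
  rw [PlaceOrd.ord_neg] at h2
  rw [hu] at h1 h2
  rcases min_le_iff.1 h2 with h3 | h3
  · have : min 0 (v.ord m) = 0 := min_eq_left hm.le
    rw [this] at h1
    omega
  · omega

/-- a polynomial with nonzero constant term takes a unit value at an element of the maximal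
ideal. -/
theorem ffinf_ord_aeval_eq_zero {y : F} (hy : 0 < v.ord y) (q : K[X]) (hq : q.coeff 0 ≠ 0) :
    aeval y q ≠ 0 ∧ v.ord (aeval y q) = 0 := by
  have hy' : y ∈ v.toValuationSubring := PlaceOrd.mem_of_ord_nonneg v hy.le
  have hmem : ∀ p : K[X], aeval y p ∈ v.toValuationSubring := by
    intro p
    rw [aeval_def, eval₂_eq_sum_range]
    exact sum_mem fun i _ => mul_mem (v.algebraMap_mem' _) (pow_mem hy' i)
  have hdecomp : aeval y q = algebraMap K F (q.coeff 0) + aeval y q.divX * y := by
    conv_lhs => rw [← Polynomial.divX_mul_X_add q]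
    simp [add_comm]
  rw [hdecomp]
  have hc0 : algebraMap K F (q.coeff 0) ≠ 0 := by simpa using hq
  refine ffinf_ord_add_eq_zero v (PlaceOrd.ord_algebraMap v _) hc0 ?_
  by_cases h0 : aeval y q.divX * y = 0
  · exact Or.inl h0
  · right
    have h1 : aeval y q.divX ≠ 0 := left_ne_zero_of_mul h0
    have h2 : y ≠ 0 := right_ne_zero_of_mul h0
    rw [v.ord_mul h1 h2]
    have := PlaceOrd.ord_nonneg_of_mem v (hmem q.divX)
    omega

/-- the order of a polynomial in `x` at a pole of `x`. -/
theorem ffinf_ord_aeval {x : F} (hx : v.ord x < 0) (p : K[X]) (hp : p ≠ 0) :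
    v.ord (aeval x p) = p.natDegree * v.ord x := by
  have hx0 : x ≠ 0 := by rintro rfl; simp at hx
  letI : Invertible x := invertibleOfNonzero hx0
  have h1 : aeval x p = aeval x⁻¹ p.reverse * x ^ p.natDegree := by
    have := eval₂_reverse_mul_pow (algebraMap K F) x p
    rw [invOf_eq_inv] at this
    exact this.symm
  have hy : 0 < v.ord x⁻¹ := by rw [v.ord_inv]; omega
  have hrev : p.reverse.coeff 0 ≠ 0 := by
    rw [Polynomial.coeff_zero_reverse]; exact leadingCoeff_ne_zero.2 hp
  obtain ⟨h3, h2⟩ := ffinf_ord_aeval_eq_zero v hy p.reverse hrev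
  rw [h1, v.ord_mul h3 (pow_ne_zero _ hx0), h2, zero_add, ← zpow_natCast, v.ord_zpow]

end OrdPoly

section Infinite

variable {K F : Type*} [Field K] [Field F] [Algebra K F] [Algebra K[X] F] [Algebra (RatFunc K) F]
  [IsScalarTower K[X] (RatFunc K) F] [IsScalarTower K (RatFunc K) F] [IsScalarTower K K[X] F]
  [FiniteDimensional (RatFunc K) F] [CharZero K]

instance ffIsDedekindDomainBinf : IsDedekindDomain (integralClosure (Rinf K) F) :=
  integralClosure.isDedekindDomain (Rinf K) (RatFunc K) F

instance ffIsFractionRingBinf : IsFractionRing (integralClosure (Rinf K) F) F :=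
  integralClosure.isFractionRing_of_finite_extension (RatFunc K) F

theorem ffinf_algebraMap_poly (p : K[X]) :
    algebraMap (RatFunc K) F (algebraMap K[X] (RatFunc K) p) = aeval (ffX K F) p := by
  rw [ffX_aeval, ← IsScalarTower.algebraMap_apply]

theorem ffinf_algebraMap_unif :
    algebraMap (Rinf K) F (ffinfUnif K) = (ffX K F)⁻¹ := by
  show algebraMap (RatFunc K) F ((RatFunc.X : RatFunc K)⁻¹) = _
  rw [map_inv₀, ffX_eq]

/-- functions of degree `≤ 0` in the coordinate are regular at the poles of the coordinate. -/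
theorem ffinf_algebraMap_mem (v : Place K F) (hv : v.ord (ffX K F) < 0) (r : Rinf K) :
    algebraMap (Rinf K) F r ∈ v.toValuationSubring := by
  show algebraMap (RatFunc K) F (r : RatFunc K) ∈ v.toValuationSubring
  set f : RatFunc K := (r : RatFunc K) with hf
  rcases eq_or_ne f 0 with h0 | h0
  · rw [h0, map_zero]; exact zero_mem _
  have hdeg : f.intDegree ≤ 0 := r.2
  apply PlaceOrd.mem_of_ord_nonneg
  have hnum : f.num ≠ 0 := RatFunc.num_ne_zero h0
  have hden : f.denom ≠ 0 := f.denom_ne_zero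
  have h1 : algebraMap (RatFunc K) F f = aeval (ffX K F) f.num / aeval (ffX K F) f.denom := by
    conv_lhs => rw [← RatFunc.num_div_denom f]
    rw [map_div₀, ffinf_algebraMap_poly, ffinf_algebraMap_poly]
  have hinj : Function.Injective (algebraMap K[X] F) := by
    rw [IsScalarTower.algebraMap_eq K[X] (RatFunc K) F]
    exact (algebraMap (RatFunc K) F).injective.comp (IsFractionRing.injective K[X] (RatFunc K))
  have hn0 : aeval (ffX K F) f.num ≠ 0 := by
    rw [ffX_aeval]; exact (map_ne_zero_iff _ hinj).2 hnum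
  have hd0 : aeval (ffX K F) f.denom ≠ 0 := by
    rw [ffX_aeval]; exact (map_ne_zero_iff _ hinj).2 hden
  rw [h1, div_eq_mul_inv, v.ord_mul hn0 (inv_ne_zero hd0), v.ord_inv,
    ffinf_ord_aeval v hv _ hnum, ffinf_ord_aeval v hv _ hden]
  have h2 : f.intDegree = (f.num.natDegree : ℤ) - f.denom.natDegree := rfl
  rw [h2] at hdeg
  nlinarith

theorem ffinf_under_eq (P : HeightOneSpectrum (integralClosure (Rinf K) F)) :
    P.asIdeal.under (Rinf K) = Ideal.span {ffinfUnif K} :=
  ffinf_eq_span_of_isMaximal _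
    (Ideal.IsPrime.isMaximal inferInstance (mt Ideal.eq_bot_of_comap_eq_bot P.ne_bot))

theorem ffinf_ord_pos (P : HeightOneSpectrum (integralClosure (Rinf K) F)) :
    (placeOfPrime K F P).ord (ffX K F) < 0 := by
  have h := (ffside_emultiplicity_eq (K := K) (Rinf K) (RatFunc K) P (ffinfUnif K)
    (ffinf_under_eq P)).1
  rw [ffinf_algebraMap_unif, Place.ord_inv] at h
  omega

/-- the places at the poles of the coordinate are the primes of the infinite integers. -/
theorem ffinf_forall_mem_iff (v : Place K F) :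
    (∀ b : integralClosure (Rinf K) F,
      algebraMap (integralClosure (Rinf K) F) F b ∈ v.toValuationSubring) ↔
      v.ord (ffX K F) < 0 := by
  constructor
  · intro h
    obtain ⟨P, rfl⟩ := exists_placeOfPrime_eq (K := K) v h
    exact ffinf_ord_pos P
  · intro h b
    exact ffplace_integralClosure_le v (ffinf_algebraMap_mem v h) b

/-- primes of the infinite integers ↔ places at the poles of the coordinate. -/
def ffinfEquiv : HeightOneSpectrum (integralClosure (Rinf K) F) ≃
    {v : Place K F // v.ord (ffX K F) < 0} :=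
  (placeEquivPrime (K := K) (F := F) (A := integralClosure (Rinf K) F)).trans
    (Equiv.subtypeEquivRight ffinf_forall_mem_iff)

theorem ffinfEquiv_apply (P : HeightOneSpectrum (integralClosure (Rinf K) F)) :
    ((ffinfEquiv P : {v : Place K F // v.ord (ffX K F) < 0}) : Place K F) = placeOfPrime K F P :=
  rfl

variable [IsAlgClosed K]

variable (hx : Transcendental K (ffX K F)) [FiniteDimensional K⟮ffX K F⟯ F]
  [Algebra.IsSeparable K⟮ffX K F⟯ F]

include hx in
/-- the order of `dx` at a pole of order `e` of `x` is `-e - 1`. -/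
theorem ffinf_ordDifferential (v : Place K F) (hv : v.ord (ffX K F) < 0) :
    v.ordDifferential (D K F (ffX K F)) = v.ord (ffX K F) - 1 := by
  have he : 0 < (-(v.ord (ffX K F))).toNat := by omega
  have h := place_ordDifferential_D_of_pole v hx he (f := ffX K F)
    (by rw [Int.toNat_of_nonneg (by omega)]; ring)
  rw [h, Int.toNat_of_nonneg (by omega)]
  ring

include hx in
/-- (I1) the twisted dual lattice of the infinite integers: `g dx` is regular at all infinite
places. -/
theorem ffinf_mem_twist_dualSubmodule_iff (g : F) :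
    g ∈ twist (-2) ((Algebra.traceForm (RatFunc K) F).dualSubmodule (ffLamInf K F)) ↔
      ∀ v : Place K F, v.ord (ffX K F) < 0 →
        g = 0 ∨ 0 ≤ v.ord g + v.ordDifferential (D K F (ffX K F)) := by
  rw [mem_twist, ffside_mem_dualSubmodule_iff (K := K) (Rinf K) (RatFunc K)
    (fun _ => ffinfUnif K) ffinf_under_eq]
  have hsmul : (RatFunc.X : RatFunc K) ^ (-(-2 : ℤ)) • g = ffX K F ^ 2 * g := by
    rw [neg_neg, Algebra.smul_def, ffX_eq]
    norm_cast
  rw [hsmul]
  have key : ∀ v : Place K F, v.ord (ffX K F) < 0 →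
      ((ffX K F ^ 2 * g = 0 ∨ 1 - v.ord (algebraMap (Rinf K) F (ffinfUnif K)) ≤
        v.ord (ffX K F ^ 2 * g)) ↔
      (g = 0 ∨ 0 ≤ v.ord g + v.ordDifferential (D K F (ffX K F)))) := by
    intro v hv
    have hx0 : ffX K F ≠ 0 := by rintro h; rw [h] at hv; simp at hv
    rw [ffinf_ordDifferential hx v hv, ffinf_algebraMap_unif, v.ord_inv]
    rcases eq_or_ne g 0 with rfl | hg
    · simp
    have h2 : ffX K F ^ 2 * g ≠ 0 := mul_ne_zero (pow_ne_zero _ hx0) hg
    simp only [h2, hg, false_or]
    rw [v.ord_mul (pow_ne_zero _ hx0) hg, ← zpow_natCast, v.ord_zpow]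
    push_cast
    constructor <;> intro h <;> linarith
  constructor
  · intro h v hv
    have h1 := h (ffinfEquiv.symm ⟨v, hv⟩)
    have h2 : placeOfPrime K F (ffinfEquiv.symm ⟨v, hv⟩) = v := by
      rw [← ffinfEquiv_apply, Equiv.apply_symm_apply]
    rw [h2] at h1
    exact (key v hv).1 h1
  · intro h P
    exact (key _ (ffinf_ord_pos P)).2 (h _ (ffinf_ord_pos P))

/-- (I3) the fundamental identity at infinity, and finiteness of the set of infinite places. -/
theorem ffinf_sum_ord :
    Finite {v : Place K F // v.ord (ffX K F) < 0} ∧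
    ∑ᶠ v : {v : Place K F // v.ord (ffX K F) < 0}, (-(v.1.ord (ffX K F))) =
      (finrank (RatFunc K) F : ℤ) := by
  obtain ⟨h1, h2⟩ := ffside_sum_ord_eq_finrank (K := K) (Rinf K) (RatFunc K)
    ffinf_residue_surjective (ffinfUnif K) (ffinfUnif_ne_zero K) ffinf_span_isMaximal
    (ffinf_under_eq (F := F))
  have hfun : (fun P : HeightOneSpectrum (integralClosure (Rinf K) F) =>
      (placeOfPrime K F P).ord (algebraMap (Rinf K) F (ffinfUnif K))) =
      (fun v : {v : Place K F // v.ord (ffX K F) < 0} => -(v.1.ord (ffX K F))) ∘ ffinfEquiv := by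
    funext P
    simp only [Function.comp_apply]
    rw [ffinfEquiv_apply, ffinf_algebraMap_unif, Place.ord_inv]
  rw [hfun] at h1 h2
  refine ⟨?_, ?_⟩
  · have h3 := h1.image (ffinfEquiv (K := K) (F := F))
    rw [Function.support_comp_eq_preimage,
      Set.image_preimage_eq _ (ffinfEquiv (K := K) (F := F)).surjective] at h3
    have huniv : (Function.support fun v : {v : Place K F // v.ord (ffX K F) < 0} =>
        -(v.1.ord (ffX K F))) = Set.univ := by
      ext v
      simp only [Function.mem_support, Set.mem_univ, iff_true]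
      have := v.2
      omega
    rw [huniv] at h3
    exact Set.finite_univ_iff.1 h3
  · rw [← h2]
    exact (finsum_comp_equiv (ffinfEquiv (K := K) (F := F))
      (f := fun v : {v : Place K F // v.ord (ffX K F) < 0} => -(v.1.ord (ffX K F)))).symm

/-- (I2) `dim_K (Λ'^# / Λ')` as a sum over the infinite places. -/
theorem ffinf_finrank_dual_quot :
    (finrank K (↥(kSubInf ((Algebra.traceForm (RatFunc K) F).dualSubmodule (ffLamInf K F))) ⧸
      (kSubInf (ffLamInf K F)).submoduleOf
        (kSubInf ((Algebra.traceForm (RatFunc K) F).dualSubmodule (ffLamInf K F)))) : ℤ) =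
      ∑ᶠ v : {v : Place K F // v.ord (ffX K F) < 0}, (-(v.1.ord (ffX K F)) - 1) := by
  obtain ⟨h1, h2⟩ := ffside_finrank_dual_quot (K := K) (Rinf K) (RatFunc K)
    ffinf_residue_surjective (fun _ => ffinfUnif K) (ffinf_under_eq (F := F))
    (kSubInf ((Algebra.traceForm (RatFunc K) F).dualSubmodule (ffLamInf K F)))
    (kSubInf (ffLamInf K F)) (fun g => Iff.rfl) (fun g => Iff.rfl)
  have hfun : (fun P : HeightOneSpectrum (integralClosure (Rinf K) F) =>
      (placeOfPrime K F P).ord (algebraMap (Rinf K) F (ffinfUnif K)) - 1) =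
      (fun v : {v : Place K F // v.ord (ffX K F) < 0} => -(v.1.ord (ffX K F)) - 1) ∘
        ffinfEquiv := by
    funext P
    simp only [Function.comp_apply]
    rw [ffinfEquiv_apply, ffinf_algebraMap_unif, Place.ord_inv]
  rw [hfun] at h2
  rw [h2]
  exact finsum_comp_equiv (ffinfEquiv (K := K) (F := F))
    (f := fun v : {v : Place K F // v.ord (ffX K F) < 0} => -(v.1.ord (ffX K F)) - 1)

end Infinite

end Fermat.Agent.S20
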