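import Mathlib
import Fermat.Agent.S20.Duality
import Fermat.Agent.S20.FFDifferent

/-!
# S20, function-field layer: the two lattices of integral elements

In the setting `[Algebra K[X] F] [Algebra (RatFunc K) F]` (a function field presented as a finite
extension of `K(X)`), the integral closures of `K[X]` and of `R∞` in `F` are lattices, self-dual up
to the different, and their intersection is `K`.
-/

set_option autoImplicit false
set_option linter.unusedSectionVars false

noncomputable section

namespace Fermat.Agent.S20

open Polynomial Module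

section General

variable (A 𝕜 L : Type*) [CommRing A] [Field 𝕜] [Field L]
  [Algebra A 𝕜] [Algebra 𝕜 L] [Algebra A L] [IsScalarTower A 𝕜 L]
  [IsDomain A] [IsFractionRing A 𝕜] [FiniteDimensional 𝕜 L] [Algebra.IsSeparable 𝕜 L]
  [IsIntegrallyClosed A] [IsNoetherianRing A]

/-- the integral closure of `A` in a finite separable extension of its fraction field is a
lattice. -/
theorem fflat_isLattice_integralClosure :
    Submodule.IsLattice 𝕜 (Subalgebra.toSubmodule (integralClosure A L)) where
  fg := by
    have : Module.Finite A (integralClosure A L) :=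
      IsIntegralClosure.finite A 𝕜 L (integralClosure A L)
    exact (Module.Finite.iff_fg (N := Subalgebra.toSubmodule (integralClosure A L))).1 this
  span_eq_top := by
    rw [eq_top_iff]
    intro f _
    have halg : Algebra.IsAlgebraic A L := IsFractionRing.comap_isAlgebraic_iff.mpr
      (inferInstance : Algebra.IsAlgebraic 𝕜 L)
    obtain ⟨y, hy0, hy⟩ := (Algebra.IsAlgebraic.isAlgebraic (R := A) f).exists_integral_multiple
    have hy' : algebraMap A 𝕜 y ≠ 0 := by
      rwa [ne_eq, IsFractionRing.to_map_eq_zero_iff]
    have : f = (algebraMap A 𝕜 y)⁻¹ • (y • f) := by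
      rw [← algebraMap_smul 𝕜 y f, smul_smul, inv_mul_cancel₀ hy', one_smul]
    rw [this]
    exact Submodule.smul_mem _ _ (Submodule.subset_span hy)

/-- the `A`-submodule underlying `(1 : Submodule (integralClosure A L) L)`. -/
theorem fflat_one_restrictScalars :
    (1 : Submodule (integralClosure A L) L).restrictScalars A =
      Subalgebra.toSubmodule (integralClosure A L) := by
  ext f
  rw [Submodule.restrictScalars_mem, Submodule.mem_one, Subalgebra.mem_toSubmodule]
  constructor
  · rintro ⟨b, rfl⟩
    exact b.2
  · intro hf
    exact ⟨⟨f, hf⟩, rfl⟩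

/-- the dual lattice of the integral closure is the trace dual of Mathlib. -/
theorem fflat_dualSubmodule_eq :
    (Algebra.traceForm 𝕜 L).dualSubmodule (Subalgebra.toSubmodule (integralClosure A L)) =
      (Submodule.traceDual A 𝕜 (1 : Submodule (integralClosure A L) L)).restrictScalars A := by
  rw [Submodule.restrictScalars_traceDual, fflat_one_restrictScalars]

/-- the integral closure is contained in its dual lattice. -/
theorem fflat_le_dualSubmodule :
    Subalgebra.toSubmodule (integralClosure A L) ≤
      (Algebra.traceForm 𝕜 L).dualSubmodule (Subalgebra.toSubmodule (integralClosure A L)) := by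
  rw [fflat_dualSubmodule_eq, ← fflat_one_restrictScalars]
  intro f hf
  rw [Submodule.restrictScalars_mem] at hf ⊢
  exact Submodule.one_le_traceDual_one hf

end General

end Fermat.Agent.S20

namespace Fermat.Agent.S20

open Polynomial Module

section Rinf

variable (K : Type*) [Field K]

/-- constants have degree `≤ 0`. -/
theorem fflat_algebraMap_mem_Rinf (c : K) : algebraMap K (RatFunc K) c ∈ Rinf K :=
  mem_Rinf_iff_rdeg.mpr (rdeg_C_le c)

/-- `R∞` is a `K`-algebra. -/
instance fflatAlgebraRinf : Algebra K (Rinf K) :=
  ((algebraMap K (RatFunc K)).codRestrict (Rinf K).toSubring (fflat_algebraMap_mem_Rinf K)).toAlgebra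

instance fflat_isScalarTower_Rinf : IsScalarTower K (Rinf K) (RatFunc K) :=
  IsScalarTower.of_algebraMap_eq fun _ => rfl

theorem fflat_coe_algebraMap_Rinf (c : K) :
    ((algebraMap K (Rinf K) c : Rinf K) : RatFunc K) = algebraMap K (RatFunc K) c := rfl

end Rinf

section Setting

variable {K F : Type*} [Field K] [Field F] [Algebra K F] [Algebra K[X] F] [Algebra (RatFunc K) F]
  [IsScalarTower K[X] (RatFunc K) F] [IsScalarTower K (RatFunc K) F] [IsScalarTower K K[X] F]
  [FiniteDimensional (RatFunc K) F]

instance fflat_isScalarTower_Rinf_F : IsScalarTower K (Rinf K) F :=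
  IsScalarTower.of_algebraMap_eq fun c => by
    rw [IsScalarTower.algebraMap_apply K (RatFunc K) F]
    rfl

variable (K F) in
/-- the lattice of functions integral over `K[X]`. -/
abbrev ffLam : Submodule K[X] F := Subalgebra.toSubmodule (integralClosure K[X] F)

variable (K F) in
/-- the lattice of functions integral over `R∞`. -/
abbrev ffLamInf : Submodule (Rinf K) F := Subalgebra.toSubmodule (integralClosure (Rinf K) F)

variable [CharZero K]

instance fflat_isLattice_ffLam : (ffLam K F).IsLattice (RatFunc K) :=
  fflat_isLattice_integralClosure K[X] (RatFunc K) F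

instance fflat_isLattice_ffLamInf : (ffLamInf K F).IsLattice (RatFunc K) :=
  fflat_isLattice_integralClosure (Rinf K) (RatFunc K) F

end Setting

end Fermat.Agent.S20

namespace Fermat.Agent.S20

open Polynomial Module

section Setting

variable {K F : Type*} [Field K] [Field F] [Algebra K F] [Algebra K[X] F] [Algebra (RatFunc K) F]
  [IsScalarTower K[X] (RatFunc K) F] [IsScalarTower K (RatFunc K) F] [IsScalarTower K K[X] F]
  [FiniteDimensional (RatFunc K) F] [CharZero K]

variable (K F) in
/-- the `K`-algebra of functions integral both over `K[X]` and over `R∞`. -/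
def ffConst : Subalgebra K F :=
  (integralClosure K[X] F).restrictScalars K ⊓ (integralClosure (Rinf K) F).restrictScalars K

theorem fflat_toSubmodule_ffConst :
    Subalgebra.toSubmodule (ffConst K F) = kSub (ffLam K F) ⊓ kSubInf (ffLamInf K F) := by
  ext f
  simp [ffConst, Subalgebra.mem_toSubmodule]

theorem fflat_finite_ffConst : Module.Finite K (ffConst K F) := by
  have h1 : Module.Finite K ↥(kSub (ffLam K F) ⊓ kSubInf (ffLamInf K F)) :=
    finite_latInf (ffLam K F) (ffLamInf K F)
  rw [← fflat_toSubmodule_ffConst] at h1
  exact h1

variable [IsAlgClosed K]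

/-- a function integral over `K[X]` and over `R∞` is constant. -/
theorem fflat_mem_range_of_mem_ffConst {f : F} (hf : f ∈ ffConst K F) :
    f ∈ (algebraMap K F).range := by
  have := fflat_finite_ffConst (K := K) (F := F)
  have : Algebra.IsIntegral K (ffConst K F) := Algebra.IsIntegral.of_finite K _
  obtain ⟨c, hc⟩ := (IsAlgClosed.algebraMap_bijective_of_isIntegral (k := K)
    (K := ffConst K F)).2 ⟨f, hf⟩
  exact ⟨c, congrArg Subtype.val hc⟩

/-- `h⁰ (Λ, Λ') = 1`: the only functions integral over `K[X]` and `R∞` are the constants. -/
theorem fflat_latH0_eq_one : latH0 (ffLam K F) (ffLamInf K F) = 1 := by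
  rw [latH0, ← fflat_toSubmodule_ffConst]
  have h1 : Subalgebra.toSubmodule (ffConst K F) = K ∙ (1 : F) := by
    apply le_antisymm
    · intro f hf
      obtain ⟨c, rfl⟩ := fflat_mem_range_of_mem_ffConst hf
      rw [Submodule.mem_span_singleton]
      exact ⟨c, by rw [Algebra.smul_def, mul_one]⟩
    · rw [Submodule.span_singleton_le_iff_mem]
      exact (ffConst K F).one_mem
  rw [h1, finrank_span_singleton one_ne_zero]

end Setting

end Fermat.Agent.S20
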