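import Fermat.Agent.S20.FFLattice
import Fermat.Agent.S20.FFDict

/-!
# S20, function-field layer: one "side" (finite or infinite) in terms of places

`A` is a Dedekind `K`-algebra with fraction field `𝕜 ⊆ F` (`A = K[X]` or `A = R∞`), `B` its
integral closure in `F`.  The primes of `B` are places of `F / K` (`FFDict`).  We translate the
results of `FFDifferent` into statements about orders at places.
-/

set_option autoImplicit false
set_option linter.unusedSectionVars false

noncomputable section

namespace Fermat.Agent.S20

open Polynomial Module IsDedekindDomain HeightOneSpectrum WithZero AlgebraicCurve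

section Transfer

variable {K R L : Type*} [Field K] [CommRing R] [AddCommGroup L] [Module K L] [Module R L]
  [SMul K R] [IsScalarTower K R L]

/-- quotients of submodules with the same carriers over different rings are `K`-isomorphic. -/
def ffsideQuotEquiv (M N : Submodule R L) (M' N' : Submodule K L)
    (hM : ∀ x, x ∈ M' ↔ x ∈ M) (hN : ∀ x, x ∈ N' ↔ x ∈ N) :
    (↥M ⧸ N.submoduleOf M) ≃ₗ[K] (↥M' ⧸ N'.submoduleOf M') := by
  let f : ↥M ≃ₗ[K] ↥M' :=
    { toFun := fun x => ⟨x.1, (hM _).2 x.2⟩
      invFun := fun x => ⟨x.1, (hM _).1 x.2⟩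
      map_add' := fun _ _ => rfl
      map_smul' := fun _ _ => rfl
      left_inv := fun _ => rfl
      right_inv := fun _ => rfl }
  refine (Submodule.Quotient.restrictScalarsEquiv K (N.submoduleOf M)).symm.trans
    (Submodule.Quotient.equiv _ _ f ?_)
  ext x
  simp only [Submodule.mem_map, Submodule.restrictScalars_mem, Submodule.submoduleOf, Submodule.mem_comap, Submodule.subtype_apply]
  constructor
  · rintro ⟨y, hy, rfl⟩
    exact (hN _).2 hy
  · intro hx
    exact ⟨f.symm x, (hN _).1 hx, f.apply_symm_apply x⟩

end Transfer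

section Residue

variable (K : Type*) {A B : Type*} [Field K] [IsAlgClosed K] [CommRing A] [CommRing B]
  [Algebra K A] [Algebra A B] [Algebra K B] [IsScalarTower K A B] [Module.Finite A B]

/-- residue fields of a finite extension `B` of `A` are `K` when those of `A` are. -/
theorem ffside_residue_surjective
    (hA : ∀ p : Ideal A, p.IsMaximal → Function.Surjective (algebraMap K (A ⧸ p)))
    (P : Ideal B) (hP : P.IsMaximal) : Function.Surjective (algebraMap K (B ⧸ P)) := by
  have hint : Algebra.IsIntegral A B := Algebra.IsIntegral.of_finite A B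
  set p := P.under A with hp
  have hpmax : p.IsMaximal := Ideal.isMaximal_comap_of_isIntegral_of_isMaximal P
  have h1 : Module.Finite K (A ⧸ p) :=
    Module.Finite.of_surjective (Algebra.linearMap K (A ⧸ p)) (hA p hpmax)
  have h2 : Module.Finite (A ⧸ p) (B ⧸ P) :=
    Module.Finite.of_restrictScalars_finite A (A ⧸ p) (B ⧸ P)
  have h3 : Module.Finite K (B ⧸ P) := Module.Finite.trans (A ⧸ p) (B ⧸ P)
  have : Algebra.IsIntegral K (B ⧸ P) := Algebra.IsIntegral.of_finite K _
  have : IsDomain (B ⧸ P) := (Ideal.Quotient.isDomain_iff_prime P).2 hP.isPrime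
  exact (IsAlgClosed.algebraMap_bijective_of_isIntegral (k := K) (K := B ⧸ P)).2

end Residue

section Side

variable {K F : Type*} [Field K] [Field F] [Algebra K F]
  (A 𝕜 : Type*) [CommRing A] [Field 𝕜] [Algebra A 𝕜] [Algebra 𝕜 F] [Algebra A F]
  [IsScalarTower A 𝕜 F] [IsDedekindDomain A] [IsFractionRing A 𝕜] [FiniteDimensional 𝕜 F]
  [Algebra.IsSeparable 𝕜 F] [Algebra K A] [IsScalarTower K A F]
  [IsDedekindDomain (integralClosure A F)] [IsFractionRing (integralClosure A F) F]

/-- the order at the place of `P` in terms of the `P`-adic valuation. -/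
theorem ffside_valuation_le_exp_iff (P : HeightOneSpectrum (integralClosure A F)) (g : F) (m : ℤ) :
    P.valuation F g ≤ exp m ↔ g = 0 ∨ -m ≤ (placeOfPrime K F P).ord g := by
  rcases eq_or_ne g 0 with rfl | hg
  · simp
  have hv : P.valuation F g ≠ 0 := (Valuation.ne_zero_iff _).2 hg
  have h1 : P.valuation F g ≤ exp m ↔ log (P.valuation F g) ≤ m := by
    conv_lhs => rw [← exp_log hv]
    exact exp_le_exp
  rw [placeOfPrime_ord, h1]
  simp only [hg, false_or]
  constructor <;> intro h <;> linarith

include 𝕜 in
/-- the ramification index as the order of a generator of the prime below. -/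
theorem ffside_emultiplicity_eq (P : HeightOneSpectrum (integralClosure A F)) (π : A)
    (hπ : P.asIdeal.under A = Ideal.span {π}) :
    0 < (placeOfPrime K F P).ord (algebraMap A F π) ∧
    emultiplicity P.asIdeal ((P.asIdeal.under A).map (algebraMap A (integralClosure A F))) =
      ((placeOfPrime K F P).ord (algebraMap A F π)).toNat := by
  set b : integralClosure A F := algebraMap A (integralClosure A F) π with hb
  have hmap : (P.asIdeal.under A).map (algebraMap A (integralClosure A F)) = Ideal.span {b} := by
    rw [hπ, Ideal.map_span, Set.image_singleton]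
  have hpbot : P.asIdeal.under A ≠ ⊥ := mt Ideal.eq_bot_of_comap_eq_bot P.ne_bot
  have hπ0 : π ≠ 0 := by
    rintro rfl
    apply hpbot
    rw [hπ]; simp
  have hb0 : b ≠ 0 := by
    intro h0
    have h1 : algebraMap A F π = 0 := by
      rw [IsScalarTower.algebraMap_apply A (integralClosure A F) F, ← hb, h0, map_zero]
    rw [IsScalarTower.algebraMap_apply A 𝕜 F, map_eq_zero_iff _ (algebraMap 𝕜 F).injective,
      IsFractionRing.to_map_eq_zero_iff] at h1
    exact hπ0 h1
  have hbP : b ∈ P.asIdeal := by
    have : π ∈ P.asIdeal.under A := by rw [hπ]; exact Ideal.mem_span_singleton_self π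
    exact this
  have hord : (placeOfPrime K F P).ord (algebraMap A F π) = -(log (P.intValuation b)) := by
    rw [placeOfPrime_ord, IsScalarTower.algebraMap_apply A (integralClosure A F) F,
      valuation_of_algebraMap]
  have hv0 : P.intValuation b ≠ 0 := P.intValuation_ne_zero b hb0
  have hlt : P.intValuation b < 1 := (P.intValuation_lt_one_iff_mem b).2 hbP
  have hlog : log (P.intValuation b) < 0 := by
    have h1 : log (1 : ℤᵐ⁰) = 0 := log_one
    rw [← h1, log_lt_log hv0 one_ne_zero]
    exact hlt
  have hpos : 0 < (placeOfPrime K F P).ord (algebraMap A F π) := by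
    rw [hord]; omega
  refine ⟨hpos, ?_⟩
  rw [hmap, emultiplicity_eq_coe]
  set k := ((placeOfPrime K F P).ord (algebraMap A F π)).toNat with hk
  have hk' : (k : ℤ) = -(log (P.intValuation b)) := by
    rw [hk, Int.toNat_of_nonneg hpos.le, hord]
  have hval : P.intValuation b = exp (-(k : ℤ)) := by
    rw [hk', neg_neg, exp_log hv0]
  constructor
  · rw [← intValuation_le_pow_iff_dvd, hval]
  · rw [← intValuation_le_pow_iff_dvd, hval, exp_le_exp]
    push_cast
    omega

theorem ffside_charZero [CharZero K] (p : Ideal A) [p.IsPrime] : CharZero (A ⧸ p) :=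
  charZero_of_injective_algebraMap (algebraMap K (A ⧸ p)).injective

include 𝕜 in
/-- (GS1) the dual lattice of the integral closure, in terms of places. -/
theorem ffside_mem_dualSubmodule_iff [CharZero K]
    (π : HeightOneSpectrum (integralClosure A F) → A)
    (hπ : ∀ P : HeightOneSpectrum (integralClosure A F), P.asIdeal.under A = Ideal.span {π P})
    (g : F) :
    g ∈ (Algebra.traceForm 𝕜 F).dualSubmodule (Subalgebra.toSubmodule (integralClosure A F)) ↔
      ∀ P : HeightOneSpectrum (integralClosure A F), g = 0 ∨
        1 - (placeOfPrime K F P).ord (algebraMap A F (π P)) ≤ (placeOfPrime K F P).ord g := by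
  have := (ffdiff_aux_instances A 𝕜 F (integralClosure A F)).1
  rw [fflat_dualSubmodule_eq, Submodule.restrictScalars_mem,
    ffdiff_mem_traceDual_one_iff A 𝕜 F (integralClosure A F)
      (fun P => ((placeOfPrime K F P).ord (algebraMap A F (π P))).toNat)
      (fun P => ffside_charZero (K := K) A _)
      (fun P => (ffside_emultiplicity_eq (K := K) A 𝕜 P (π P) (hπ P)).2)]
  refine forall_congr' fun P => ?_
  have hpos := (ffside_emultiplicity_eq (K := K) A 𝕜 P (π P) (hπ P)).1
  rw [ffside_valuation_le_exp_iff (K := K) A P g, Int.toNat_of_nonneg hpos.le]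
  constructor <;> rintro (h | h)
  · exact Or.inl h
  · exact Or.inr (by linarith)
  · exact Or.inl h
  · exact Or.inr (by linarith)

include 𝕜 in
/-- (GS2) the `K`-dimension of `Λ^# / Λ` as a sum over the primes of the integral closure. -/
theorem ffside_finrank_dual_quot [CharZero K] [IsAlgClosed K]
    (hresA : ∀ p : Ideal A, p.IsMaximal → Function.Surjective (algebraMap K (A ⧸ p)))
    (π : HeightOneSpectrum (integralClosure A F) → A)
    (hπ : ∀ P : HeightOneSpectrum (integralClosure A F), P.asIdeal.under A = Ideal.span {π P})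
    (M' N' : Submodule K F)
    (hM : ∀ g, g ∈ M' ↔ g ∈ (Algebra.traceForm 𝕜 F).dualSubmodule
      (Subalgebra.toSubmodule (integralClosure A F)))
    (hN : ∀ g, g ∈ N' ↔ g ∈ integralClosure A F) :
    (Function.support fun P : HeightOneSpectrum (integralClosure A F) =>
      (placeOfPrime K F P).ord (algebraMap A F (π P)) - 1).Finite ∧
    (finrank K (↥M' ⧸ N'.submoduleOf M') : ℤ) =
      ∑ᶠ P : HeightOneSpectrum (integralClosure A F),
        ((placeOfPrime K F P).ord (algebraMap A F (π P)) - 1) := by
  have hinst := ffdiff_aux_instances A 𝕜 F (integralClosure A F)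
  have := hinst.1
  have := hinst.2
  have hresB := ffside_residue_surjective K (A := A) (B := integralClosure A F) hresA
  obtain ⟨h1, h2, h3⟩ := ffdiff_finrank_traceDual_quot A 𝕜 F (integralClosure A F) K hresB
      (fun P => ((placeOfPrime K F P).ord (algebraMap A F (π P))).toNat)
      (fun P => ffside_charZero (K := K) A _)
      (fun P => (ffside_emultiplicity_eq (K := K) A 𝕜 P (π P) (hπ P)).2)
  have hpos := fun P => (ffside_emultiplicity_eq (K := K) A 𝕜 P (π P) (hπ P)).1
  have hcast : ∀ P : HeightOneSpectrum (integralClosure A F),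
      (((((placeOfPrime K F P).ord (algebraMap A F (π P))).toNat - 1 : ℕ)) : ℤ) =
        (placeOfPrime K F P).ord (algebraMap A F (π P)) - 1 := by
    intro P
    have := hpos P
    omega
  have hsupp : (Function.support fun P : HeightOneSpectrum (integralClosure A F) =>
      (placeOfPrime K F P).ord (algebraMap A F (π P)) - 1) =
      Function.support fun P : HeightOneSpectrum (integralClosure A F) =>
        ((placeOfPrime K F P).ord (algebraMap A F (π P))).toNat - 1 := by
    ext P
    simp only [Function.mem_support, ne_eq]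
    rw [← hcast P]
    exact_mod_cast Iff.rfl
  refine ⟨hsupp ▸ h2, ?_⟩
  let e := ffsideQuotEquiv (K := K)
    (Submodule.traceDual A 𝕜 (1 : Submodule (integralClosure A F) F))
    (1 : Submodule (integralClosure A F) F) M' N'
    (fun g => by
      rw [hM, fflat_dualSubmodule_eq, Submodule.restrictScalars_mem])
    (fun g => by
      rw [hN, ← Subalgebra.mem_toSubmodule, ← fflat_one_restrictScalars,
        Submodule.restrictScalars_mem])
  rw [← e.finrank_eq, h3, finsum_eq_sum_of_support_subset _ (s := h2.toFinset) (by simp),
    finsum_eq_sum_of_support_subset _ (s := h2.toFinset) (by rw [hsupp]; simp)]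
  push_cast
  exact Finset.sum_congr rfl fun P _ => hcast P

attribute [local instance] Ideal.Quotient.field

include 𝕜 in
/-- (GS3) the fundamental identity `∑ e_P = n` over a maximal ideal `(π₀)` lying under all
primes of the integral closure. -/
theorem ffside_sum_ord_eq_finrank [IsAlgClosed K]
    (hresA : ∀ p : Ideal A, p.IsMaximal → Function.Surjective (algebraMap K (A ⧸ p)))
    (π₀ : A) (hπ0 : π₀ ≠ 0) (hmax : (Ideal.span {π₀}).IsMaximal)
    (hπ : ∀ P : HeightOneSpectrum (integralClosure A F), P.asIdeal.under A = Ideal.span {π₀}) :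
    (Function.support fun P : HeightOneSpectrum (integralClosure A F) =>
      (placeOfPrime K F P).ord (algebraMap A F π₀)).Finite ∧
    ∑ᶠ P : HeightOneSpectrum (integralClosure A F),
      (placeOfPrime K F P).ord (algebraMap A F π₀) = (finrank 𝕜 F : ℤ) := by
  have hinst := ffdiff_aux_instances A 𝕜 F (integralClosure A F)
  have := hinst.1
  have := hinst.2
  have hresB := ffside_residue_surjective K (A := A) (B := integralClosure A F) hresA
  set p : Ideal A := Ideal.span {π₀} with hp
  set J : Ideal (integralClosure A F) := p.map (algebraMap A (integralClosure A F)) with hJ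
  have hpbot : p ≠ ⊥ := by
    rw [hp, ne_eq, Ideal.span_singleton_eq_bot]; exact hπ0
  have hJ0 : J ≠ 0 := by
    rw [hJ]
    exact Ideal.map_ne_bot_of_ne_bot hpbot
  have hmult : ∀ P : HeightOneSpectrum (integralClosure A F), emultiplicity P.asIdeal J =
      ((placeOfPrime K F P).ord (algebraMap A F π₀)).toNat := by
    intro P
    have := (ffside_emultiplicity_eq (K := K) A 𝕜 P π₀ (hπ P)).2
    rwa [hπ P] at this
  have hpos := fun P => (ffside_emultiplicity_eq (K := K) A 𝕜 P π₀ (hπ P)).1
  obtain ⟨h1, h2⟩ := ffdim_quotient_eq_card_normalizedFactors K hresB J hJ0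
  obtain ⟨h3, h4⟩ := ffdim_card_normalizedFactors_eq_finsum J hJ0 _ hmult
  have hsupp : (Function.support fun P : HeightOneSpectrum (integralClosure A F) =>
      (placeOfPrime K F P).ord (algebraMap A F π₀)) =
      Function.support fun P : HeightOneSpectrum (integralClosure A F) =>
        ((placeOfPrime K F P).ord (algebraMap A F π₀)).toNat := by
    ext P
    have := hpos P
    simp only [Function.mem_support, ne_eq]
    omega
  refine ⟨hsupp ▸ h3, ?_⟩
  -- the dimension of `B ⧸ p B`
  have htower : IsScalarTower K (A ⧸ p) (integralClosure A F ⧸ J) :=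
    IsScalarTower.of_algebraMap_eq fun c => by
      rw [IsScalarTower.algebraMap_apply K (integralClosure A F) (integralClosure A F ⧸ J),
        IsScalarTower.algebraMap_apply K A (integralClosure A F),
        IsScalarTower.algebraMap_apply K A (A ⧸ p)]
      rfl
  have hbij : Function.Bijective (algebraMap K (A ⧸ p)) :=
    ⟨(algebraMap K (A ⧸ p)).injective, hresA p hmax⟩
  have hone : finrank K (A ⧸ p) = 1 := by
    rw [← (LinearEquiv.ofBijective (Algebra.linearMap K (A ⧸ p)) hbij).finrank_eq, finrank_self]
  have hn : finrank (A ⧸ p) (integralClosure A F ⧸ J) = finrank 𝕜 F :=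
    Ideal.finrank_quotient_map p 𝕜 F
  have hmul := Module.finrank_mul_finrank K (A ⧸ p) (integralClosure A F ⧸ J)
  rw [hone, one_mul, hn] at hmul
  rw [← hmul, h4] at h2
  rw [h2, finsum_eq_sum_of_support_subset _ (s := h3.toFinset) (by rw [hsupp]; simp),
    finsum_eq_sum_of_support_subset _ (s := h3.toFinset) (by simp)]
  push_cast
  exact Finset.sum_congr rfl fun P _ => (Int.toNat_of_nonneg (hpos P).le).symm

end Side

end Fermat.Agent.S20
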